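import Mathlib.FieldTheory.IsAlgClosed.AlgebraicClosure
import Mathlib.FieldTheory.IsSepClosed
import Mathlib.FieldTheory.SeparableDegree
import Fermat.Prelude.Def_ModularCurve_X0ModL
import Fermat.Agent.ModPoly.Field
import Fermat.Agent.ModPoly.Roots

/-!
# Generation and separability of `K (j (q ^ d) : d ∣ N)` over `K (j)`, `N` invertible in `K`
-/

set_option autoImplicit false
set_option linter.style.haveILetI false

noncomputable section

open Polynomial ModularCurve IntermediateField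

namespace FLTAgent.Igusa

open FLTAgent.ModPoly

/-- A common root of two polynomials which is their only one is rational, the first one
being separable and split. -/
theorem exists_of_common_root {E F : Type*} [Field E] [Field F] (h : E →+* F) {f₁ f₂ : E[X]}
    (hne : f₁.map h ≠ 0) (hsep : (f₁.map h).Separable) (hspl : (f₁.map h).Splits) {x : F}
    (h₁ : (f₁.map h).IsRoot x) (h₂ : (f₂.map h).IsRoot x)
    (huniq : ∀ z, (f₁.map h).IsRoot z → (f₂.map h).IsRoot z → z = x) : ∃ e, h e = x := by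
  classical
  set g := EuclideanDomain.gcd f₁ f₂
  have hg : g.map h = EuclideanDomain.gcd (f₁.map h) (f₂.map h) := (Polynomial.gcd_map h).symm
  have hd1 : g.map h ∣ f₁.map h := hg ▸ EuclideanDomain.gcd_dvd_left _ _
  have hd2 : g.map h ∣ f₂.map h := hg ▸ EuclideanDomain.gcd_dvd_right _ _
  have hg0 : g.map h ≠ 0 := fun e => hne (zero_dvd_iff.mp (e ▸ hd1))
  have hxg : (g.map h).IsRoot x := by
    rw [← dvd_iff_isRoot, hg]
    exact EuclideanDomain.dvd_gcd (dvd_iff_isRoot.mpr h₁) (dvd_iff_isRoot.mpr h₂)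
  have hgs : (g.map h).Separable := hsep.of_dvd hd1
  have hgp : (g.map h).Splits := hspl.of_dvd hne hd1
  have hroots : (g.map h).roots.toFinset ⊆ {x} := fun z hz => by
    rw [Multiset.mem_toFinset, mem_roots hg0] at hz
    exact Finset.mem_singleton.mpr (huniq z (hz.dvd hd1) (hz.dvd hd2))
  have hdeg : (g.map h).natDegree = 1 := by
    rw [hgp.natDegree_eq_card_roots, ← Multiset.toFinset_card_of_nodup (nodup_roots hgs),
      Finset.card_eq_one]
    exact ⟨x, Finset.Subset.antisymm hroots (Finset.singleton_subset_iff.mpr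
      (Multiset.mem_toFinset.mpr ((mem_roots hg0).mpr hxg)))⟩
  rw [natDegree_map] at hdeg
  obtain ⟨a, ha, b, hab⟩ := natDegree_eq_one.mp hdeg
  refine ⟨-b / a, ?_⟩
  have hev : h a * x + h b = 0 := by
    have := hxg
    rw [← hab, IsRoot] at this
    simpa using this
  rw [map_div₀, map_neg, div_eq_iff ((map_ne_zero h).mpr ha)]
  linear_combination -hev

variable {K : Type*} [Field K]

theorem exists_isPrimitiveRoot {k : Type*} [Field k] [IsAlgClosed k] {d : ℕ} [NeZero (d : k)] :
    ∃ ζ : kˣ, IsPrimitiveRoot ζ d ∧ (cyclotomic d k).IsRoot (ζ : k) := by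
  haveI : NeZero d := NeZero.of_neZero_natCast k
  obtain ⟨z, hz⟩ := IsAlgClosed.exists_root (cyclotomic d k)
    (degree_cyclotomic_pos d k (NeZero.pos d)).ne'
  have hp := isRoot_cyclotomic_iff.mp hz
  exact ⟨(hp.isUnit (NeZero.ne d)).unit, hp.isUnit_unit (NeZero.ne d), hz⟩

/-- `q = t ^ d`, with coefficients in an algebraic closure. -/
def toAlgClosure (K : Type*) [Field K] (d : ℕ) [NeZero d] :
    LaurentSeries K →+* LaurentSeries (AlgebraicClosure K) :=
  (qExpand _ d).comp (coeffMap (algebraMap K (AlgebraicClosure K)))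

theorem toAlgClosure_qExpand_jqModC (d e : ℕ) [NeZero d] [NeZero e] :
    toAlgClosure K d (qExpand K e (jqModC K)) = qExpand _ (d * e) (jqModC (AlgebraicClosure K)) := by
  rw [toAlgClosure, RingHom.comp_apply, coeffMap_qExpand, coeffMap_jqModC', qExpand_qExpand]

theorem evalL_map {R S : Type*} [CommRing R] [CommRing S] (f : R →+* S)
    (φ : LaurentSeries R →+* LaurentSeries S) (hφ : ∀ r, φ (HahnSeries.C r) = HahnSeries.C (f r))
    (x : LaurentSeries R) : φ.comp (evalL R x) = (evalL S (φ x)).comp (mapRingHom f) := by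
  refine Polynomial.ringHom_ext (fun c => ?_) ?_
  · simpa [evalL, algebraMap_eq_C, HahnSeries.C_apply] using hφ c
  · simp [evalL]

/-- `Φ_m (x, X)`. -/
def phiAt (m : ℕ) [NeZero m] {R : Type*} [CommRing R] (x : LaurentSeries R) :
    (LaurentSeries R)[X] :=
  (phiK m R).map (evalL R x)

theorem phiAt_map (m : ℕ) [NeZero m] {R S : Type*} [CommRing R] [CommRing S] (f : R →+* S)
    (φ : LaurentSeries R →+* LaurentSeries S) (hφ : ∀ r, φ (HahnSeries.C r) = HahnSeries.C (f r))
    (x : LaurentSeries R) : (phiAt m x).map φ = phiAt m (φ x) := by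
  rw [phiAt, Polynomial.map_map, evalL_map f φ hφ, ← Polynomial.map_map,
    show (phiK m R).map (mapRingHom f) = mapXY f (phiK m R) from rfl, mapXY_phiK, phiAt]

theorem phiAt_toAlgClosure (m d : ℕ) [NeZero m] [NeZero d] (x : LaurentSeries K) :
    (phiAt m x).map (toAlgClosure K d) = phiAt m (toAlgClosure K d x) :=
  phiAt_map m (algebraMap K (AlgebraicClosure K)) _ (fun r => by
    simp [toAlgClosure, HahnSeries.C_apply]) x

variable (d : ℕ) [NeZero d]

theorem phiAt_self_map : (phiAt d (jqModC K)).map (toAlgClosure K d)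
    = phiRoots d (AlgebraicClosure K) := by
  rw [phiAt_toAlgClosure, toAlgClosure, RingHom.comp_apply, coeffMap_jqModC']
  rfl

theorem separable_phiRoots [NeZero (d : AlgebraicClosure K)] :
    (phiRoots d (AlgebraicClosure K)).Separable := by
  obtain ⟨ζ, hζ, hroot⟩ := exists_isPrimitiveRoot (k := AlgebraicClosure K) (d := d)
  rw [phiRoots_eq_conjProd d ζ hroot, conjProd, separable_prod_X_sub_C_iff]
  exact fun p r e => Subtype.ext (jqConj_injective hζ p.2 r.2 e)

theorem isRoot_phiAt_jqN (R : Type*) [CommRing R] :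
    (phiAt d (jqModC R)).eval (jqNModC R d) = 0 :=
  eval_phiRoots_jqN d R

theorem neZero_algClosure {n : ℕ} (h : (n : K) ≠ 0) : NeZero (n : AlgebraicClosure K) :=
  ⟨by rw [← map_natCast (algebraMap K (AlgebraicClosure K))]; exact (_root_.map_ne_zero _).mpr h⟩

/-- `j (q ^ d)` is separable over `K (j)`. -/
theorem isSeparable_qExpand_jqModC (hd : (d : K) ≠ 0) :
    IsSeparable K⟮jqModC K⟯ (qExpand K d (jqModC K)) := by
  haveI := neZero_algClosure hd
  set P : (K⟮jqModC K⟯)[X] := (phiK d K).map (evalJK K) with hP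
  have hmap : P.map (algebraMap K⟮jqModC K⟯ (LaurentSeries K)) = phiAt d (jqModC K) := by
    rw [hP, Polynomial.map_map, algebraMap_comp_evalJK]; rfl
  have hsep : P.Separable := by
    have := separable_phiRoots (K := K) d
    rw [← phiAt_self_map, ← hmap, Polynomial.separable_map, Polynomial.separable_map] at this
    exact this
  refine hsep.of_dvd (minpoly.dvd _ _ ?_)
  rw [aeval_def, ← eval_map, hmap]
  exact isRoot_phiAt_jqN d K

theorem eq_of_qExpand_eq_jqConj {m : ℕ} [NeZero m] {k : Type*} [Field k] {ζ : kˣ}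
    {p r : ℕ × ℕ} (hp : p ∈ hermiteSet d) (hr : r ∈ hermiteSet m) {ξ : kˣ}
    (h : jqConj k ζ p = qExpand k (d * d) (jqConj k ξ r)) : p = (d, 0) := by
  have hp0 := (fst_pos_of_mem hp).ne'
  have hr0 := (fst_pos_of_mem hr).ne'
  obtain ⟨h1, h2⟩ := coeff_jqConj ζ (p := p) hp0
  obtain ⟨h3, h4⟩ := coeff_jqConj ξ (p := r) hr0
  set z := qExpand k (d * d) (jqConj k ξ r) with hz
  set n : ℤ := ((d * d : ℕ) : ℤ) * -((r.1 * r.1 : ℕ) : ℤ) with hn
  have hzn : z.coeff n ≠ 0 := by
    rw [hz, hn, qExpand_coeff_mul, h3]; exact Units.ne_zero _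
  have hzlt : ∀ i < n, z.coeff i = 0 := by
    intro i hi
    by_cases hdvd : ((d * d : ℕ) : ℤ) ∣ i
    · obtain ⟨l, rfl⟩ := hdvd
      rw [hz, qExpand_coeff_mul]
      exact h4 l (lt_of_mul_lt_mul_left hi (Int.natCast_nonneg _))
    · exact qExpand_coeff_of_not_dvd _ _ hdvd
  have heq : -((p.1 * p.1 : ℕ) : ℤ) = n := by
    rcases lt_trichotomy (-((p.1 * p.1 : ℕ) : ℤ)) n with hl | he | hg
    · have := hzlt _ hl
      rw [← h, h1] at this
      exact absurd this (Units.ne_zero _)
    · exact he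
    · exact absurd (h ▸ h2 _ hg) hzn
  have hsq : p.1 * p.1 = d * r.1 * (d * r.1) := by
    apply Int.natCast_inj.mp
    rw [hn] at heq
    push_cast at heq ⊢
    linarith [mul_neg ((d : ℤ) * d) ((r.1 : ℤ) * r.1)]
  have hp1 : p.1 = d * r.1 := Nat.mul_self_inj.mp hsq
  obtain ⟨hdvd, hlt, -⟩ := mem_hermiteSet.mp hp
  have hr1 : r.1 = 1 := by
    have h5 : d * r.1 ≤ d := hp1 ▸ Nat.le_of_dvd (NeZero.pos d) hdvd
    have h6 : r.1 ≤ 1 := Nat.le_of_mul_le_mul_left (by rwa [mul_one]) (NeZero.pos d)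
    omega
  rw [hr1, mul_one] at hp1
  refine Prod.ext hp1 ?_
  rw [hp1, Nat.div_self (NeZero.pos d)] at hlt
  exact Nat.lt_one_iff.mp hlt

/-- `j (q ^ d) ∈ K (j, j (q ^ N))` for `d ∣ N`. -/
theorem qExpand_jqModC_mem_modularFunctionFieldC (N : ℕ) [NeZero N] (hN : (N : K) ≠ 0)
    (hd : d ∣ N) : qExpand K d (jqModC K) ∈ modularFunctionFieldC K N := by
  classical
  obtain ⟨m, rfl⟩ := hd
  haveI : NeZero m := ⟨right_ne_zero_of_mul (NeZero.ne (d * m))⟩
  rw [Nat.cast_mul] at hN
  haveI := neZero_algClosure (left_ne_zero_of_mul hN)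
  haveI := neZero_algClosure (right_ne_zero_of_mul hN)
  set k := AlgebraicClosure K
  set E := modularFunctionFieldC K (d * m)
  set ι : E →+* LaurentSeries K := algebraMap E (LaurentSeries K)
  set h : E →+* LaurentSeries k := (toAlgClosure K d).comp ι
  set f₁ : E[X] := (phiK d K).map
    ((aeval (⟨_, jqModC_mem K (d * m)⟩ : E) : K[X] →ₐ[K] E) : K[X] →+* E) with hf₁
  set f₂ : E[X] := (phiK m K).map
    ((aeval (⟨_, jqNModC_mem K (d * m)⟩ : E) : K[X] →ₐ[K] E) : K[X] →+* E) with hf₂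
  have hι : ∀ x : E, ι.comp ((aeval x : K[X] →ₐ[K] E) : K[X] →+* E) = evalL K (ι x) := fun x =>
    RingHom.ext fun p => (aeval_algHom_apply E.val x p).symm
  have e₁ : f₁.map h = phiRoots d k := by
    rw [← phiAt_self_map, show f₁.map h = (f₁.map ι).map (toAlgClosure K d) from
      (Polynomial.map_map _ _ _).symm, hf₁, Polynomial.map_map _ ι, hι]
    rfl
  have e₂ : f₂.map h = (phiRoots m k).map (qExpand k (d * d)) := by
    rw [show f₂.map h = (f₂.map ι).map (toAlgClosure K d) from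
      (Polynomial.map_map _ _ _).symm, hf₂, Polynomial.map_map _ ι, hι,
      show ((phiK m K).map (evalL K (ι ⟨_, jqNModC_mem K (d * m)⟩)))
        = phiAt m (qExpand K (d * m) (jqModC K)) from rfl,
      phiAt_toAlgClosure, toAlgClosure_qExpand_jqModC, phiRoots,
      show (phiK m k).map (evalL k (qExpand k m (jqModC k))) = phiAt m _ from rfl,
      phiAt_map m (RingHom.id k) _ (fun r => by simp), qExpand_qExpand,
      qExpand_congr (mul_assoc d d m)]
  obtain ⟨ζ, hζ, hζr⟩ := exists_isPrimitiveRoot (k := k) (d := d)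
  obtain ⟨ξ, hξ, hξr⟩ := exists_isPrimitiveRoot (k := k) (d := m)
  have p₁ : phiRoots d k = conjProd d k ζ := phiRoots_eq_conjProd d ζ hζr
  have p₂ : phiRoots m k = conjProd m k ξ := phiRoots_eq_conjProd m ξ hξr
  set x := toAlgClosure K d (qExpand K d (jqModC K)) with hxdef
  have hx : x = jqConj k ζ (topIdx d) := by
    rw [hxdef, toAlgClosure_qExpand_jqModC, jqConj_topIdx, jqNModC, qExpand_qExpand]
  have r₁ : (f₁.map h).IsRoot x := by
    rw [e₁, p₁, conjProd, IsRoot, eval_prod]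
    exact Finset.prod_eq_zero (Finset.mem_univ (topIdx d)) (by simp [hx])
  have hone : (1, 0) ∈ hermiteSet m :=
    mem_hermiteSet.mpr ⟨one_dvd m, by simpa using NeZero.pos m, by simp⟩
  have r₂ : (f₂.map h).IsRoot x := by
    haveI : NeZero ((1, 0).1 * (1, 0).1) := ⟨one_ne_zero⟩
    rw [e₂, p₂, conjProd, Polynomial.map_prod, IsRoot, eval_prod]
    refine Finset.prod_eq_zero (Finset.mem_univ ⟨(1, 0), hone⟩) ?_
    rw [Polynomial.map_sub, map_X, map_C, eval_sub, eval_X, eval_C, sub_eq_zero, hxdef,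
      toAlgClosure_qExpand_jqModC, jqConj_eq]
    simp only [mul_one, mul_zero, pow_zero, twist_one_unit]
    rw [qExpand_qExpand]
    exact qExpand_congr (mul_one _).symm _
  have hne : f₁.map h ≠ 0 := by
    rw [e₁, p₁, conjProd]; exact Finset.prod_ne_zero_iff.mpr fun p _ => X_sub_C_ne_zero _
  obtain ⟨e, he⟩ := exists_of_common_root h hne (e₁ ▸ separable_phiRoots d)
    (e₁ ▸ p₁ ▸ Polynomial.Splits.prod fun p _ => Polynomial.Splits.X_sub_C _) r₁ r₂ (by
    intro z hz₁ hz₂
    rw [e₁, p₁, conjProd, IsRoot, eval_prod, Finset.prod_eq_zero_iff] at hz₁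
    rw [e₂, p₂, conjProd, Polynomial.map_prod, IsRoot, eval_prod, Finset.prod_eq_zero_iff] at hz₂
    obtain ⟨p, -, hp⟩ := hz₁
    obtain ⟨r, -, hr⟩ := hz₂
    rw [eval_sub, eval_X, eval_C, sub_eq_zero] at hp
    rw [Polynomial.map_sub, map_X, map_C, eval_sub, eval_X, eval_C, sub_eq_zero] at hr
    have hpd := eq_of_qExpand_eq_jqConj d p.2 r.2 (hp.symm.trans hr)
    rw [hp, hx, show p = topIdx d from Subtype.ext hpd])
  have heq : ι e = qExpand K d (jqModC K) := (toAlgClosure K d).injective he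
  exact heq ▸ e.2

theorem modularFunctionFieldFullC_eq (K : Type*) [Field K] (N : ℕ) [NeZero N] (hN : (N : K) ≠ 0) :
    modularFunctionFieldFullC K N = modularFunctionFieldC K N := by
  refine le_antisymm ?_ (modularFunctionFieldC_le_full K N)
  rw [modularFunctionFieldFullC, adjoin_le_iff]
  rintro x ⟨e, _, he, rfl⟩
  exact qExpand_jqModC_mem_modularFunctionFieldC e N hN he

theorem isSeparable_adjoin_divisorExpansionsC (K : Type*) [Field K] (N : ℕ) [NeZero N]
    (hN : (N : K) ≠ 0) :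
    Algebra.IsSeparable K⟮jqModC K⟯
      ↥(IntermediateField.adjoin K⟮jqModC K⟯ (divisorExpansionsC K N)) := by
  rw [isSeparable_adjoin_iff_isSeparable]
  rintro x ⟨e, _, ⟨c, rfl⟩, rfl⟩
  rw [Nat.cast_mul] at hN
  exact isSeparable_qExpand_jqModC e (left_ne_zero_of_mul hN)

end FLTAgent.Igusa
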