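import Fermat.Agent.Igusa.Tower
import Mathlib.LinearAlgebra.Dimension.Finite

/-!
# `ψ N` elements of `ℤ[j (q ^ d)]` whose reductions are independent over `𝔽_ℓ (j)`
-/

set_option autoImplicit false
set_option linter.style.haveILetI false
set_option linter.unusedSectionVars false

noncomputable section

open Polynomial Finset IntermediateField ModularCurve

namespace FLTAgent.Igusa

theorem exists_algClosed_charP (ℓ : ℕ) [Fact ℓ.Prime] :
    ∃ (k : Type) (_ : Field k) (_ : IsAlgClosed k) (_ : CharP k ℓ), Nonempty (AlgInt →+* k) := by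
  have hne : Ideal.span {(ℓ : AlgInt)} ≠ ⊤ := by
    rw [Ne, Ideal.span_singleton_eq_top]
    rintro ⟨u, hu⟩
    have hint : IsIntegral ℤ ((ℓ : ℂ)⁻¹) := by
      have hmul : (u : AlgInt).1 * ((u⁻¹ : AlgIntˣ) : AlgInt).1 = 1 := by
        rw [← Subalgebra.coe_mul, Units.mul_inv]; rfl
      have h1 : ((u⁻¹ : AlgIntˣ) : AlgInt).1 = (ℓ : ℂ)⁻¹ := by
        refine eq_inv_of_mul_eq_one_right ?_
        rw [← hmul, hu]
        rfl
      exact h1 ▸ ((u⁻¹ : AlgIntˣ) : AlgInt).2
    have hq : IsIntegral ℤ ((ℓ : ℚ)⁻¹) := by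
      refine (isIntegral_algebraMap_iff (R := ℤ) (algebraMap ℚ ℂ).injective).mp ?_
      rwa [map_inv₀, map_natCast]
    obtain ⟨z, hz⟩ := IsIntegrallyClosed.isIntegral_iff.mp hq
    have hl : (ℓ : ℤ) * z = 1 := by
      apply Int.cast_injective (α := ℚ)
      rw [Int.cast_mul, Int.cast_natCast, ← eq_intCast (algebraMap ℤ ℚ) z, hz, Int.cast_one,
        mul_inv_cancel₀ (Nat.cast_ne_zero.mpr (Fact.out : ℓ.Prime).ne_zero)]
    exact (Fact.out : ℓ.Prime).ne_one (by exact_mod_cast Int.eq_one_of_mul_eq_one_right (Int.natCast_nonneg ℓ) hl)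
  obtain ⟨m, hm, hle⟩ := Ideal.exists_le_maximal _ hne
  haveI := hm
  letI : Field (AlgInt ⧸ m) := Ideal.Quotient.field m
  refine ⟨AlgebraicClosure (AlgInt ⧸ m), inferInstance, inferInstance, ?_,
    ⟨(algebraMap (AlgInt ⧸ m) (AlgebraicClosure (AlgInt ⧸ m))).comp (Ideal.Quotient.mk m)⟩⟩
  rw [CharP.charP_iff_prime_eq_zero (Fact.out : ℓ.Prime)]
  rw [← map_natCast (algebraMap (AlgInt ⧸ m) (AlgebraicClosure (AlgInt ⧸ m))),
    ← map_natCast (Ideal.Quotient.mk m), Ideal.Quotient.eq_zero_iff_mem.mpr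
      (hle (Ideal.mem_span_singleton_self _)), map_zero]

/-- `ℤ[j (q ^ d) : d ∣ N]`. -/
def intModRing (N : ℕ) : Subring (LaurentSeries ℤ) :=
  Subring.closure {x | ∃ (d : ℕ) (_ : NeZero d), d ∣ N ∧ x = qExpand ℤ d (jqModC ℤ)}

theorem exists_independent_reductions (N : ℕ) [NeZero N] (ℓ : ℕ) [Fact ℓ.Prime] (hℓN : ¬ ℓ ∣ N) :
    ∃ b : Fin (psiProd N) → intModRing N, ∀ P : Fin (psiProd N) → (ZMod ℓ)[X],
      ∑ i, aeval (jqModC (ZMod ℓ)) (P i) * coeffMap (Int.castRingHom (ZMod ℓ)) (b i : LaurentSeries ℤ) = 0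
        → ∀ i, P i = 0 := by
  obtain ⟨k, _, _, _, ⟨φ⟩⟩ := exists_algClosed_charP ℓ
  have hN : (N : k) ≠ 0 := by rwa [Ne, CharP.cast_eq_zero_iff k ℓ N]
  set K0 := baseField k N
  set f : ZMod ℓ →+* k := ZMod.castHom dvd_rfl k
  set E : LaurentSeries (ZMod ℓ) →+* Amb k :=
    ((algebraMap (LaurentSeries k) (Amb k)).comp (qExpand k N)).comp (coeffMap f)
  set r : LaurentSeries ℤ →+* LaurentSeries (ZMod ℓ) := coeffMap (Int.castRingHom (ZMod ℓ))
  set M : Subring (Amb k) := (intModRing N).map (E.comp r) with hM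
  have hgen : genSet (k := k) N N.primeFactors ⊆ (M : Set (Amb k)) := by
    rintro z ⟨p, hp, i, hi, rfl⟩
    haveI : NeZero (p ^ i) := ⟨pow_ne_zero _ (Nat.prime_of_mem_primeFactors hp).ne_zero⟩
    refine Subring.mem_map.mpr ⟨qExpand ℤ (p ^ i) (jqModC ℤ),
      Subring.subset_closure ⟨p ^ i, inferInstance, pow_dvd_N hi, rfl⟩, ?_⟩
    show algebraMap _ (Amb k) (qExpand k N (coeffMap f (coeffMap _ _))) = _
    rw [coeffMap_qExpand, coeffMap_jqModC, coeffMap_qExpand, coeffMap_jqModC, qExpand_qExpand,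
      gen, Xj, J_one_unit]
  set V := Submodule.span K0 (M : Set (Amb k))
  have hL : (adjoin K0 (genSet (k := k) N N.primeFactors)).toSubalgebra.toSubmodule ≤ V := by
    have halg : ∀ x ∈ genSet (k := k) N N.primeFactors, IsAlgebraic K0 x := by
      rintro x ⟨p, -, i, hi, rfl⟩
      exact (isIntegral_gen φ p i hi).isAlgebraic
    rw [IntermediateField.adjoin_toSubalgebra_of_isAlgebraic halg, Algebra.adjoin_eq_span]
    refine Submodule.span_le.mpr (Set.Subset.trans ?_ Submodule.subset_span)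
    exact (Submonoid.closure_le (S := M.toSubmonoid)).mpr hgen
  obtain ⟨s, hsM, hspan, hli⟩ := exists_linearIndependent K0 (M : Set (Amb k))
  have hemb : Nonempty (Fin (psiProd N) ↪ s) := by
    rcases s.finite_or_infinite with hfin | hinf
    · haveI := hfin.fintype
      haveI : FiniteDimensional K0 V := by
        rw [show V = Submodule.span K0 s from hspan.symm]
        exact FiniteDimensional.span_of_finite K0 hfin
      have h1 : psiProd N ≤ Module.finrank K0 V :=
        (psiProd_le_finrank φ hN).trans (Submodule.finrank_mono hL)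
      have h2 : Module.finrank K0 V ≤ Fintype.card s := by
        rw [show V = Submodule.span K0 s from hspan.symm]
        exact finrank_span_le_card s |>.trans (le_of_eq (Set.toFinset_card s))
      exact Function.Embedding.nonempty_of_card_le (by simpa using h1.trans h2)
    · haveI := hinf.to_subtype
      exact ⟨Fin.valEmbedding.trans (Infinite.natEmbedding s)⟩
  obtain ⟨e⟩ := hemb
  choose b hb hbe using fun i => Subring.mem_map.mp (hsM (e i).2)
  refine ⟨fun i => ⟨b i, hb i⟩, fun P hP i => ?_⟩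
  have hE : ∀ Q : (ZMod ℓ)[X], E (aeval (jqModC (ZMod ℓ)) Q) = aeval (Xj (k := k) N 1) (Q.map f) := by
    intro Q
    rw [aeval_def, aeval_def, eval₂_map, hom_eval₂]
    congr 1
    · exact Subsingleton.elim _ _
    · show algebraMap _ (Amb k) (qExpand k N (coeffMap f (jqModC _))) = _
      rw [coeffMap_jqModC, Xj, J_one_unit]
  have hmem : ∀ Q : k[X], aeval (Xj (k := k) N 1) Q ∈ K0 := fun Q =>
    IntermediateField.algebra_adjoin_le_adjoin k _ (aeval_mem_adjoin_singleton k _)
  have hcomb : ∑ i, (⟨_, hmem ((P i).map f)⟩ : K0) • ((e i : Amb k)) = 0 := by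
    have h := congr_arg E hP
    rw [map_zero, map_sum] at h
    refine Eq.trans (Finset.sum_congr rfl fun i _ => ?_) h
    rw [map_mul, hE, ← hbe i]
    rfl
  have h0 := Fintype.linearIndependent_iff.mp (hli.comp e e.injective) _ hcomb i
  have h1 : aeval (Xj (k := k) N 1) ((P i).map f) = 0 := congr_arg Subtype.val h0
  rw [← hE, ← map_zero E] at h1
  have h2 := E.injective h1
  have hinj : Function.Injective (aeval (R := ZMod ℓ) (jqModC (ZMod ℓ))) := by
    haveI : NeZero (1 : ℕ) := inferInstance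
    simpa [qExpand_one_apply] using injective_aeval_qExpand_jqModC (k := ZMod ℓ) 1
  exact hinj (h2.trans (map_zero _).symm)

end FLTAgent.Igusa
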