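import Mathlib.FieldTheory.IntermediateField.Algebraic
import Mathlib.LinearAlgebra.Dual.Lemmas
import Mathlib.RingTheory.IntegralClosure.IsIntegralClosure.Basic
import Fermat.Prelude.Def_ModularCurve_X0ModL
import Fermat.Agent.Igusa.Independent
import Fermat.Agent.ModPoly.Field

/-!
# Integral bases of `K (j (q ^ d) : d ∣ N)` over `K (j)`

`IsModBasis N K c` says that the images in `K((q))` of the integral series `c i` are independent
over `K[j]` and span `ℤ[j (q ^ d)]` up to denominators in `K[j]`; this passes to extension fields,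
and makes them a `K (j)`-basis of the function field.
-/

set_option autoImplicit false
set_option linter.style.haveILetI false

noncomputable section

open Polynomial Finset ModularCurve IntermediateField

namespace FLTAgent.Igusa

/-- The image of an integral series in `K((q))`. -/
def intToC (K : Type*) [CommRing K] : LaurentSeries ℤ →+* LaurentSeries K :=
  coeffMap (Int.castRingHom K)

theorem coeffMap_intToC {R S : Type*} [CommRing R] [CommRing S] (f : R →+* S)
    (x : LaurentSeries ℤ) : coeffMap f (intToC R x) = intToC S x := by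
  rw [intToC, intToC, coeffMap_coeffMap]
  exact coeffMap_congr (RingHom.ext_int _ _) x

theorem intToC_jqModC (K : Type*) [CommRing K] : intToC K (jqModC ℤ) = jqModC K :=
  coeffMap_jqModC _

theorem coeffMap_aeval_jqModC {k₀ K : Type*} [Field k₀] [Field K] (f : k₀ →+* K) (P : k₀[X]) :
    coeffMap f (aeval (jqModC k₀) P) = aeval (jqModC K) (P.map f) := by
  rw [aeval_def, hom_eval₂, coeffMap_jqModC, aeval_def, eval₂_map]
  congr 1
  refine RingHom.ext fun r => ?_
  simp [algebraMap_laurentSeries_eq_single]

/-- The images of `c` form a basis of the function field in characteristic-free terms. -/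
structure IsModBasis (N : ℕ) (K : Type*) [Field K] {n : ℕ} (c : Fin n → intModRing N) : Prop where
  indep : ∀ P : Fin n → K[X],
    ∑ i, aeval (jqModC K) (P i) * intToC K (c i : LaurentSeries ℤ) = 0 → P = 0
  spans : ∀ x ∈ intModRing N, ∃ (Q : K[X]) (P : Fin n → K[X]), Q ≠ 0 ∧
    aeval (jqModC K) Q * intToC K x = ∑ i, aeval (jqModC K) (P i) * intToC K (c i : LaurentSeries ℤ)

variable {N : ℕ} {n : ℕ} {c : Fin n → intModRing N}

theorem IsModBasis.baseChange {k₀ : Type*} [Field k₀] (h : IsModBasis N k₀ c) (K : Type*)
    [Field K] [Algebra k₀ K] : IsModBasis N K c := by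
  classical
  refine ⟨fun P hP => ?_, fun x hx => ?_⟩
  · -- apply linear forms to the coefficients
    have hQ : ∀ s : K →ₗ[k₀] k₀,
        (fun i => ∑ e ∈ (P i).support, monomial e (s ((P i).coeff e))) = 0 := by
      intro s
      refine h.indep _ (HahnSeries.ext (funext fun m => ?_))
      have hm := congr_arg s (congr_arg (fun z : LaurentSeries K => z.coeff m) hP)
      simp only [HahnSeries.coeff_zero, map_zero, HahnSeries.coeff_sum, map_sum] at hm ⊢
      refine Eq.trans (Finset.sum_congr rfl fun i _ => ?_) hm
      conv_rhs => rw [(P i).as_sum_support]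
      simp only [map_sum, Finset.sum_mul, HahnSeries.coeff_sum]
      refine Finset.sum_congr rfl fun e _ => ?_
      simp only [aeval_monomial, algebraMap_laurentSeries_eq_single, mul_assoc,
        HahnSeries.coeff_single_zero_mul]
      rw [← coeffMap_jqModC (algebraMap k₀ K), ← coeffMap_intToC (algebraMap k₀ K), ← map_pow,
        ← map_mul, coeffMap_coeff, mul_comm ((P i).coeff e), ← Algebra.smul_def, map_smul,
        smul_eq_mul, mul_comm]
    funext i
    refine Polynomial.ext fun e => (Module.forall_dual_apply_eq_zero_iff k₀ _).mp fun s => ?_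
    have := congr_arg (fun q : k₀[X] => q.coeff e) (congr_fun (hQ s) i)
    simp only [finsetSum_coeff, coeff_monomial, Finset.sum_ite_eq', Pi.zero_apply, coeff_zero,
      mem_support_iff] at this
    by_cases he : (P i).coeff e = 0
    · simp [he]
    · simpa [he] using this
  · obtain ⟨Q, P, hQ, hQP⟩ := h.spans x hx
    refine ⟨Q.map (algebraMap k₀ K), fun i => (P i).map (algebraMap k₀ K),
      Polynomial.map_ne_zero hQ, ?_⟩
    have := congr_arg (coeffMap (algebraMap k₀ K)) hQP
    simpa [coeffMap_aeval_jqModC, coeffMap_intToC] using this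

section Field

variable (K : Type*) [Field K]

theorem intToC_mem_full [NeZero N] {x : LaurentSeries ℤ} (hx : x ∈ intModRing N) :
    intToC K x ∈ modularFunctionFieldFullC K N := by
  induction hx using Subring.closure_induction with
  | mem z hz =>
    obtain ⟨d, hd0, hd, rfl⟩ := hz
    rw [intToC, coeffMap_qExpand, coeffMap_jqModC]
    exact jqModCd_mem_full K N hd
  | zero => rw [map_zero]; exact zero_mem _
  | one => rw [map_one]; exact one_mem _
  | add a b _ _ ha hb => rw [map_add]; exact add_mem ha hb
  | neg a _ ha => rw [map_neg]; exact neg_mem ha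
  | mul a b _ _ ha hb => rw [map_mul]; exact mul_mem ha hb

theorem qExpand_jqModC_mem_intModRing {d : ℕ} [NeZero d] (hd : d ∣ N) :
    qExpand ℤ d (jqModC ℤ) ∈ intModRing N :=
  Subring.subset_closure ⟨d, inferInstance, hd, rfl⟩

theorem full_eq_restrictScalars :
    modularFunctionFieldFullC K N
      = (IntermediateField.adjoin K⟮jqModC K⟯ (divisorExpansionsC K N)).restrictScalars K := by
  rw [adjoin_adjoin_left, modularFunctionFieldFullC, Set.union_eq_right.mpr]
  rintro x rfl
  exact ⟨1, inferInstance, one_dvd N, (qExpand_one_apply _).symm⟩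

variable {K}

/-- `K (j)`-coefficients. -/
theorem exists_clear_denominators (a : Fin n → K⟮jqModC K⟯) :
    ∃ (Q : K[X]) (P : Fin n → K[X]), Q ≠ 0 ∧
      ∀ i, aeval (jqModC K) Q * (a i : LaurentSeries K) = aeval (jqModC K) (P i) := by
  classical
  have hc : ∀ i, ∃ r s : K[X], s ≠ 0 ∧
      aeval (jqModC K) s * (a i : LaurentSeries K) = aeval (jqModC K) r := by
    intro i
    obtain ⟨r, s, h⟩ := (mem_adjoin_simple_iff K (a i : LaurentSeries K)).mp (a i).2
    rcases eq_or_ne (aeval (jqModC K) s) 0 with h0 | h0
    · exact ⟨0, 1, one_ne_zero, by rw [h, h0, div_zero]; simp⟩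
    · exact ⟨r, s, fun e => h0 (by rw [e, map_zero]), by rw [h, mul_div_cancel₀ _ h0]⟩
  choose r s hs hrs using hc
  refine ⟨∏ i, s i, fun i => (∏ k ∈ univ.erase i, s k) * r i,
    Finset.prod_ne_zero_iff.mpr fun i _ => hs i, fun i => ?_⟩
  rw [← Finset.mul_prod_erase univ s (mem_univ i), map_mul, map_mul, ← hrs i]
  ring

theorem aeval_jqModC_mem (P : K[X]) : aeval (jqModC K) P ∈ K⟮jqModC K⟯ :=
  algebra_adjoin_le_adjoin K _ (aeval_mem_adjoin_singleton K _)

variable (K) in
theorem coe_smul_jqField (a : K⟮jqModC K⟯) (y : LaurentSeries K) :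
    a • y = (a : LaurentSeries K) * y := rfl

theorem IsModBasis.linearIndependent (h : IsModBasis N K c) :
    LinearIndependent K⟮jqModC K⟯ fun i => intToC K (c i : LaurentSeries ℤ) := by
  rw [Fintype.linearIndependent_iff]
  intro a ha i
  obtain ⟨Q, P, hQ, hQP⟩ := exists_clear_denominators a
  have hP : P = 0 := h.indep P (by
    simp only [coe_smul_jqField] at ha
    rw [← mul_zero (aeval (jqModC K) Q), ← ha, Finset.mul_sum]
    exact Finset.sum_congr rfl fun i _ => by rw [← mul_assoc, hQP])
  have h0 := hQP i
  rw [hP, Pi.zero_apply, map_zero, mul_eq_zero] at h0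
  refine Subtype.ext (h0.resolve_left fun e => hQ (ModPoly.aeval_jqModC_injective K ?_))
  rw [e, map_zero]

theorem IsModBasis.span_eq [NeZero N] (h : IsModBasis N K c) :
    Submodule.span K⟮jqModC K⟯ (Set.range fun i => intToC K (c i : LaurentSeries ℤ)) =
      (IntermediateField.adjoin K⟮jqModC K⟯
        (divisorExpansionsC K N)).toSubalgebra.toSubmodule := by
  classical
  set V := Submodule.span K⟮jqModC K⟯ (Set.range fun i => intToC K (c i : LaurentSeries ℤ))
  have hint : ∀ x ∈ intModRing N, intToC K x ∈ V := by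
    intro x hx
    obtain ⟨Q, P, hQ, hQP⟩ := h.spans x hx
    have hQ0 : aeval (jqModC K) Q ≠ 0 := fun e =>
      hQ (ModPoly.aeval_jqModC_injective K (by rw [e, map_zero]))
    have hx' : intToC K x = ∑ i,
        ((⟨_, aeval_jqModC_mem (P i)⟩ : K⟮jqModC K⟯) / ⟨_, aeval_jqModC_mem Q⟩) •
          intToC K (c i : LaurentSeries ℤ) := by
      refine mul_left_cancel₀ hQ0 ?_
      rw [hQP, Finset.mul_sum]
      refine Finset.sum_congr rfl fun i _ => ?_
      rw [coe_smul_jqField, IntermediateField.coe_div, ← mul_assoc, mul_div_cancel₀ _ hQ0]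
    rw [hx']
    exact Submodule.sum_mem _ fun i _ => Submodule.smul_mem _ _ (Submodule.subset_span ⟨i, rfl⟩)
  have hone : (1 : LaurentSeries K) ∈ V := by simpa using hint 1 (one_mem _)
  have hmul : ∀ a ∈ V, ∀ b ∈ V, a * b ∈ V := by
    intro a ha b hb
    induction ha using Submodule.span_induction with
    | mem x hx =>
      induction hb using Submodule.span_induction with
      | mem y hy =>
        obtain ⟨i, rfl⟩ := hx
        obtain ⟨k, rfl⟩ := hy
        rw [← map_mul]
        exact hint _ (mul_mem (c i).2 (c k).2)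
      | zero => simp
      | add y z _ _ hy hz => rw [mul_add]; exact add_mem hy hz
      | smul r y _ hy => rw [mul_smul_comm]; exact V.smul_mem _ hy
    | zero => simp
    | add y z _ _ hy hz => rw [add_mul]; exact add_mem hy hz
    | smul r y _ hy => rw [smul_mul_assoc]; exact V.smul_mem _ hy
  set S : Subalgebra K⟮jqModC K⟯ (LaurentSeries K) :=
    V.toSubalgebra hone fun a b ha hb => hmul a ha b hb
  haveI : Module.Finite K⟮jqModC K⟯ S := by
    change Module.Finite K⟮jqModC K⟯ V
    exact Module.Finite.span_of_finite _ (Set.finite_range _)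
  have hgen : ∀ x ∈ divisorExpansionsC K N, x ∈ S := by
    rintro x ⟨d, _, hd, rfl⟩
    have := hint _ (qExpand_jqModC_mem_intModRing hd)
    rwa [intToC, coeffMap_qExpand, coeffMap_jqModC] at this
  have halg : ∀ x ∈ divisorExpansionsC K N, IsAlgebraic K⟮jqModC K⟯ x := fun x hx =>
    ((Algebra.IsIntegral.isIntegral (⟨x, hgen x hx⟩ : S)).map S.val).isAlgebraic
  refine le_antisymm (Submodule.span_le.mpr ?_) ?_
  · rintro _ ⟨i, rfl⟩
    have := intToC_mem_full (N := N) K (c i).2
    rw [full_eq_restrictScalars] at this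
    exact this
  · rw [IntermediateField.adjoin_toSubalgebra_of_isAlgebraic halg]
    exact fun x hx => (Algebra.adjoin_le hgen hx : x ∈ S)

theorem IsModBasis.finrank_eq [NeZero N] (h : IsModBasis N K c) :
    Module.finrank K⟮jqModC K⟯
      ↥(IntermediateField.adjoin K⟮jqModC K⟯ (divisorExpansionsC K N)) = n := by
  have : Module.finrank K⟮jqModC K⟯
      ↥(IntermediateField.adjoin K⟮jqModC K⟯
        (divisorExpansionsC K N)).toSubalgebra.toSubmodule = n := by
    rw [← h.span_eq, finrank_span_eq_card h.linearIndependent, Fintype.card_fin]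
  exact this

theorem IsModBasis.finiteDimensional [NeZero N] (h : IsModBasis N K c) :
    FiniteDimensional K⟮jqModC K⟯
      ↥(IntermediateField.adjoin K⟮jqModC K⟯ (divisorExpansionsC K N)) := by
  have : Module.Finite K⟮jqModC K⟯
      ↥(IntermediateField.adjoin K⟮jqModC K⟯
        (divisorExpansionsC K N)).toSubalgebra.toSubmodule := by
    rw [← h.span_eq]
    exact Module.Finite.span_of_finite _ (Set.finite_range _)
  exact this

/-- Normal form of the elements of the function field. -/
theorem IsModBasis.exists_eq [NeZero N] (h : IsModBasis N K c) {y : LaurentSeries K}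
    (hy : y ∈ modularFunctionFieldFullC K N) : ∃ (Q : K[X]) (P : Fin n → K[X]), Q ≠ 0 ∧
      aeval (jqModC K) Q * y =
        ∑ i, aeval (jqModC K) (P i) * intToC K (c i : LaurentSeries ℤ) := by
  rw [full_eq_restrictScalars, IntermediateField.mem_restrictScalars] at hy
  have hy' : y ∈ Submodule.span K⟮jqModC K⟯
      (Set.range fun i => intToC K (c i : LaurentSeries ℤ)) := by
    rw [h.span_eq]; exact hy
  obtain ⟨a, rfl⟩ := (Submodule.mem_span_range_iff_exists_fun _).mp hy'
  obtain ⟨Q, P, hQ, hQP⟩ := exists_clear_denominators a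
  refine ⟨Q, P, hQ, ?_⟩
  rw [Finset.mul_sum]
  exact Finset.sum_congr rfl fun i _ => by rw [coe_smul_jqField, ← mul_assoc, hQP]

end Field

end FLTAgent.Igusa
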