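import Fermat.Agent.Igusa.Degree
import Fermat.Agent.Hecke.PsiMul

/-!
# `∏ (p + 1) p ^ (e - 1)` is the Dedekind psi function
-/

set_option autoImplicit false

noncomputable section

open Finset ModularCurve

namespace FLTAgent.Igusa

theorem psiProd_eq_dedekindPsi (N : ℕ) [hN : NeZero N] : psiProd N = dedekindPsi N := by
  have hN0 := hN.ne
  clear hN
  induction N using Nat.strong_induction_on with
  | _ N ih =>
    rcases eq_or_ne N 1 with rfl | hN1
    · simp [psiProd, dedekindPsi_one]
    obtain ⟨p, hp, M, rfl⟩ := Nat.exists_prime_and_dvd hN1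
    have hM : M ≠ 0 := right_ne_zero_of_mul hN0
    have hlt : M < p * M := lt_mul_of_one_lt_left (Nat.pos_of_ne_zero hM) hp.one_lt
    have hfac : ∀ q, (p * M).factorization q = (if q = p then 1 else 0) + M.factorization q := by
      intro q
      rw [Nat.factorization_mul hp.ne_zero hM, Finsupp.add_apply, hp.factorization,
        Finsupp.single_apply]
      simp only [eq_comm]
    have hsupp : (p * M).primeFactors = insert p M.primeFactors := by
      rw [Nat.primeFactors_mul hp.ne_zero hM, hp.primeFactors, Finset.insert_eq]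
    rw [mul_comm p M]
    by_cases hdvd : p ∣ M
    · rw [Hecke.dedekindPsi_mul_prime_of_dvd hM hp hdvd, ← ih M hlt hM, mul_comm M p, psiProd, psiProd,
        hsupp, Finset.insert_eq_of_mem (Nat.mem_primeFactors.mpr ⟨hp, hdvd, hM⟩)]
      have hmem : p ∈ M.primeFactors := Nat.mem_primeFactors.mpr ⟨hp, hdvd, hM⟩
      rw [← Finset.mul_prod_erase _ _ hmem, ← Finset.mul_prod_erase _ _ hmem, ← mul_assoc]
      congr 1
      · have he : 1 ≤ M.factorization p := hp.factorization_pos_of_dvd hM hdvd
        rw [hfac, if_pos rfl, Nat.add_sub_cancel_left]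
        obtain ⟨e, he'⟩ : ∃ e, M.factorization p = e + 1 := ⟨M.factorization p - 1, by omega⟩
        rw [he', Nat.add_sub_cancel, pow_succ]
        ring
      · refine Finset.prod_congr rfl fun q hq => ?_
        rw [hfac, if_neg (Finset.ne_of_mem_erase hq), zero_add]
    · rw [Hecke.dedekindPsi_mul_prime_of_not_dvd hM hp hdvd, ← ih M hlt hM, mul_comm M p, psiProd,
        psiProd, hsupp, Finset.prod_insert (fun h => hdvd (Nat.dvd_of_mem_primeFactors h))]
      congr 1
      · rw [hfac, if_pos rfl, Nat.factorization_eq_zero_of_not_dvd hdvd, add_zero, Nat.sub_self,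
          pow_zero, mul_one]
      · refine Finset.prod_congr rfl fun q hq => ?_
        rw [hfac, if_neg (fun h => hdvd (by rw [← h]; exact Nat.dvd_of_mem_primeFactors hq)),
          zero_add]

end FLTAgent.Igusa
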