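import Fermat.Agent.Igusa.Basis
import Fermat.Agent.Igusa.ModBasis
import Fermat.Agent.Igusa.PsiEq
import Fermat.Agent.Igusa.Generation
import Mathlib.Algebra.Algebra.ZMod
import Mathlib.Algebra.Algebra.Rat
import Mathlib.Algebra.Field.Rat

/-!
# Reduction of the modular function field at a prime not dividing the level

One family of integral series is a basis of the function field over `K (j)` for every `K` of
characteristic `0` or `ℓ`; the residue field of the Gauss valuation is the function field over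
`𝔽_ℓ`; degree `ψ N` in characteristic `ℓ`.
-/

set_option autoImplicit false
set_option linter.style.haveILetI false
set_option linter.unusedSectionVars false

noncomputable section

open Polynomial Finset ModularCurve IntermediateField

namespace FLTAgent.Igusa

variable (N : ℕ) [NeZero N] (ℓ : ℕ) [Fact ℓ.Prime]

theorem exists_modBasis (hℓN : ¬ ℓ ∣ N) :
    ∃ c : Fin (psiProd N) → intModRing N, IsModBasis N (ZMod ℓ) c ∧ IsModBasis N ℚ c ∧
      ∀ y ∈ modularFunctionFieldFull N, ∃ a : Fin (psiProd N) → ratBase,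
        y = ∑ i, (a i : LaurentSeries ℚ) * intToRat (c i : LaurentSeries ℤ) ∧
        (y ∈ gaussRing ℓ → ∀ i, (a i : LaurentSeries ℚ) ∈ gaussRing ℓ) := by
  classical
  obtain ⟨bz, hbz⟩ := exists_independent_reductions N ℓ hℓN
  obtain ⟨hli, hspan⟩ := gauss_basis N ℓ bz hbz
  refine ⟨bz, ⟨fun P hP => funext (hbz P hP), fun x hx => ?_⟩,
    ⟨fun P hP => funext fun i => ?_, fun x hx => ?_⟩, hspan⟩
  · obtain ⟨a, hxa, ha⟩ := hspan (intToRat x) (intToRat_mem_full N ⟨x, hx⟩)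
    obtain ⟨hxg, hredx⟩ := red_intToRat ℓ x
    choose P Q hQ hPQ using fun i => exists_reduced_fraction ℓ (jGauss ℓ) injective_aeval_jq
      (injective_aeval_red_jGauss ℓ) (a i).2 (ha hxg i)
    refine ⟨∏ k, Q k, fun i => P i * ∏ k ∈ univ.erase i, Q k,
      Finset.prod_ne_zero_iff.mpr fun k _ => hQ k, ?_⟩
    have hx' : (⟨_, hxg⟩ : gaussRing ℓ) =
        ∑ i, ⟨_, ha hxg i⟩ * ⟨_, (red_intToRat ℓ (bz i : LaurentSeries ℤ)).1⟩ := Subtype.ext (by
      rw [AddSubmonoidClass.coe_finsetSum]; exact hxa)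
    have hred := congr_arg (red ℓ) hx'
    rw [hredx, map_sum] at hred
    rw [show intToC (ZMod ℓ) x = coeffMap (Int.castRingHom (ZMod ℓ)) x from rfl, hred,
      Finset.mul_sum]
    refine Finset.sum_congr rfl fun i _ => ?_
    rw [map_mul, (red_intToRat ℓ (bz i : LaurentSeries ℤ)).2, map_mul, ← red_jGauss ℓ, ← hPQ i,
      ← Finset.mul_prod_erase univ Q (Finset.mem_univ i), map_mul]
    show _ = _ * coeffMap (Int.castRingHom (ZMod ℓ)) (bz i : LaurentSeries ℤ)
    ring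
  · have h := hli (fun i => ⟨aeval jq (P i), aeval_jqModC_mem (K := ℚ) (P i)⟩) hP i
    refine ModPoly.aeval_jqModC_injective ℚ ?_
    rw [Pi.zero_apply, map_zero]
    exact congr_arg Subtype.val h
  · obtain ⟨a, hxa, -⟩ := hspan (intToRat x) (intToRat_mem_full N ⟨x, hx⟩)
    obtain ⟨Q, P, hQ, hQP⟩ := exists_clear_denominators (K := ℚ) a
    refine ⟨Q, P, hQ, ?_⟩
    rw [show intToC ℚ x = intToRat x from rfl, hxa, Finset.mul_sum]
    exact Finset.sum_congr rfl fun i _ => by rw [← mul_assoc, hQP]; rfl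

variable (hℓN : ¬ ℓ ∣ N)

/-- The integral basis attached to `ℓ`. -/
def modBasis : Fin (psiProd N) → intModRing N := (exists_modBasis N ℓ hℓN).choose

theorem modBasis_spec : IsModBasis N (ZMod ℓ) (modBasis N ℓ hℓN) ∧
    IsModBasis N ℚ (modBasis N ℓ hℓN) ∧
    ∀ y ∈ modularFunctionFieldFull N, ∃ a : Fin (psiProd N) → ratBase,
      y = ∑ i, (a i : LaurentSeries ℚ) * intToRat (modBasis N ℓ hℓN i : LaurentSeries ℤ) ∧
      (y ∈ gaussRing ℓ → ∀ i, (a i : LaurentSeries ℚ) ∈ gaussRing ℓ) :=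
  (exists_modBasis N ℓ hℓN).choose_spec

theorem isModBasis_charP (K : Type*) [Field K] [CharP K ℓ] :
    IsModBasis N K (modBasis N ℓ hℓN) :=
  letI := ZMod.algebra K ℓ
  (modBasis_spec N ℓ hℓN).1.baseChange K

theorem isModBasis_charZero (K : Type*) [Field K] [CharZero K] :
    IsModBasis N K (modBasis N ℓ hℓN) :=
  letI : Algebra ℚ K := DivisionRing.toRatAlgebra
  (modBasis_spec N ℓ hℓN).2.1.baseChange K

include hℓN in
/-- `[K (j (q ^ d) : d ∣ N) : K (j)] = ψ N` in characteristic `ℓ ∤ N`. -/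
theorem finrank_fullC_charP (K : Type*) [Field K] [CharP K ℓ] :
    Module.finrank K⟮jqModC K⟯
      ↥(IntermediateField.adjoin K⟮jqModC K⟯ (divisorExpansionsC K N)) = dedekindPsi N := by
  rw [(isModBasis_charP N ℓ hℓN K).finrank_eq, psiProd_eq_dedekindPsi]

theorem natCast_ne_zero_of_not_dvd (K : Type*) [Field K] [CharP K ℓ] (h : ¬ ℓ ∣ N) :
    (N : K) ≠ 0 := by
  rwa [Ne, CharP.cast_eq_zero_iff K ℓ N]

theorem adjoin_jqNModC_eq (K : Type*) [Field K] (hN : (N : K) ≠ 0) :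
    IntermediateField.adjoin K⟮jqModC K⟯ {jqNModC K N}
      = IntermediateField.adjoin K⟮jqModC K⟯ (divisorExpansionsC K N) :=
  IntermediateField.restrictScalars_injective K (by
    rw [← full_eq_restrictScalars, modularFunctionFieldFullC_eq K N hN, adjoin_adjoin_left,
      modularFunctionFieldC, Set.singleton_union])

include hℓN in
/-- The modular equation stays irreducible modulo `ℓ ∤ N`. -/
theorem natDegree_minpoly_jqNModC_charP (K : Type*) [Field K] [CharP K ℓ] :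
    (minpoly K⟮jqModC K⟯ (jqNModC K N)).natDegree = dedekindPsi N := by
  have hN := natCast_ne_zero_of_not_dvd N ℓ K hℓN
  rw [← finrank_fullC_charP N ℓ hℓN K, ← adjoin_jqNModC_eq N K hN]
  refine (IntermediateField.adjoin.finrank ?_).symm
  haveI := (isModBasis_charP N ℓ hℓN K).finiteDimensional
  exact (Algebra.IsIntegral.isIntegral
    (⟨_, subset_adjoin K⟮jqModC K⟯ _ ⟨N, inferInstance, dvd_rfl, rfl⟩⟩ :
      IntermediateField.adjoin K⟮jqModC K⟯ (divisorExpansionsC K N))).map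
    (IntermediateField.adjoin K⟮jqModC K⟯ (divisorExpansionsC K N)).val

variable {N ℓ}

theorem inv_mem_gaussRing {x : LaurentSeries ℚ} (h : x ∈ gaussRing ℓ)
    (hx : red ℓ ⟨x, h⟩ ≠ 0) : x⁻¹ ∈ gaussRing ℓ := by
  obtain ⟨a, b, hb, he⟩ := h
  rw [red_eq ℓ (x := ⟨x, a, b, hb, he⟩) hb he] at hx
  have ha : reduce ℓ a ≠ 0 := fun e => hx (by rw [e, zero_div])
  refine ⟨b, a, ha, ?_⟩
  have hx0 : x ≠ 0 := by
    rintro rfl
    rw [zero_mul] at he
    exact ha (by rw [lift_injective ℓ (he.symm.trans (map_zero _).symm), map_zero])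
  rw [← he, inv_mul_cancel_left₀ hx0]

include hℓN in
/-- Reductions of the elements of the Gauss ring lie in the function field over `𝔽_ℓ`. -/
theorem red_mem_fullC {y : LaurentSeries ℚ} (hy : y ∈ modularFunctionFieldFull N)
    (hyg : y ∈ gaussRing ℓ) :
    red ℓ ⟨y, hyg⟩ ∈ modularFunctionFieldFullC (ZMod ℓ) N := by
  classical
  obtain ⟨a, hya, ha⟩ := (modBasis_spec N ℓ hℓN).2.2 y hy
  rw [show (⟨y, hyg⟩ : gaussRing ℓ) = ∑ i, ⟨_, ha hyg i⟩ *
      ⟨_, (red_intToRat ℓ (modBasis N ℓ hℓN i : LaurentSeries ℤ)).1⟩ from Subtype.ext (by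
    rw [AddSubmonoidClass.coe_finsetSum]; exact hya), map_sum]
  refine sum_mem fun i _ => ?_
  rw [map_mul, (red_intToRat ℓ (modBasis N ℓ hℓN i : LaurentSeries ℤ)).2]
  refine mul_mem ?_ (intToC_mem_full (N := N) (ZMod ℓ) (modBasis N ℓ hℓN i).2)
  obtain ⟨P, Q, hQ, hPQ⟩ := exists_reduced_fraction ℓ (jGauss ℓ) injective_aeval_jq
    (injective_aeval_red_jGauss ℓ) (a i).2 (ha hyg i)
  rw [red_jGauss] at hPQ
  have hQ0 : aeval (jqModC (ZMod ℓ)) Q ≠ 0 := fun e =>
    hQ (ModPoly.aeval_jqModC_injective (ZMod ℓ) (by rw [e, map_zero]))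
  have hj : ∀ R : (ZMod ℓ)[X],
      aeval (jqModC (ZMod ℓ)) R ∈ modularFunctionFieldFullC (ZMod ℓ) N := fun R =>
    (IntermediateField.adjoin_le_iff.mpr (Set.singleton_subset_iff.mpr
      (jqModC_mem_full (ZMod ℓ) N))) (aeval_jqModC_mem R)
  rw [eq_div_of_mul_eq hQ0 hPQ]
  exact div_mem (hj P) (hj Q)

theorem exists_lift_polynomial (P : (ZMod ℓ)[X]) :
    ∃ h : evInt jq (P.sum fun e z => monomial e (z.val : ℤ)) ∈ gaussRing ℓ,
      red ℓ ⟨_, h⟩ = aeval (jqModC (ZMod ℓ)) P := by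
  obtain ⟨h, hred⟩ := evInt_mem ℓ (jGauss ℓ) (P.sum fun e z => monomial e (z.val : ℤ))
  refine ⟨h, (hred h).trans ?_⟩
  rw [red_jGauss]
  congr 1
  conv_rhs => rw [← P.sum_monomial_eq]
  rw [Polynomial.sum, Polynomial.sum, Polynomial.map_sum]
  exact Finset.sum_congr rfl fun e _ => by rw [map_monomial]; simp

include hℓN in
/-- Every element of the function field over `𝔽_ℓ` is a reduction. -/
theorem exists_red_eq {z : LaurentSeries (ZMod ℓ)}
    (hz : z ∈ modularFunctionFieldFullC (ZMod ℓ) N) :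
    ∃ (y : LaurentSeries ℚ) (h : y ∈ gaussRing ℓ),
      y ∈ modularFunctionFieldFull N ∧ red ℓ ⟨y, h⟩ = z := by
  classical
  obtain ⟨Q, P, hQ, hQP⟩ := (modBasis_spec N ℓ hℓN).1.exists_eq hz
  obtain ⟨hQg, hQr⟩ := exists_lift_polynomial (ℓ := ℓ) Q
  set den := evInt jq (Q.sum fun e z => monomial e (z.val : ℤ))
  have hQ0 : red ℓ ⟨den, hQg⟩ ≠ 0 := by
    rw [hQr]
    exact fun e => hQ (ModPoly.aeval_jqModC_injective (ZMod ℓ) (by rw [e, map_zero]))
  set num : Fin (psiProd N) → gaussRing ℓ := fun i =>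
    ⟨_, (exists_lift_polynomial (ℓ := ℓ) (P i)).1⟩ *
      ⟨_, (red_intToRat ℓ (modBasis N ℓ hℓN i : LaurentSeries ℤ)).1⟩
  have hevmem : ∀ R : Polynomial ℤ, evInt jq R ∈ modularFunctionFieldFull N := fun R => by
    rw [evInt_eq_aeval]
    exact (IntermediateField.adjoin_le_iff.mpr (Set.singleton_subset_iff.mpr
      (modularFunctionField_le_full N (jq_mem N)))) (aeval_jqModC_mem (K := ℚ) _)
  set y : gaussRing ℓ := (∑ i, num i) * ⟨den⁻¹, inv_mem_gaussRing hQg hQ0⟩
  refine ⟨y, y.2, ?_, ?_⟩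
  · show ((∑ i, num i : gaussRing ℓ) : LaurentSeries ℚ) * den⁻¹ ∈ _
    rw [AddSubmonoidClass.coe_finsetSum]
    exact mul_mem (sum_mem fun i _ => mul_mem (hevmem _)
      (intToRat_mem_full N (modBasis N ℓ hℓN i))) (inv_mem (hevmem _))
  · have hnum : red ℓ (∑ i, num i) = red ℓ ⟨den, hQg⟩ * z := by
      rw [hQr, hQP, map_sum]
      refine Finset.sum_congr rfl fun i _ => ?_
      rw [map_mul, (exists_lift_polynomial (ℓ := ℓ) (P i)).2, (red_intToRat ℓ _).2]
      rfl
    have hinv : red ℓ ⟨den, hQg⟩ * red ℓ ⟨den⁻¹, inv_mem_gaussRing hQg hQ0⟩ = 1 := by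
      rw [← map_mul, ← map_one (red ℓ)]
      refine congr_arg _ (Subtype.ext (mul_inv_cancel₀ fun e => hQ0 ?_))
      rw [show (⟨den, hQg⟩ : gaussRing ℓ) = 0 from Subtype.ext e, map_zero]
    show red ℓ ((∑ i, num i) * _) = z
    rw [map_mul, hnum, mul_right_comm, hinv, one_mul]

end FLTAgent.Igusa
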