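import Fermat.Agent.Igusa.PrimeLevel

/-!
# Integral modular equations of prime level, with their factorisations
-/

set_option autoImplicit false
set_option linter.style.haveILetI false
set_option linter.unusedSectionVars false

noncomputable section

open HahnSeries ModularCurve Polynomial Finset
open FLTAgent.ModPoly (twist twist_coeff twist_single twist_ofPowerSeries qExpand_ofPowerSeries
  twist_one_unit coeffMap_twist)

namespace FLTAgent.Igusa

/-- The ring of algebraic integers in `ℂ`. -/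
abbrev AlgInt : Type := ↥(integralClosure ℤ ℂ)

section Zeta

variable (p : ℕ) [NeZero p]

theorem isIntegral_exp_root : IsIntegral ℤ (Complex.exp (2 * Real.pi * Complex.I / p)) :=
  (Complex.isPrimitiveRoot_exp p (NeZero.ne p)).isIntegral (Nat.pos_of_ne_zero (NeZero.ne p))

/-- A primitive `p`-th root of unity in `AlgInt`. -/
def zetaInt : AlgIntˣ :=
  (IsUnit.of_pow_eq_one (a := (⟨_, isIntegral_exp_root p⟩ : AlgInt)) (n := p)
    (Subtype.ext (by simpa using (Complex.isPrimitiveRoot_exp p (NeZero.ne p)).pow_eq_one))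
    (NeZero.ne p)).unit

theorem isPrimitiveRoot_zetaInt_complex :
    IsPrimitiveRoot (Units.map ((algebraMap AlgInt ℂ : AlgInt →+* ℂ) : AlgInt →* ℂ) (zetaInt p)) p := by
  rw [← IsPrimitiveRoot.coe_units_iff]
  exact Complex.isPrimitiveRoot_exp p (NeZero.ne p)

/-- The image of `zetaInt` under a ring homomorphism. -/
def zetaIn {R : Type*} [CommRing R] (φ : AlgInt →+* R) : Rˣ :=
  Units.map (φ : AlgInt →* R) (zetaInt p)

variable {R S : Type*} [CommRing R] [CommRing S] (f : R →+* S) (ζ : Rˣ)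

theorem coeffMap_rootJ (o : Option (Fin p)) :
    coeffMap f (rootJ R p ζ o) = rootJ S p (Units.map (f : R →* S) ζ) o := by
  rcases o with _ | i
  · simp [rootJ, coeffMap_J]
  · simp [rootJ, coeffMap_J]

theorem coeffMap_rootW (o : Option (Fin p)) :
    coeffMap f (rootW R p ζ o) = rootW S p (Units.map (f : R →* S) ζ) o := by
  rcases o with _ | i
  · simp [rootW, coeffMap_qExpand, coeffMap_ofZ, coeffMap_sDinv]
  · simp [rootW, coeffMap_qExpand, coeffMap_twist, coeffMap_ofZ, coeffMap_sDinv]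

end Zeta

section NoPole

variable {R : Type*} [CommRing R]

theorem prod_single_mul_ofPowerSeries {ι : Type*} (s : Finset ι) (e : ι → ℤ) (u : ι → PowerSeries R) :
    ∏ o ∈ s, single (e o) (1 : R) * HahnSeries.ofPowerSeries ℤ R (u o)
      = single (∑ o ∈ s, e o) 1 * HahnSeries.ofPowerSeries ℤ R (∏ o ∈ s, u o) := by
  classical
  induction s using Finset.induction_on with
  | empty => simp
  | insert a s ha ih =>
    rw [Finset.prod_insert ha, Finset.prod_insert ha, Finset.sum_insert ha, ih, map_mul,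
      mul_mul_mul_comm, single_mul_single, one_mul]

theorem exists_rootW_eq (p : ℕ) [NeZero p] (ζ : Rˣ) (o : Option (Fin p)) :
    ∃ u : PowerSeries R, rootW R p ζ o =
      single (o.elim ((p : ℤ) * p - p) fun _ => 1 - (p : ℤ)) 1 * HahnSeries.ofPowerSeries ℤ R u := by
  have hDinv : qExpand R p (sDinv R) = single (-(p : ℤ)) 1 * HahnSeries.ofPowerSeries ℤ R
      (PowerSeries.expand p (NeZero.ne p) (dedekindEtaUnitInv.map (Int.castRingHom R))) := by
    rw [sDinv, map_mul, qExpand_single, mul_neg_one, ofZ, RingHom.comp_apply, qExpand_ofPowerSeries]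
  rcases o with _ | i
  · refine ⟨PowerSeries.C ((p : R) ^ 12) * PowerSeries.expand (p * p) (NeZero.ne _)
      (dedekindEtaUnit.map (Int.castRingHom R)) *
      PowerSeries.expand p (NeZero.ne p) (dedekindEtaUnitInv.map (Int.castRingHom R)), ?_⟩
    rw [rootW, hDinv, ofZ_psD, map_mul, qExpand_single, mul_one, ofZ, RingHom.comp_apply,
      qExpand_ofPowerSeries, map_mul, map_mul, HahnSeries.ofPowerSeries_C, map_pow, map_natCast]
    simp only [Option.elim, sub_eq_add_neg ((p : ℤ) * p) (p : ℤ)]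
    rw [Nat.cast_mul, ← mul_one (1 : R), ← single_mul_single, mul_one]
    ring
  · refine ⟨PowerSeries.C ((ζ ^ (i : ℕ) : Rˣ) : R) *
      PowerSeries.rescale ((ζ ^ (i : ℕ) : Rˣ) : R) (dedekindEtaUnit.map (Int.castRingHom R)) *
      PowerSeries.expand p (NeZero.ne p) (dedekindEtaUnitInv.map (Int.castRingHom R)), ?_⟩
    rw [rootW, hDinv, ofZ_psD, map_mul, twist_single, zpow_one, mul_one, ofZ, RingHom.comp_apply,
      twist_ofPowerSeries, map_mul, map_mul, HahnSeries.ofPowerSeries_C, HahnSeries.C_apply]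
    simp only [Option.elim, sub_eq_add_neg (1 : ℤ) (p : ℤ)]
    have : single (1 : ℤ) ((ζ ^ (i : ℕ) : Rˣ) : R)
        = single 1 1 * single 0 ((ζ ^ (i : ℕ) : Rˣ) : R) := by simp [single_mul_single]
    rw [this, ← mul_one (1 : R), ← single_mul_single, mul_one]
    ring

theorem coeff_prod_rootW_of_neg (p : ℕ) [NeZero p] (ζ : Rˣ) {k : ℤ} (hk : k < 0) :
    (∏ o, rootW R p ζ o).coeff k = 0 := by
  choose u hu using exists_rootW_eq p ζ
  rw [Finset.prod_congr rfl fun o _ => hu o, prod_single_mul_ofPowerSeries]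
  have hsum : (∑ o : Option (Fin p), o.elim ((p : ℤ) * p - p) fun _ => 1 - (p : ℤ)) = 0 := by
    simp [Fintype.sum_option]
  rw [hsum, show single (0 : ℤ) (1 : R) = 1 from rfl, one_mul]
  exact ofPowerSeries_coeff_of_neg _ hk

end NoPole

section Equations

theorem natCast_ne_zero_laurent {R : Type*} [CommRing R] {n : ℕ} (h : (n : R) ≠ 0) :
    (n : LaurentSeries R) ≠ 0 := by
  rw [← map_natCast (HahnSeries.C (Γ := ℤ) (R := R))]
  intro e
  exact h (HahnSeries.C_injective (e.trans (map_zero _).symm))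

variable (p : ℕ) [NeZero p]

/-- The conclusion of `exists_modularEquations` over one ring. -/
def EquationsHold (Φ G U : Polynomial (Polynomial ℤ)) (R : Type) [CommRing R] (ζ : Rˣ) : Prop :=
  Φ.map (evZ p R) = ∏ o, (X - Polynomial.C (rootJ R p ζ o)) ∧
  G.map (evZ p R) = ∏ o, (X - Polynomial.C (rootW R p ζ o)) ∧
  U.map (evZ p R) = ∑ o, Polynomial.C (rootW R p ζ o) *
    ∏ k ∈ univ.erase o, (X - Polynomial.C (rootJ R p ζ k))

/-- Integrality: rational coefficients which are integral series are integral polynomials. -/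
theorem coeff_mem_evZ_range {P : Polynomial (LaurentSeries ℂ)} (Q : Polynomial (LaurentSeries AlgInt))
    (hQ : Q.map (coeffMap (algebraMap AlgInt ℂ)) = P) (hS : ∀ n, P.coeff n ∈ (evQ p).range) (n : ℕ) :
    P.coeff n ∈ (evZ p ℂ).range := by
  obtain ⟨q, hq⟩ := hS n
  rw [← hq]
  refine evQ_mem_evZ_range p q.natDegree q le_rfl fun k => ?_
  rw [hq, ← hQ, Polynomial.coeff_map, coeffMap_coeff]
  exact ((Q.coeff n).coeff k).2

theorem exists_modularEquations (hp : p.Prime) :
    ∃ Φ G U : Polynomial (Polynomial ℤ), Φ.Monic ∧ G.Monic ∧ Φ.natDegree = p + 1 ∧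
      ∀ (R : Type) [CommRing R] (φ : AlgInt →+* R), EquationsHold p Φ G U R (zetaIn p φ) := by
  classical
  set ι : AlgInt →+* ℂ := algebraMap AlgInt ℂ
  set ζ : ℂˣ := zetaIn p ι with hζdef
  have hζ : IsPrimitiveRoot ζ p := isPrimitiveRoot_zetaInt_complex p
  set jc := rootJ ℂ p ζ
  set wc := rootW ℂ p ζ
  set vc := rootV ℂ p ζ
  set y : LaurentSeries ℂ := qExpand ℂ p (jqModC ℂ)
  set S : Subring (LaurentSeries ℂ) := (evQ p).range
  have hy : y ∈ S := ⟨X, by simp [evQ, y]⟩
  have hdiv : ∀ (n : ℕ) (x : LaurentSeries ℂ), n ≠ 0 → (n : LaurentSeries ℂ) * x ∈ S → x ∈ S := by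
    rintro n x hn ⟨P, hP⟩
    refine ⟨Polynomial.C ((n : ℚ)⁻¹) * P, ?_⟩
    have hne : (n : LaurentSeries ℂ) ≠ 0 := natCast_ne_zero_laurent (Nat.cast_ne_zero.mpr hn)
    apply mul_left_cancel₀ hne
    rw [← hP, ← map_natCast (evQ p) n, ← map_mul, ← mul_assoc, ← map_natCast Polynomial.C n,
      ← map_mul, mul_inv_cancel₀ (Nat.cast_ne_zero.mpr hn), map_one, one_mul]
  have hmono : ∀ a b, ∑ o, vc o ^ a * wc o ^ b ∈ S := by
    intro a b
    obtain ⟨c, hc⟩ := sum_monomial_eq hp hζ a b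
    rw [hc]
    exact sum_mem fun i _ => S.mul_mem (intCast_mem S _) (pow_mem hy _)
  have hG : ∀ k, (∏ o, (X - Polynomial.C (wc o))).coeff k ∈ S :=
    coeff_prod_X_sub_C_mem S hdiv wc fun n => by simpa using hmono 0 n
  -- the constant term is a nonzero rational number
  set c₀ := (∏ o, (X - Polynomial.C (wc o))).coeff 0
  have hcard : Fintype.card (Option (Fin p)) = p + 1 := by simp
  have hwne : ∀ o, wc o ≠ 0 := by
    have hD : ∀ (n : ℕ) [NeZero n], qExpand ℂ n (ofZ ℂ psD) ≠ 0 := fun n _ h =>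
      left_ne_zero_of_mul_eq_one (psD_mul_sDinv ℂ) ((map_eq_zero_iff _ (qExpand_injective n)).mp h)
    have hDi : qExpand ℂ p (sDinv ℂ) ≠ 0 := fun h =>
      right_ne_zero_of_mul_eq_one (psD_mul_sDinv ℂ) ((map_eq_zero_iff _ (qExpand_injective p)).mp h)
    rintro (_ | i)
    · exact mul_ne_zero (mul_ne_zero
        (pow_ne_zero _ (natCast_ne_zero_laurent (Nat.cast_ne_zero.mpr hp.ne_zero))) (hD _)) hDi
    · refine mul_ne_zero ?_ hDi
      intro h
      apply left_ne_zero_of_mul_eq_one (psD_mul_sDinv ℂ)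
      have h1 := congr_arg (twist (ζ ^ (i : ℕ))⁻¹) h
      rwa [FLTAgent.ModPoly.twist_twist, inv_mul_cancel, twist_one_unit, map_zero] at h1
  have hc₀ : c₀ = (-1) ^ (p + 1) * ∏ o, wc o := by
    simp only [c₀, coeff_zero_eq_eval_zero, eval_prod, eval_sub, eval_X, eval_C, zero_sub]
    rw [Finset.prod_neg, Finset.card_univ, hcard]
  have hc₀ne : c₀ ≠ 0 := by
    rw [hc₀]
    exact mul_ne_zero (pow_ne_zero _ (neg_ne_zero.mpr one_ne_zero))
      (Finset.prod_ne_zero_iff.mpr fun o _ => hwne o)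
  obtain ⟨P₀, hP₀⟩ := hG 0
  have hP₀0 : P₀.natDegree = 0 := by
    by_contra hd
    have h := evQ_coeff_top p P₀ le_rfl
    rw [hP₀] at h
    have hneg : (-((p : ℤ) * P₀.natDegree)) < 0 := by
      have : (0 : ℤ) < (p : ℤ) * P₀.natDegree :=
        mul_pos (by exact_mod_cast hp.pos) (by exact_mod_cast Nat.pos_of_ne_zero hd)
      omega
    change c₀.coeff _ = _ at h
    rw [hc₀, show ((-1 : LaurentSeries ℂ) ^ (p + 1)) = HahnSeries.C ((-1 : ℂ) ^ (p + 1)) by rw [map_pow, map_neg, map_one],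
      HahnSeries.C_mul_eq_smul, HahnSeries.coeff_smul, coeff_prod_rootW_of_neg p ζ hneg,
      smul_zero] at h
    rw [coeff_natDegree] at h
    have : P₀ = 0 := leadingCoeff_eq_zero.mp ((map_eq_zero _).mp h.symm)
    simp [this] at hd
  set r₀ : ℚ := P₀.coeff 0
  have hr₀ : evQ p (Polynomial.C r₀) = c₀ := by
    rw [← eq_C_of_natDegree_eq_zero hP₀0]; exact hP₀
  have hr₀ne : r₀ ≠ 0 := fun h => hc₀ne (by rw [← hr₀, h, map_zero, map_zero])
  -- `1 / w` as a polynomial in `w` over `S`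
  set GS : Polynomial S := Polynomial.toSubring (∏ o, (X - Polynomial.C (wc o))) S (by
    intro x hx
    obtain ⟨n, -, rfl⟩ := mem_coeffs_iff.mp hx
    exact hG n)
  set u₀ : S := ⟨evQ p (Polynomial.C (-r₀⁻¹)), _, rfl⟩
  set H : Polynomial S := Polynomial.C u₀ * GS.divX
  have hH : ∀ o, wc o * H.eval₂ S.subtype (wc o) = 1 := by
    intro o
    have h0 : GS.eval₂ S.subtype (wc o) = 0 := by
      rw [eval₂_eq_eval_map, show GS.map S.subtype = ∏ o, (X - Polynomial.C (wc o)) from
        Polynomial.ext fun n => by rw [Polynomial.coeff_map]; exact coeff_toSubring _ _ _,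
        eval_prod]
      exact Finset.prod_eq_zero (mem_univ o) (by simp)
    have h1 := congr_arg (eval₂ S.subtype (wc o)) (X_mul_divX_add GS)
    rw [eval₂_add, eval₂_mul, eval₂_X, eval₂_C, h0] at h1
    have h2 : S.subtype (GS.coeff 0) = c₀ := coeff_toSubring _ _ _
    rw [h2] at h1
    rw [eval₂_mul, eval₂_C, mul_left_comm, eq_neg_of_add_eq_zero_left h1]
    show evQ p (Polynomial.C (-r₀⁻¹)) * -c₀ = 1
    rw [← hr₀, ← map_neg, ← map_mul, ← map_neg, ← map_mul, neg_mul_neg, inv_mul_cancel₀ hr₀ne,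
      map_one, map_one]
  have hjv : ∀ o, jc o = vc o * H.eval₂ S.subtype (wc o) := by
    intro o
    show rootJ ℂ p ζ o = rootV ℂ p ζ o * _
    rw [rootV_eq, mul_assoc, hH o, mul_one]
  have hΦ : ∀ k, (∏ o, (X - Polynomial.C (jc o))).coeff k ∈ S := by
    refine coeff_prod_X_sub_C_mem S hdiv jc fun n => ?_
    have := sum_mul_eval_mem S vc wc hmono (H ^ n) n
    simpa only [hjv, mul_pow, eval₂_pow] using this
  have hU : ∀ k, (∑ o, Polynomial.C (wc o) *
      ∏ k ∈ univ.erase o, (X - Polynomial.C (jc k))).coeff k ∈ S := by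
    refine coeff_interpolation_mem S jc wc hΦ fun n => ?_
    have := sum_mul_eval_mem S vc wc hmono (X * H ^ n) n
    simpa only [hjv, mul_pow, eval₂_pow, eval₂_mul, eval₂_X, mul_left_comm] using this
  -- integrality
  set ζ₀ : AlgIntˣ := zetaInt p
  set jo := rootJ AlgInt p ζ₀
  set wo := rootW AlgInt p ζ₀
  have hmapJ : (∏ o, (X - Polynomial.C (jo o))).map (coeffMap ι) = ∏ o, (X - Polynomial.C (jc o)) := by
    rw [Polynomial.map_prod]
    refine Finset.prod_congr rfl fun o _ => ?_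
    rw [Polynomial.map_sub, Polynomial.map_X, Polynomial.map_C, coeffMap_rootJ]
    rfl
  have hmapW : (∏ o, (X - Polynomial.C (wo o))).map (coeffMap ι) = ∏ o, (X - Polynomial.C (wc o)) := by
    rw [Polynomial.map_prod]
    refine Finset.prod_congr rfl fun o _ => ?_
    rw [Polynomial.map_sub, Polynomial.map_X, Polynomial.map_C, coeffMap_rootW]
    rfl
  have hmapU : (∑ o, Polynomial.C (wo o) * ∏ k ∈ univ.erase o, (X - Polynomial.C (jo k))).map (coeffMap ι)
      = ∑ o, Polynomial.C (wc o) * ∏ k ∈ univ.erase o, (X - Polynomial.C (jc k)) := by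
    rw [Polynomial.map_sum]
    refine Finset.sum_congr rfl fun o _ => ?_
    rw [Polynomial.map_mul, Polynomial.map_C, coeffMap_rootW, Polynomial.map_prod]
    congr 1
    refine Finset.prod_congr rfl fun o _ => ?_
    rw [Polynomial.map_sub, Polynomial.map_X, Polynomial.map_C, coeffMap_rootJ]
    rfl
  have hmonJ : (∏ o, (X - Polynomial.C (jc o))).Monic := monic_prod_of_monic _ _ fun o _ => monic_X_sub_C _
  obtain ⟨Φ, hΦmap, hΦmon, hΦdeg⟩ := exists_map_eq_of_coeff_mem (evZ p ℂ) _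
    (coeff_mem_evZ_range p _ hmapJ hΦ) hmonJ
  obtain ⟨G, hGmap, hGmon, -⟩ := exists_map_eq_of_coeff_mem (evZ p ℂ) _
    (coeff_mem_evZ_range p _ hmapW hG) (monic_prod_of_monic _ _ fun o _ => monic_X_sub_C _)
  obtain ⟨U, hUmap⟩ := (mem_lifts _).mp ((lifts_iff_coeff_lifts (f := evZ p ℂ) _).mpr
    (coeff_mem_evZ_range p _ hmapU hU))
  have hinj : Function.Injective (coeffMap ι) := fun a b h => HahnSeries.ext (funext fun k =>
    Subtype.ext (congr_arg (fun z : LaurentSeries ℂ => z.coeff k) h))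
  have hbase : EquationsHold p Φ G U AlgInt ζ₀ := by
    refine ⟨?_, ?_, ?_⟩ <;> apply Polynomial.map_injective _ hinj <;>
      rw [Polynomial.map_map, coeffMap_comp_evZ]
    · rw [hΦmap, hmapJ]
    · rw [hGmap, hmapW]
    · rw [hUmap, hmapU]
  refine ⟨Φ, G, U, hΦmon, hGmon, ?_, fun R _ φ => ?_⟩
  · rw [hΦdeg, natDegree_prod_of_monic _ _ fun o _ => monic_X_sub_C _]
    simp
  · obtain ⟨h1, h2, h3⟩ := hbase
    refine ⟨?_, ?_, ?_⟩ <;> rw [← coeffMap_comp_evZ p φ, ← Polynomial.map_map]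
    · rw [h1, Polynomial.map_prod]
      simp only [Polynomial.map_sub, Polynomial.map_X, Polynomial.map_C, coeffMap_rootJ]
      rfl
    · rw [h2, Polynomial.map_prod]
      simp only [Polynomial.map_sub, Polynomial.map_X, Polynomial.map_C, coeffMap_rootW]
      rfl
    · rw [h3, Polynomial.map_sum]
      simp only [Polynomial.map_mul, Polynomial.map_prod, Polynomial.map_sub, Polynomial.map_X,
        Polynomial.map_C, coeffMap_rootW, coeffMap_rootJ]
      rfl

end Equations

end FLTAgent.Igusa
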