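import Fermat.Agent.Igusa.Rational

/-!
# `[ℚ (j (q ^ d) : d ∣ N) : ℚ (j)] ≤ ψ N`
-/

set_option autoImplicit false
set_option linter.style.haveILetI false
set_option linter.unusedSectionVars false

noncomputable section

open Polynomial Finset IntermediateField ModularCurve

namespace FLTAgent.Igusa

/-- `ℚ (j)`. -/
abbrev ratBase : IntermediateField ℚ (LaurentSeries ℚ) := IntermediateField.adjoin ℚ {jq}

/-- The generators of `genQ N P` together with the powers of one more prime. -/
def chainQ (N : ℕ) (P : Finset ℕ) (p i : ℕ) : Set (LaurentSeries ℚ) :=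
  genQ N P ∪ {z | ∃ i' ≤ i, z = jQ (p ^ i')}

theorem chainQ_succ (N : ℕ) (P : Finset ℕ) (p i : ℕ) :
    chainQ N P p (i + 1) = insert (jQ (p ^ (i + 1))) (chainQ N P p i) := by
  ext z
  simp only [chainQ, Set.mem_union, Set.mem_insert_iff, Set.mem_ofPred_eq]
  constructor
  · rintro (h | ⟨i', hi', rfl⟩)
    · exact Or.inr (Or.inl h)
    · rcases Nat.eq_or_lt_of_le hi' with rfl | hlt
      · exact Or.inl rfl
      · exact Or.inr (Or.inr ⟨i', Nat.lt_succ_iff.mp hlt, rfl⟩)
  · rintro (rfl | h | ⟨i', hi', rfl⟩)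
    · exact Or.inr ⟨i + 1, le_rfl, rfl⟩
    · exact Or.inl h
    · exact Or.inr ⟨i', hi'.trans (Nat.le_succ i), rfl⟩

theorem genQ_insert (N : ℕ) (P : Finset ℕ) (p : ℕ) :
    genQ N (insert p P) = chainQ N P p (N.factorization p) := by
  ext z
  simp only [genQ, chainQ, Set.mem_union, Set.mem_ofPred_eq, Finset.mem_insert, exists_eq_or_imp]
  exact or_comm

theorem adjoin_chainQ_zero (N : ℕ) (P : Finset ℕ) (p : ℕ) :
    adjoin ratBase (chainQ N P p 0) = adjoin ratBase (genQ N P) := by
  refine le_antisymm (adjoin_le_iff.mpr ?_) (adjoin.mono _ _ _ Set.subset_union_left)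
  rintro z (h | ⟨i', hi', rfl⟩)
  · exact subset_adjoin _ _ h
  · rw [Nat.le_zero.mp hi', pow_zero, jQ_one]
    exact IntermediateField.algebraMap_mem _ (⟨jq, mem_adjoin_simple_self ℚ jq⟩ : ratBase)

theorem isIntegral_jQ_pow (p : ℕ) [Fact p.Prime] : ∀ i, IsIntegral ratBase (jQ (p ^ i)) := by
  haveI : NeZero p := ⟨(Fact.out : p.Prime).ne_zero⟩
  intro i
  induction i with
  | zero =>
    rw [pow_zero, jQ_one]
    exact isIntegral_algebraMap (x := (⟨jq, mem_adjoin_simple_self ℚ jq⟩ : ratBase))
  | succ i ih =>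
    haveI := adjoin.finiteDimensional ih
    refine isIntegral_trans (A := ratBase⟮jQ (p ^ i)⟯) _ ?_
    refine ⟨modEqAt p (AdjoinSimple.gen ratBase (jQ (p ^ i))), modEqAt_monic p _, ?_⟩
    rw [← eval_map, map_modEqAt, AdjoinSimple.algebraMap_gen, pow_succ, mul_comm]
    exact (eval_modEqAt_jQ p (p ^ i)).1

theorem natDegree_step_zero (p : ℕ) [Fact p.Prime] (S : Set (LaurentSeries ℚ)) :
    (minpoly (adjoin ratBase S) (jQ (p ^ 1))).natDegree ≤ p + 1 := by
  haveI : NeZero p := ⟨(Fact.out : p.Prime).ne_zero⟩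
  set y : adjoin ratBase S := algebraMap ratBase _ ⟨jq, mem_adjoin_simple_self ℚ jq⟩
  have h : aeval (jQ (p ^ 1)) (modEqAt p y) = 0 := by
    rw [aeval_def, ← eval_map, map_modEqAt]
    have h1 := (eval_modEqAt_jQ p 1).1
    rw [mul_one, jQ_one] at h1
    rw [pow_one]
    exact h1
  exact (natDegree_le_of_dvd (minpoly.dvd _ _ h) (modEqAt_monic p y).ne_zero).trans
    (natDegree_modEqAt p y).le

theorem natDegree_step_succ (p : ℕ) [Fact p.Prime] (i : ℕ) {S : Set (LaurentSeries ℚ)}
    (hy : jQ (p ^ (i + 1)) ∈ adjoin ratBase S) (hw : jQ (p ^ i) ∈ adjoin ratBase S) :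
    (minpoly (adjoin ratBase S) (jQ (p ^ (i + 1 + 1)))).natDegree ≤ p := by
  have hp : p.Prime := Fact.out
  haveI : NeZero p := ⟨hp.ne_zero⟩
  set y : adjoin ratBase S := ⟨_, hy⟩
  set w : adjoin ratBase S := ⟨_, hw⟩
  set f := modEqAt p y
  have hwr : f.IsRoot w := by
    refine Subtype.val_injective ?_
    change algebraMap (adjoin ratBase S) (LaurentSeries ℚ) _ = algebraMap (adjoin ratBase S) (LaurentSeries ℚ) 0
    rw [map_zero, ← eval_map_apply, map_modEqAt]
    have h := (eval_modEqAt_jQ p (p ^ i)).2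
    rwa [← pow_succ'] at h
  have hfac : (X - Polynomial.C w) * (f /ₘ (X - Polynomial.C w)) = f :=
    mul_divByMonic_eq_iff_isRoot.mpr hwr
  have hz : aeval (jQ (p ^ (i + 1 + 1))) (f /ₘ (X - Polynomial.C w)) = 0 := by
    have h : aeval (jQ (p ^ (i + 1 + 1))) f = 0 := by
      rw [aeval_def, ← eval_map, map_modEqAt]
      have h := (eval_modEqAt_jQ p (p ^ (i + 1))).1
      rwa [← pow_succ'] at h
    rw [← hfac, map_mul, mul_eq_zero] at h
    refine h.resolve_left ?_
    rw [map_sub, aeval_X, aeval_C, sub_eq_zero]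
    intro e
    have hh := (J_inj (R := ℚ) (a := p ^ (i + 1 + 1)) (b := p ^ i) e).1
    have := Nat.pow_right_injective hp.two_le hh
    omega
  have hne : f /ₘ (X - Polynomial.C w) ≠ 0 := fun e => by
    rw [e, mul_zero] at hfac
    exact (modEqAt_monic p y).ne_zero hfac.symm
  refine (natDegree_le_of_dvd (minpoly.dvd _ _ hz) hne).trans ?_
  rw [natDegree_divByMonic _ (monic_X_sub_C w), natDegree_modEqAt, natDegree_X_sub_C]
  omega

theorem finrank_chainQ_le (N : ℕ) (P : Finset ℕ) (p : ℕ) [Fact p.Prime] : ∀ i, 1 ≤ i →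
    Module.finrank ratBase (adjoin ratBase (chainQ N P p i))
      ≤ Module.finrank ratBase (adjoin ratBase (genQ N P)) * ((p + 1) * p ^ (i - 1)) := by
  intro i hi
  induction i, hi using Nat.le_induction with
  | base =>
    rw [show chainQ N P p 1 = insert (jQ (p ^ 1)) (chainQ N P p 0) from chainQ_succ N P p 0,
      finrank_adjoin_insert (isIntegral_jQ_pow p 1), adjoin_chainQ_zero]
    simpa using Nat.mul_le_mul_left _ (natDegree_step_zero p (genQ N P))
  | succ i hi ih =>
    rw [chainQ_succ, finrank_adjoin_insert (isIntegral_jQ_pow p (i + 1))]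
    obtain ⟨i', rfl⟩ : ∃ i', i = i' + 1 := ⟨i - 1, by omega⟩
    refine le_trans (Nat.mul_le_mul ih (natDegree_step_succ p i'
      (subset_adjoin _ _ (Or.inr ⟨_, le_rfl, rfl⟩))
      (subset_adjoin _ _ (Or.inr ⟨_, Nat.le_succ _, rfl⟩)))) (le_of_eq ?_)
    simp only [Nat.add_sub_cancel, pow_succ]
    ring

/-- The modular function field over `ℚ (j)`. -/
abbrev ratTop (N : ℕ) : IntermediateField ratBase (LaurentSeries ℚ) :=
  adjoin ratBase (genQ N N.primeFactors)

theorem finiteDimensional_ratTop (N : ℕ) : FiniteDimensional ratBase (ratTop N) := by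
  haveI : Finite (genQ N N.primeFactors) := by
    refine Set.Finite.to_subtype (((N.primeFactors.biUnion fun p => (Finset.range (N.factorization p + 1)).image
      fun i => p ^ i).finite_toSet.image jQ).subset ?_)
    rintro z ⟨p, hp, i, hi, rfl⟩
    exact ⟨p ^ i, Finset.mem_coe.mpr (Finset.mem_biUnion.mpr ⟨p, hp, Finset.mem_image.mpr
      ⟨i, Finset.mem_range.mpr (Nat.lt_succ_of_le hi), rfl⟩⟩), rfl⟩
  refine finiteDimensional_adjoin ?_
  rintro z ⟨p, hp, i, -, rfl⟩
  haveI : Fact p.Prime := ⟨Nat.prime_of_mem_primeFactors hp⟩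
  exact isIntegral_jQ_pow p i

theorem finrank_ratTop_le (N : ℕ) [NeZero N] : Module.finrank ratBase (ratTop N) ≤ psiProd N := by
  have key : ∀ P : Finset ℕ, P ⊆ N.primeFactors →
      Module.finrank ratBase (adjoin ratBase (genQ N P)) ≤
        ∏ p ∈ P, (p + 1) * p ^ (N.factorization p - 1) := by
    intro P
    induction P using Finset.induction_on with
    | empty =>
      intro _
      have : genQ N ∅ = ∅ := by ext z; simp [genQ]
      rw [this, adjoin_empty, Finset.prod_empty]
      exact IntermediateField.finrank_bot.le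
    | insert p P hp ih =>
      intro hsub
      have hpf := hsub (Finset.mem_insert_self p P)
      haveI : Fact p.Prime := ⟨Nat.prime_of_mem_primeFactors hpf⟩
      have he : 1 ≤ N.factorization p :=
        (Nat.prime_of_mem_primeFactors hpf).factorization_pos_of_dvd (NeZero.ne N)
          (Nat.dvd_of_mem_primeFactors hpf)
      rw [genQ_insert, Finset.prod_insert hp]
      refine (finrank_chainQ_le N P p _ he).trans ?_
      rw [mul_comm]
      exact Nat.mul_le_mul_left _ (ih ((Finset.subset_insert p P).trans hsub))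
  exact key _ Finset.Subset.rfl

theorem mem_ratTop_of_mem_full (N : ℕ) [NeZero N] {x : LaurentSeries ℚ}
    (hx : x ∈ modularFunctionFieldFull N) : x ∈ ratTop N := by
  have hQ : ∀ r : ℚ, algebraMap ℚ (LaurentSeries ℚ) r ∈ ratTop N := fun r =>
    IntermediateField.algebraMap_mem _
      (⟨algebraMap ℚ (LaurentSeries ℚ) r, IntermediateField.algebraMap_mem _ r⟩ : ratBase)
  have hle : ∀ y ∈ IntermediateField.adjoin ℚ (insert jq (genQ N N.primeFactors)), y ∈ ratTop N := by
    intro y hy
    induction hy using adjoin_induction with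
    | mem z hz =>
      rcases hz with rfl | hz
      · exact IntermediateField.algebraMap_mem _ (⟨jq, mem_adjoin_simple_self ℚ jq⟩ : ratBase)
      · exact subset_adjoin _ _ hz
    | algebraMap r => exact hQ r
    | add a b _ _ ha hb => exact add_mem ha hb
    | inv a _ ha => exact inv_mem ha
    | mul a b _ _ ha hb => exact mul_mem ha hb
  unfold modularFunctionFieldFull at hx
  induction hx using adjoin_induction with
  | mem z hz =>
    obtain ⟨d, hd0, hd, rfl⟩ := hz
    have hj : jQ d ∈ ratTop N := hle _ (jQ_mem_adjoin N d hd)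
    rwa [jQ, J_one_unit, jqModC_rat] at hj
  | algebraMap r => exact hQ r
  | add a b _ _ ha hb => exact add_mem ha hb
  | inv a _ ha => exact inv_mem ha
  | mul a b _ _ ha hb => exact mul_mem ha hb

theorem mem_full_of_mem_ratTop (N : ℕ) [NeZero N] {x : LaurentSeries ℚ} (hx : x ∈ ratTop N) :
    x ∈ modularFunctionFieldFull N := by
  induction hx using adjoin_induction with
  | mem z hz =>
    obtain ⟨p, hp, i, hi, rfl⟩ := hz
    haveI : NeZero (p ^ i) := ⟨pow_ne_zero _ (Nat.prime_of_mem_primeFactors hp).ne_zero⟩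
    rw [jQ, J_one_unit, jqModC_rat]
    exact jqd_mem_full N ((pow_dvd_pow p hi).trans (Nat.ordProj_dvd N p))
  | algebraMap r =>
    have h : ratBase ≤ modularFunctionFieldFull N := by
      rw [adjoin_le_iff, Set.singleton_subset_iff]
      exact modularFunctionField_le_full N (jq_mem N)
    exact h r.2
  | add a b _ _ ha hb => exact add_mem ha hb
  | inv a _ ha => exact inv_mem ha
  | mul a b _ _ ha hb => exact mul_mem ha hb

end FLTAgent.Igusa
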