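import Fermat.Agent.Igusa.GaussLemmas
import Fermat.Agent.Igusa.Independent
import Fermat.Agent.Igusa.RationalDegree

/-!
# A basis of the modular function field over `ℚ (j)` with independent reductions
-/

set_option autoImplicit false
set_option linter.style.haveILetI false
set_option linter.unusedSectionVars false

noncomputable section

open Polynomial Finset ModularCurve IntermediateField

namespace FLTAgent.Igusa

variable (N : ℕ) [NeZero N] (ℓ : ℕ) [Fact ℓ.Prime]

theorem jq_eq_lift : jq = lift ℓ (jqModC ↥(GaloisRep.ratLocalizedAt ℓ)) := by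
  rw [lift, coeffMap_jqModC, jqModC_rat]

theorem jq_mem_gaussRing : jq ∈ gaussRing ℓ := by
  rw [jq_eq_lift ℓ]; exact lift_mem ℓ _

/-- `j` in the Gauss ring. -/
def jGauss : gaussRing ℓ := ⟨jq, jq_mem_gaussRing ℓ⟩

theorem red_jGauss : red ℓ (jGauss ℓ) = jqModC (ZMod ℓ) := by
  rw [show jGauss ℓ = ⟨lift ℓ _, lift_mem ℓ _⟩ from Subtype.ext (jq_eq_lift ℓ), red_lift, reduce,
    coeffMap_jqModC]

theorem injective_aeval_jq : Function.Injective (aeval (R := ℚ) jq) := by
  simpa [qExpand_one_apply, jqModC_rat] using injective_aeval_qExpand_jqModC (k := ℚ) 1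

theorem injective_aeval_red_jGauss : Function.Injective (aeval (R := ZMod ℓ) (red ℓ (jGauss ℓ))) := by
  rw [red_jGauss]
  simpa [qExpand_one_apply] using injective_aeval_qExpand_jqModC (k := ZMod ℓ) 1

/-- Integral series in the modular function field. -/
def intToRat : LaurentSeries ℤ →+* LaurentSeries ℚ := coeffMap (Int.castRingHom ℚ)

theorem intToRat_eq_lift (x : LaurentSeries ℤ) :
    intToRat x = lift ℓ (coeffMap (Int.castRingHom _) x) := by
  rw [lift, coeffMap_coeffMap, intToRat]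
  exact coeffMap_congr (RingHom.ext_int _ _) x

theorem intToRat_mem_full (x : intModRing N) : intToRat (x : LaurentSeries ℤ) ∈ modularFunctionFieldFull N := by
  obtain ⟨x, hx⟩ := x
  induction hx using Subring.closure_induction with
  | mem z hz =>
    obtain ⟨d, hd0, hd, rfl⟩ := hz
    rw [intToRat, coeffMap_qExpand, coeffMap_jqModC, jqModC_rat]
    exact jqd_mem_full N hd
  | zero => rw [map_zero]; exact zero_mem _
  | one => rw [map_one]; exact one_mem _
  | add a b _ _ ha hb => rw [map_add]; exact add_mem ha hb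
  | neg a _ ha => rw [map_neg]; exact neg_mem ha
  | mul a b _ _ ha hb => rw [map_mul]; exact mul_mem ha hb

theorem red_intToRat (x : LaurentSeries ℤ) :
    ∃ h : intToRat x ∈ gaussRing ℓ, red ℓ ⟨intToRat x, h⟩ = coeffMap (Int.castRingHom (ZMod ℓ)) x := by
  have hm : intToRat x ∈ gaussRing ℓ := by rw [intToRat_eq_lift ℓ]; exact lift_mem ℓ _
  refine ⟨hm, ?_⟩
  rw [show (⟨intToRat x, hm⟩ : gaussRing ℓ) = ⟨lift ℓ _, lift_mem ℓ _⟩ from
    Subtype.ext (intToRat_eq_lift ℓ x), red_lift, reduce, coeffMap_coeffMap]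
  exact coeffMap_congr (RingHom.ext_int _ _) x

/-- A maximum for the Gauss valuation. -/
theorem exists_max {ι : Type*} (c : ι → LaurentSeries ℚ) (hc : ∀ i, c i ∈ boundedField ℓ)
    (s : Finset ι) (hs : ∃ i ∈ s, c i ≠ 0) :
    ∃ i₀ ∈ s, c i₀ ≠ 0 ∧ ∀ i ∈ s, c i / c i₀ ∈ gaussRing ℓ := by
  classical
  induction s using Finset.induction_on with
  | empty => obtain ⟨i, hi, -⟩ := hs; exact absurd hi (Finset.notMem_empty i)
  | insert a t hat ih =>
    by_cases ht : ∃ i ∈ t, c i ≠ 0
    · obtain ⟨i₀, hi₀, hne, hall⟩ := ih ht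
      rcases mem_gaussRing_or_inv ℓ (div_mem (hc a) (hc i₀)) with h | ⟨h, -⟩
      · refine ⟨i₀, Finset.mem_insert_of_mem hi₀, hne, fun i hi => ?_⟩
        rcases Finset.mem_insert.mp hi with rfl | hi
        exacts [h, hall i hi]
      · rcases eq_or_ne (c a) 0 with hca | hca
        · refine ⟨i₀, Finset.mem_insert_of_mem hi₀, hne, fun i hi => ?_⟩
          rcases Finset.mem_insert.mp hi with rfl | hi
          · rw [hca, zero_div]; exact zero_mem _
          · exact hall i hi
        · rw [inv_div] at h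
          refine ⟨a, Finset.mem_insert_self a t, hca, fun i hi => ?_⟩
          rcases Finset.mem_insert.mp hi with rfl | hi
          · rw [div_self hca]; exact one_mem _
          · rw [← div_mul_div_cancel₀ hne]
            exact mul_mem (hall i hi) h
    · push Not at ht
      obtain ⟨i, hi, hne⟩ := hs
      rcases Finset.mem_insert.mp hi with rfl | hi
      · refine ⟨i, Finset.mem_insert_self i t, hne, fun i' hi' => ?_⟩
        rcases Finset.mem_insert.mp hi' with rfl | hi'
        · rw [div_self hne]; exact one_mem _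
        · rw [ht i' hi', zero_div]; exact zero_mem _
      · exact absurd (ht i hi) hne

/-- Integral elements with independent reductions are a basis over `ℚ (j)`, and integral
elements have integral coordinates. -/
theorem gauss_basis (bz : Fin (psiProd N) → intModRing N)
    (hbz : ∀ P : Fin (psiProd N) → (ZMod ℓ)[X],
      ∑ i, aeval (jqModC (ZMod ℓ)) (P i) *
          coeffMap (Int.castRingHom (ZMod ℓ)) (bz i : LaurentSeries ℤ) = 0 → ∀ i, P i = 0) :
    (∀ c : Fin (psiProd N) → ratBase,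
      ∑ i, (c i : LaurentSeries ℚ) * intToRat (bz i : LaurentSeries ℤ) = 0 → ∀ i, c i = 0) ∧
    ∀ y ∈ modularFunctionFieldFull N, ∃ c : Fin (psiProd N) → ratBase,
        y = ∑ i, (c i : LaurentSeries ℚ) * intToRat (bz i : LaurentSeries ℤ) ∧
        (y ∈ gaussRing ℓ → ∀ i, (c i : LaurentSeries ℚ) ∈ gaussRing ℓ) := by
  classical
  set b : Fin (psiProd N) → LaurentSeries ℚ := fun i => intToRat (bz i : LaurentSeries ℤ)
  have hbF : ∀ i, b i ∈ modularFunctionFieldFull N := fun i => intToRat_mem_full N (bz i)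
  have hbg : ∀ i, b i ∈ gaussRing ℓ := fun i => (red_intToRat ℓ _).1
  have hrbF : ∀ z ∈ ratBase, z ∈ boundedField ℓ := fun z hz =>
    modularFunctionFieldFull_le_boundedField ℓ N
      (mem_full_of_mem_ratTop N (IntermediateField.algebraMap_mem (ratTop N) (⟨z, hz⟩ : ratBase)))
  -- reductions of a combination with integral coefficients
  have hind : ∀ d : Fin (psiProd N) → LaurentSeries ℚ, (∀ i, d i ∈ ratBase) →
      ∀ hd : ∀ i, d i ∈ gaussRing ℓ,
      ∑ i, red ℓ ⟨d i, hd i⟩ * red ℓ ⟨b i, hbg i⟩ = 0 → ∀ i, red ℓ ⟨d i, hd i⟩ = 0 := by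
    intro d hdK hd hsum i
    choose P Q hQ hPQ using fun i => exists_reduced_fraction ℓ (jGauss ℓ) injective_aeval_jq
      (injective_aeval_red_jGauss ℓ) (hdK i) (hd i)
    have h0 : ∑ i, aeval (jqModC (ZMod ℓ)) (P i * ∏ k ∈ univ.erase i, Q k) *
        coeffMap (Int.castRingHom (ZMod ℓ)) (bz i : LaurentSeries ℤ) = 0 := by
      refine Eq.trans ?_ (mul_eq_zero_of_right (aeval (jqModC (ZMod ℓ)) (∏ k, Q k)) hsum)
      rw [Finset.mul_sum]
      refine Finset.sum_congr rfl fun i _ => ?_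
      rw [(red_intToRat ℓ _).2, ← red_jGauss ℓ, map_mul, ← hPQ i,
        ← Finset.mul_prod_erase univ Q (Finset.mem_univ i), map_mul]
      ring
    have h1 := hbz _ h0 i
    have hP : P i = 0 := (mul_eq_zero.mp h1).resolve_right
      (Finset.prod_ne_zero_iff.mpr fun k _ => hQ k)
    have h2 := hPQ i
    rw [hP, map_zero, mul_eq_zero] at h2
    exact h2.resolve_right fun e =>
      hQ i (injective_aeval_red_jGauss ℓ (e.trans (map_zero _).symm))
  have hscale : ∀ c : Fin (psiProd N) → LaurentSeries ℚ, (∀ i, c i ∈ ratBase) →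
      ∀ i₀, c i₀ ≠ 0 → (∀ i, c i / c i₀ ∈ gaussRing ℓ) →
      ∀ h : (∑ i, c i * b i) / c i₀ ∈ gaussRing ℓ, red ℓ ⟨_, h⟩ ≠ 0 := by
    intro c hc i₀ hne hdiv h hzero
    have he : (⟨_, h⟩ : gaussRing ℓ) = ∑ i, ⟨c i / c i₀, hdiv i⟩ * ⟨b i, hbg i⟩ := by
      refine Subtype.ext ?_
      rw [AddSubmonoidClass.coe_finsetSum]
      simp only [Subring.coe_mul]
      rw [Finset.sum_div]
      exact Finset.sum_congr rfl fun i _ => by rw [mul_div_right_comm]
    rw [he, map_sum] at hzero
    simp only [map_mul] at hzero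
    have h1 := hind (fun i => c i / c i₀) (fun i => div_mem (hc i) (hc i₀)) hdiv hzero i₀
    rw [show (⟨c i₀ / c i₀, hdiv i₀⟩ : gaussRing ℓ) = 1 from Subtype.ext (div_self hne), map_one] at h1
    exact one_ne_zero h1
  have hli : ∀ c : Fin (psiProd N) → ratBase, ∑ i, (c i : LaurentSeries ℚ) * b i = 0 → ∀ i, c i = 0 := by
    intro c hsum i
    by_contra hne
    obtain ⟨i₀, -, hne₀, hmax⟩ := exists_max ℓ (fun i => (c i : LaurentSeries ℚ))
      (fun i => hrbF _ (c i).2) univ ⟨i, Finset.mem_univ i, fun e => hne (Subtype.ext e)⟩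
    have hmem : (∑ i, (c i : LaurentSeries ℚ) * b i) / (c i₀ : LaurentSeries ℚ) ∈ gaussRing ℓ := by
      rw [hsum, zero_div]; exact zero_mem _
    refine hscale _ (fun i => (c i).2) i₀ hne₀ (fun i => hmax i (Finset.mem_univ i)) hmem ?_
    rw [show (⟨_, hmem⟩ : gaussRing ℓ) = 0 from Subtype.ext (by simp [hsum]), map_zero]
  refine ⟨hli, fun y hy => ?_⟩
  haveI := finiteDimensional_ratTop N
  set B : Fin (psiProd N) → ratTop N := fun i => ⟨b i, mem_ratTop_of_mem_full N (hbF i)⟩
  have hB : LinearIndependent ratBase B := by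
    rw [Fintype.linearIndependent_iff]
    intro g hg i
    refine hli g ?_ i
    have h := congr_arg Subtype.val hg
    rw [AddSubmonoidClass.coe_finsetSum] at h
    exact h
  have hspan : (⟨y, mem_ratTop_of_mem_full N hy⟩ : ratTop N) ∈ Submodule.span ratBase (Set.range B) := by
    rw [hB.span_eq_top_of_card_eq_finrank'
      (le_antisymm hB.fintype_card_le_finrank (by simpa using finrank_ratTop_le N))]
    trivial
  obtain ⟨c, hc⟩ := (Submodule.mem_span_range_iff_exists_fun ratBase).mp hspan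
  have hy' : y = ∑ i, (c i : LaurentSeries ℚ) * b i := by
    have h := congr_arg Subtype.val hc
    rw [AddSubmonoidClass.coe_finsetSum] at h
    exact h.symm
  refine ⟨c, hy', fun hyg i => ?_⟩
  by_contra hi
  obtain ⟨i₀, -, hne₀, hmax⟩ := exists_max ℓ (fun i => (c i : LaurentSeries ℚ))
    (fun i => hrbF _ (c i).2) univ ⟨i, Finset.mem_univ i, fun e => hi (e ▸ zero_mem (gaussRing ℓ))⟩
  rcases mem_gaussRing_or_inv ℓ (hrbF _ (c i₀).2) with h0 | ⟨h0, hr0⟩
  · refine hi ?_
    have := mul_mem (hmax i (Finset.mem_univ i)) h0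
    rwa [div_mul_cancel₀ _ hne₀] at this
  · have hmem : (∑ i, (c i : LaurentSeries ℚ) * b i) / (c i₀ : LaurentSeries ℚ) ∈ gaussRing ℓ := by
      rw [← hy', div_eq_mul_inv]; exact mul_mem hyg h0
    refine hscale _ (fun i => (c i).2) i₀ hne₀ (fun i => hmax i (Finset.mem_univ i)) hmem ?_
    rw [show (⟨_, hmem⟩ : gaussRing ℓ) = ⟨y, hyg⟩ * ⟨_, h0⟩ from
      Subtype.ext (show _ / _ = y * _ by rw [← hy', div_eq_mul_inv]), map_mul, hr0, mul_zero]

/-- Data of the basis. -/
theorem exists_gauss_basis (hℓN : ¬ ℓ ∣ N) :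
    ∃ b : Fin (psiProd N) → LaurentSeries ℚ,
      (∀ i, b i ∈ modularFunctionFieldFull N) ∧ (∀ i, b i ∈ gaussRing ℓ) ∧
      ∀ y ∈ modularFunctionFieldFull N, ∃ c : Fin (psiProd N) → ratBase,
        y = ∑ i, (c i : LaurentSeries ℚ) * b i ∧
        (y ∈ gaussRing ℓ → ∀ i, (c i : LaurentSeries ℚ) ∈ gaussRing ℓ) := by
  obtain ⟨bz, hbz⟩ := exists_independent_reductions N ℓ hℓN
  exact ⟨fun i => intToRat (bz i : LaurentSeries ℤ), fun i => intToRat_mem_full N (bz i),
    fun i => (red_intToRat ℓ _).1, (gauss_basis N ℓ bz hbz).2⟩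

end FLTAgent.Igusa
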