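import Fermat.Prelude.Def_ModularCurve_X0ModL
import Fermat.Agent.ModPoly.Scale

/-!
# The series `j (c t ^ a)` and substitutions `t ↦ c t ^ d`
-/

set_option autoImplicit false

noncomputable section

open HahnSeries ModularCurve

namespace FLTAgent.Igusa

open FLTAgent.ModPoly (twist twist_coeff twist_single twist_twist twist_one_unit coeffMap_twist)

section General

variable {R S : Type*} [CommRing R] [CommRing S]

theorem twist_qExpand (η : Rˣ) (d : ℕ) [NeZero d] (x : LaurentSeries R) :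
    twist η (qExpand R d x) = qExpand R d (twist (η ^ d) x) := by
  ext k
  by_cases hk : (d : ℤ) ∣ k
  · obtain ⟨m, rfl⟩ := hk
    rw [twist_coeff, qExpand_coeff_mul, qExpand_coeff_mul, twist_coeff, zpow_mul, zpow_natCast]
  · rw [twist_coeff, qExpand_coeff_of_not_dvd d _ hk, qExpand_coeff_of_not_dvd d _ hk, mul_zero]

theorem twist_qExpand_eq_self (η : Rˣ) (d : ℕ) [NeZero d] (h : η ^ d = 1) (x : LaurentSeries R) :
    twist η (qExpand R d x) = qExpand R d x := by
  rw [twist_qExpand, h, twist_one_unit]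

theorem twist_C' (η : Rˣ) (r : R) : twist η (HahnSeries.C r) = HahnSeries.C r := by
  simp

variable (R)

/-- `j (c t ^ a)`, for `0 < a`. -/
def J (a : ℕ) (c : Rˣ) : LaurentSeries R :=
  if h : a = 0 then 0 else (haveI : NeZero a := ⟨h⟩; qExpand R a (twist c (jqModC R)))

variable {R}

theorem J_def (a : ℕ) [NeZero a] (c : Rˣ) : J R a c = qExpand R a (twist c (jqModC R)) := by
  rw [J, dif_neg (NeZero.ne a)]

theorem J_one_unit (a : ℕ) [NeZero a] : J R a 1 = qExpand R a (jqModC R) := by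
  rw [J_def, twist_one_unit]

theorem J_one_one : J R 1 1 = jqModC R := by
  rw [J_one_unit, qExpand_one_apply]

theorem qExpand_J (d : ℕ) [NeZero d] (a : ℕ) (c : Rˣ) :
    qExpand R d (J R a c) = J R (d * a) c := by
  rcases eq_or_ne a 0 with rfl | ha
  · simp [J]
  · haveI : NeZero a := ⟨ha⟩
    haveI : NeZero (d * a) := ⟨Nat.mul_ne_zero (NeZero.ne d) ha⟩
    rw [J_def, J_def, qExpand_qExpand]

theorem twist_J (η : Rˣ) (a : ℕ) (c : Rˣ) : twist η (J R a c) = J R a (c * η ^ a) := by
  rcases eq_or_ne a 0 with rfl | ha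
  · simp [J]
  · haveI : NeZero a := ⟨ha⟩
    rw [J_def, J_def, twist_qExpand, twist_twist, mul_comm]

theorem coeffMap_J (f : R →+* S) (a : ℕ) (c : Rˣ) :
    coeffMap f (J R a c) = J S a (Units.map (f : R →* S) c) := by
  rcases eq_or_ne a 0 with rfl | ha
  · simp [J]
  · haveI : NeZero a := ⟨ha⟩
    rw [J_def, J_def, coeffMap_qExpand, coeffMap_twist, coeffMap_jqModC]

theorem coeff_J_neg (a : ℕ) [NeZero a] (c : Rˣ) :
    (J R a c).coeff (-(a : ℤ)) = ((c⁻¹ : Rˣ) : R) := by
  rw [J_def, show -(a : ℤ) = (a : ℤ) * (-1) by ring, qExpand_coeff_mul, twist_coeff, zpow_neg_one,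
    coeff_jqModC_neg_one, mul_one]

theorem coeff_J_of_lt (a : ℕ) [NeZero a] (c : Rˣ) {k : ℤ} (hk : k < -(a : ℤ)) :
    (J R a c).coeff k = 0 := by
  rw [J_def]
  by_cases hd : (a : ℤ) ∣ k
  · obtain ⟨m, rfl⟩ := hd
    have hm : m < -1 := by
      by_contra h
      push Not at h
      have : (a : ℤ) * (-1) ≤ (a : ℤ) * m := mul_le_mul_of_nonneg_left h (Int.natCast_nonneg a)
      omega
    rw [qExpand_coeff_mul, twist_coeff, coeff_jqModC_of_lt R hm, mul_zero]
  · exact qExpand_coeff_of_not_dvd a _ hd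

theorem J_inj [Nontrivial R] {a b : ℕ} [NeZero a] [NeZero b] {c d : Rˣ}
    (h : J R a c = J R b d) : a = b ∧ c = d := by
  have hab : a = b := by
    by_contra hne
    rcases Nat.lt_or_gt_of_ne hne with hlt | hlt
    · have := coeff_J_of_lt a c (k := -(b : ℤ)) (by omega)
      rw [h, coeff_J_neg] at this
      exact Units.ne_zero _ this
    · have := coeff_J_of_lt b d (k := -(a : ℤ)) (by omega)
      rw [← h, coeff_J_neg] at this
      exact Units.ne_zero _ this
  subst hab
  refine ⟨rfl, inv_inj.mp (Units.ext ?_)⟩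
  rw [← coeff_J_neg a c, h, coeff_J_neg]

theorem J_ne_zero [Nontrivial R] (a : ℕ) [NeZero a] (c : Rˣ) : J R a c ≠ 0 := fun h => by
  have := coeff_J_neg a c
  rw [h] at this
  simp at this
  exact Units.ne_zero _ this.symm

/-- The substitution `t ↦ c t ^ d` maps `J a e` to `J (d a) (e c ^ a)`. -/
theorem qExpand_twist_J (d : ℕ) [NeZero d] (c : Rˣ) (a : ℕ) (e : Rˣ) :
    qExpand R d (twist c (J R a e)) = J R (d * a) (e * c ^ a) := by
  rw [twist_J, qExpand_J]

end General

end FLTAgent.Igusa
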