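import Fermat.Prelude.Thm_ModularForm_levelOne_eq_zero_of_lt_order_qExpansion
import Fermat.Prelude.Thm_UpperHalfPlane_qCoeff_heckeT
import Fermat.Prelude.Def_ModularForm_HeckeOperatorForms
import Fermat.Agent.ModPoly.J

/-!
# Hecke operators on integral level one forms of weight `12 m`
-/

set_option autoImplicit false
set_option linter.style.haveILetI false

noncomputable section

open UpperHalfPlane
open scoped MatrixGroups ModularForm Manifold
open Matrix.SpecialLinearGroup (mapGL)

namespace FLTAgent.Igusa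

/-- `E₄ ^ 3` as an integral power series. -/
def psA : PowerSeries ℤ := ModularCurve.eisenstein4 ^ 3

/-- `Δ` as an integral power series. -/
def psD : PowerSeries ℤ := PowerSeries.X * ModularCurve.dedekindEtaUnit

theorem qExpansion_discriminant :
    qExpansion 1 (ModularForm.discriminant : ℍ → ℂ) = psD.map (Int.castRingHom ℂ) := by
  have h := FLTAgent.ModPoly.expands_qExpansion (h := 1) (f := (CuspForm.discriminant : ℍ → ℂ))
    (by
      simpa using SlashInvariantFormClass.periodic_comp_ofComplex CuspForm.discriminant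
        one_mem_strictPeriods_SL)
    (ModularFormClass.holo _) (by
      haveI : Fact (IsCusp OnePoint.infty (𝒮ℒ : Subgroup (GL (Fin 2) ℝ))) :=
        ⟨Subgroup.isCusp_of_mem_strictPeriods one_pos one_mem_strictPeriods_SL⟩
      exact ModularFormClass.bdd_at_infty _)
  rw [CuspForm.coe_discriminant, Nat.cast_one] at h
  have := h.unique FLTAgent.ModPoly.expands_discriminant
  apply HahnSeries.ofPowerSeries_injective (Γ := ℤ)
  rw [this, psD, map_mul, PowerSeries.map_X, map_mul, HahnSeries.ofPowerSeries_X]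

theorem exists_form_monomial (a b : ℕ) :
    ∃ f : ModularForm 𝒮ℒ ((12 * (a + b) : ℕ) : ℤ),
      qExpansion 1 f = (psA ^ a * psD ^ b).map (Int.castRingHom ℂ) := by
  refine ⟨ModularForm.mcast (by push_cast; ring)
    ((ModularForm.E₄.pow (3 * a)).mul
      (ModularForm.pow (CuspForm.discriminant : ModularForm 𝒮ℒ 12) b)), ?_⟩
  rw [ModularForm.qExpansion_mcast, ModularForm.qExpansion_mul one_pos one_mem_strictPeriods_SL,
    ModularForm.qExpansion_pow one_pos one_mem_strictPeriods_SL,
    ModularForm.qExpansion_pow one_pos one_mem_strictPeriods_SL, map_mul, map_pow, map_pow, psA,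
    map_pow, ← pow_mul, FLTAgent.ModPoly.qExpansion_E₄]
  congr 2
  exact qExpansion_discriminant

theorem coeff_monomial_eq (a b : ℕ) :
    PowerSeries.coeff b (psA ^ a * psD ^ b) = 1 ∧
      ∀ n < b, PowerSeries.coeff n (psA ^ a * psD ^ b) = 0 := by
  have he : psA ^ a * psD ^ b
      = PowerSeries.X ^ b * (psA ^ a * ModularCurve.dedekindEtaUnit ^ b) := by
    rw [psD, mul_pow]; ring
  rw [he]
  refine ⟨?_, fun n hn => ?_⟩
  · rw [PowerSeries.coeff_X_pow_mul', if_pos le_rfl, Nat.sub_self,
      PowerSeries.coeff_zero_eq_constantCoeff, map_mul, map_pow, map_pow,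
      ModularCurve.constantCoeff_dedekindEtaUnit, psA, map_pow,
      ModularCurve.constantCoeff_eisenstein4]
    simp
  · rw [PowerSeries.coeff_X_pow_mul', if_neg (not_le.mpr hn)]

/-- An integral power series which is the expansion of a level one form of weight `12 m` is an
integral combination of the `E₄ ^ (3 (m - i)) Δ ^ i`. -/
theorem exists_eq_sum_monomial (m : ℕ) (G : PowerSeries ℤ)
    (F : ModularForm 𝒮ℒ ((12 * m : ℕ) : ℤ)) (hF : qExpansion 1 F = G.map (Int.castRingHom ℂ)) :
    ∃ c : ℕ → ℤ, G = ∑ i ∈ Finset.range (m + 1), PowerSeries.C (c i) * (psA ^ (m - i) * psD ^ i) := by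
  have hstep : ∀ n, n ≤ m + 1 → ∃ c : ℕ → ℤ, ∀ k < n, PowerSeries.coeff k
      (G - ∑ i ∈ Finset.range n, PowerSeries.C (c i) * (psA ^ (m - i) * psD ^ i)) = 0 := by
    intro n
    induction n with
    | zero => exact fun _ => ⟨0, fun k hk => absurd hk (Nat.not_lt_zero k)⟩
    | succ n ih =>
      intro hn
      obtain ⟨c, hc⟩ := ih (by omega)
      set D := G - ∑ i ∈ Finset.range n, PowerSeries.C (c i) * (psA ^ (m - i) * psD ^ i)
      refine ⟨Function.update c n (PowerSeries.coeff n D), fun k hk => ?_⟩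
      have hs : ∑ i ∈ Finset.range n, PowerSeries.C (Function.update c n (PowerSeries.coeff n D) i)
            * (psA ^ (m - i) * psD ^ i)
          = ∑ i ∈ Finset.range n, PowerSeries.C (c i) * (psA ^ (m - i) * psD ^ i) :=
        Finset.sum_congr rfl fun i hi => by
          rw [Function.update_of_ne (Finset.mem_range.mp hi).ne]
      rw [Finset.sum_range_succ, hs, Function.update_self, ← sub_sub, map_sub,
        PowerSeries.coeff_C_mul]
      rcases Nat.lt_succ_iff_lt_or_eq.mp hk with hk | rfl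
      · rw [hc k hk, (coeff_monomial_eq (m - n) n).2 k hk, mul_zero, sub_zero]
      · rw [(coeff_monomial_eq (m - k) k).1, mul_one, sub_self]
  obtain ⟨c, hc⟩ := hstep (m + 1) le_rfl
  refine ⟨c, ?_⟩
  set D := G - ∑ i ∈ Finset.range (m + 1), PowerSeries.C (c i) * (psA ^ (m - i) * psD ^ i) with hD
  have hforms : ∀ i ∈ Finset.range (m + 1), ∃ f : ModularForm 𝒮ℒ ((12 * m : ℕ) : ℤ),
      qExpansion 1 f = (psA ^ (m - i) * psD ^ i).map (Int.castRingHom ℂ) := by
    intro i hi
    obtain ⟨f, hf⟩ := exists_form_monomial (m - i) i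
    have him : m - i + i = m := Nat.sub_add_cancel (Nat.lt_succ_iff.mp (Finset.mem_range.mp hi))
    refine ⟨ModularForm.mcast (by rw [him]) f, ?_⟩
    rw [ModularForm.qExpansion_mcast, hf]
  choose f hf using hforms
  have key : ∀ s : Finset ℕ, ∀ hs : s ⊆ Finset.range (m + 1),
      ∃ g : ModularForm 𝒮ℒ ((12 * m : ℕ) : ℤ), qExpansion 1 g =
        (G - ∑ i ∈ s, PowerSeries.C (c i) * (psA ^ (m - i) * psD ^ i)).map (Int.castRingHom ℂ) := by
    intro s
    induction s using Finset.induction_on with
    | empty => exact fun _ => ⟨F, by simpa using hF⟩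
    | insert a s ha ih =>
      intro hs
      obtain ⟨g, hg⟩ := ih ((Finset.subset_insert a s).trans hs)
      refine ⟨g - (c a : ℂ) • f a (hs (Finset.mem_insert_self a s)), ?_⟩
      rw [FunLike.coe_sub, ModularForm.qExpansion_sub one_pos one_mem_strictPeriods_SL,
        FunLike.coe_smul, ModularForm.qExpansion_smul one_pos one_mem_strictPeriods_SL, hg, hf,
        Finset.sum_insert ha, PowerSeries.smul_eq_C_mul]
      rw [map_sub, map_sub, map_add,
        map_mul (PowerSeries.map (Int.castRingHom ℂ)) (PowerSeries.C (c a)), PowerSeries.map_C,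
        eq_intCast (Int.castRingHom ℂ) (c a)]
      ring
  obtain ⟨g, hg⟩ := key (Finset.range (m + 1)) Finset.Subset.rfl
  rw [← hD] at hg
  have hg0 : g = 0 := by
    refine ModularForm.levelOne_eq_zero_of_lt_order_qExpansion 1 one_pos g ?_
    rw [Nat.cast_one, hg, one_mul, Int.toNat_natCast, Nat.mul_div_cancel_left m (by norm_num)]
    refine lt_of_lt_of_le (b := ((m + 1 : ℕ) : ℕ∞)) (by exact_mod_cast Nat.lt_succ_self m) ?_
    exact PowerSeries.nat_le_order _ _ fun k hk => by rw [PowerSeries.coeff_map, hc k hk, map_zero]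
  have hD0 : D.map (Int.castRingHom ℂ) = 0 := by
    rw [← hg, hg0]; exact (ModularForm.qExpansion_eq_zero_iff one_pos one_mem_strictPeriods_SL _).mpr rfl
  refine sub_eq_zero.mp ?_
  apply PowerSeries.map_injective (Int.castRingHom ℂ) Int.cast_injective
  rw [← hD, hD0, map_zero]

theorem mem_SL_iff_Gamma0_one :
    ((CongruenceSubgroup.Gamma0 1 : Subgroup SL(2, ℤ)) : Subgroup (GL (Fin 2) ℝ)) = 𝒮ℒ := by
  have : CongruenceSubgroup.Gamma0 1 = ⊤ := by
    ext g
    simp [CongruenceSubgroup.Gamma0_mem, eq_iff_true_of_subsingleton]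
  rw [this, MonoidHom.range_eq_map]

/-- `p` times the Hecke operator on integral series. -/
def heckePS (p m : ℕ) (G : PowerSeries ℤ) : PowerSeries ℤ :=
  PowerSeries.mk fun n => (p : ℤ) * PowerSeries.coeff (n * p) G +
    if p ∣ n then (p : ℤ) ^ (12 * m) * PowerSeries.coeff (n / p) G else 0

/-- `p T_p` preserves the integral span of the monomials of weight `12 m`. -/
theorem exists_heckePS_eq_sum {p : ℕ} (hp : p.Prime) (a b : ℕ) :
    ∃ c : ℕ → ℤ, heckePS p (a + b) (psA ^ a * psD ^ b) =
      ∑ i ∈ Finset.range (a + b + 1), PowerSeries.C (c i) * (psA ^ (a + b - i) * psD ^ i) := by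
  obtain ⟨f, hf⟩ := exists_form_monomial a b
  let k : ℤ := ((12 * (a + b) : ℕ) : ℤ)
  have hp1 : ¬ p ∣ 1 := fun h => hp.ne_one (Nat.dvd_one.mp h)
  let F : ModularForm 𝒮ℒ k :=
    { toFun := ModularForm.heckeT k p ⇑f
      slash_action_eq' := fun γ hγ =>
        ModularForm.heckeT_slash_eq_self_of_mem_Gamma0 (N := 1) k hp hp1
          (fun γ' hγ' => SlashInvariantFormClass.slash_action_eq f γ'
            (by rwa [mem_SL_iff_Gamma0_one] at hγ')) γ (by rwa [mem_SL_iff_Gamma0_one])
      holo' := ModularForm.mdifferentiable_heckeT (ModularFormClass.holo f) k p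
      bdd_at_cusps' := fun hc => ModularFormClass.isBoundedAt_heckeT f p hc }
  have hper : Function.Periodic (⇑f ∘ ofComplex) 1 := by
    simpa using SlashInvariantFormClass.periodic_comp_ofComplex f one_mem_strictPeriods_SL
  haveI : Fact (IsCusp OnePoint.infty (𝒮ℒ : Subgroup (GL (Fin 2) ℝ))) :=
    ⟨Subgroup.isCusp_of_mem_strictPeriods one_pos one_mem_strictPeriods_SL⟩
  refine exists_eq_sum_monomial (a + b) _ ((p : ℂ) • F) ?_
  rw [FunLike.coe_smul, ModularForm.qExpansion_smul one_pos one_mem_strictPeriods_SL]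
  ext n
  have hn : (qExpansion 1 (F : ℍ → ℂ)).coeff n =
      ModularForm.coeffHeckeT k p (ModularFormClass.qCoeff ⇑f) n :=
    UpperHalfPlane.qCoeff_heckeT hper (ModularFormClass.holo f) (ModularFormClass.bdd_at_infty f)
      k hp.ne_zero n
  have hc : ∀ i, ModularFormClass.qCoeff (⇑f) i
      = ((PowerSeries.coeff i (psA ^ a * psD ^ b) : ℤ) : ℂ) := by
    intro i
    rw [ModularFormClass.qCoeff, hf, PowerSeries.coeff_map]
    rfl
  have hp0 : (p : ℂ) ≠ 0 := by exact_mod_cast hp.ne_zero
  rw [PowerSeries.coeff_smul, hn, ModularForm.coeffHeckeT_apply, PowerSeries.coeff_map, heckePS,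
    PowerSeries.coeff_mk, hc, hc, smul_eq_mul, mul_add, map_add, eq_intCast, eq_intCast]
  push_cast
  congr 1
  split_ifs with h
  · rw [← mul_assoc, ← zpow_one_add₀ hp0, add_sub_cancel, zpow_natCast]
  · simp

end FLTAgent.Igusa
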