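import Fermat.Agent.Igusa.PrimeIrreducible
import Mathlib.FieldTheory.IsAlgClosed.AlgebraicClosure
import Mathlib.RingTheory.Polynomial.Cyclotomic.Roots

/-!
# The conjugates of `j (q ^ d)` inside the algebraic closure of `k((t))`, `t ^ N = q`
-/

set_option autoImplicit false
set_option linter.style.haveILetI false
set_option linter.unusedSectionVars false

noncomputable section

open HahnSeries ModularCurve Polynomial Finset IntermediateField
open FLTAgent.ModPoly (twist twist_coeff twist_twist twist_one_unit)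

namespace FLTAgent.Igusa

section Roots

variable {k : Type} [Field k] (φ : AlgInt →+* k)

theorem isPrimitiveRoot_zetaIn {p : ℕ} [NeZero p] (hpk : (p : k) ≠ 0) :
    IsPrimitiveRoot (zetaIn p φ) p := by
  haveI : NeZero (p : k) := ⟨hpk⟩
  have hA : IsPrimitiveRoot ((zetaInt p : AlgIntˣ) : AlgInt) p :=
    IsPrimitiveRoot.of_map_of_injective (f := algebraMap AlgInt ℂ)
      (IsPrimitiveRoot.coe_units_iff.mpr (isPrimitiveRoot_zetaInt_complex p))
      Subtype.val_injective
  rw [← IsPrimitiveRoot.coe_units_iff, ← isRoot_cyclotomic_iff, zetaIn, Units.coe_map]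
  haveI : NeZero (p : AlgInt) := ⟨Nat.cast_ne_zero.mpr (NeZero.ne p)⟩
  have h := congr_arg φ (isRoot_cyclotomic_iff.mpr hA)
  rw [map_zero, ← eval_map_apply, map_cyclotomic] at h
  exact h

theorem rootJ_injective {p : ℕ} [Fact p.Prime] (hpk : (p : k) ≠ 0) :
    Function.Injective (rootJ k p (zetaIn p φ)) := by
  have hp : p.Prime := Fact.out
  have hlt : 1 < p * p := Nat.one_lt_iff_ne_zero_and_ne_one.mpr
    ⟨(Nat.mul_pos hp.pos hp.pos).ne', fun h => hp.ne_one (Nat.eq_one_of_mul_eq_one_left h)⟩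
  rintro (_ | i) (_ | j) h
  · rfl
  · exact absurd (J_inj (R := k) (a := p * p) (b := 1) h).1 hlt.ne'
  · exact absurd (J_inj (R := k) (a := 1) (b := p * p) h).1 hlt.ne
  · exact congr_arg some (Fin.ext ((isPrimitiveRoot_zetaIn φ hpk).pow_inj i.2 j.2
      (J_inj (R := k) (a := 1) (b := 1) h).2))

end Roots

variable (k : Type) [Field k]

/-- The ambient algebraically closed field. -/
abbrev Amb : Type := AlgebraicClosure (LaurentSeries k)

variable {k}

/-- `j (c t ^ a)` in the ambient field. -/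
def Xj (a : ℕ) (c : kˣ) : Amb k := algebraMap (LaurentSeries k) (Amb k) (J k a c)

theorem Xj_inj {a b : ℕ} (ha : a ≠ 0) (hb : b ≠ 0) {c d : kˣ} (h : Xj a c = Xj b d) :
    a = b ∧ c = d := by
  haveI : NeZero a := ⟨ha⟩
  haveI : NeZero b := ⟨hb⟩
  exact J_inj ((algebraMap (LaurentSeries k) (Amb k)).injective h)

variable (k) in
/-- The base field `k (j)`, `j = j (t ^ N)`. -/
def baseField (N : ℕ) : IntermediateField k (Amb k) := adjoin k {Xj N 1}

theorem Xj_N_mem (N : ℕ) : Xj N 1 ∈ baseField k N := mem_adjoin_simple_self k _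

/-- The twist `t ↦ c t` as an automorphism of `k((t))`. -/
def twistEquiv (c : kˣ) : LaurentSeries k ≃+* LaurentSeries k :=
  RingEquiv.ofRingHom (twist c) (twist c⁻¹)
    (RingHom.ext fun x => by simp [twist_twist, twist_one_unit])
    (RingHom.ext fun x => by simp [twist_twist, twist_one_unit])

/-- An extension of the twist to the ambient field. -/
def ambTwistRing (c : kˣ) : Amb k ≃+* Amb k :=
  IsAlgClosure.equivOfEquiv (Amb k) (Amb k) (twistEquiv c)

theorem ambTwistRing_algebraMap (c : kˣ) (x : LaurentSeries k) :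
    ambTwistRing c (algebraMap (LaurentSeries k) (Amb k) x)
      = algebraMap (LaurentSeries k) (Amb k) (twist c x) :=
  IsAlgClosure.equivOfEquiv_algebraMap (Amb k) (Amb k) (twistEquiv c) x

theorem ambTwistRing_Xj (c : kˣ) (a : ℕ) (e : kˣ) :
    ambTwistRing c (Xj a e) = Xj a (e * c ^ a) := by
  rw [Xj, ambTwistRing_algebraMap, twist_J, Xj]

theorem ambTwistRing_fix_base {N : ℕ} (c : kˣ) (hc : c ^ N = 1) (x : Amb k)
    (hx : x ∈ baseField k N) : ambTwistRing c x = x := by
  have hk : ∀ r : k, ambTwistRing c (algebraMap k (Amb k) r) = algebraMap k (Amb k) r := fun r => by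
    rw [IsScalarTower.algebraMap_apply k (LaurentSeries k) (Amb k), ambTwistRing_algebraMap,
      algebraMap_laurentSeries_eq_single, ← HahnSeries.C_apply, twist_C']
  induction hx using adjoin_induction with
  | mem y hy => rw [Set.mem_singleton_iff.mp hy, ambTwistRing_Xj, hc, mul_one]
  | algebraMap r => exact hk r
  | add y z _ _ hy hz => rw [map_add, hy, hz]
  | inv y _ hy => rw [map_inv₀, hy]
  | mul y z _ _ hy hz => rw [map_mul, hy, hz]

/-- The twist by an `N`-th root of unity, over `k (j)`. -/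
def ambTwist {N : ℕ} (c : kˣ) (hc : c ^ N = 1) : Amb k →ₐ[baseField k N] Amb k :=
  { (ambTwistRing c).toRingHom with
    commutes' := fun x => ambTwistRing_fix_base c hc _ x.2 }

theorem ambTwist_Xj {N : ℕ} (c : kˣ) (hc : c ^ N = 1) (a : ℕ) (e : kˣ) :
    ambTwist c hc (Xj a e) = Xj a (e * c ^ a) :=
  ambTwistRing_Xj c a e

section Equation

variable (p : ℕ) [Fact p.Prime]

/-- The modular equation of prime level. -/
def modEq : Polynomial (Polynomial ℤ) :=
  (exists_modularEquations p Fact.out).choose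

theorem modEq_spec : (modEq p).Monic ∧ (modEq p).natDegree = p + 1 ∧
    ∀ (R : Type) [CommRing R] (φ : AlgInt →+* R),
      (modEq p).map (evZ p R) = ∏ o, (X - Polynomial.C (rootJ R p (zetaIn p φ) o)) := by
  obtain ⟨G, U, h1, -, h3, h4⟩ := (exists_modularEquations p Fact.out).choose_spec
  exact ⟨h1, h3, fun R _ φ => (h4 R φ).1⟩

/-- The modular equation at `y`. -/
def modEqAt {F : Type*} [CommRing F] (y : F) : F[X] :=
  (modEq p).map (eval₂RingHom (Int.castRingHom F) y)

theorem map_modEqAt {F F' : Type*} [CommRing F] [CommRing F'] (f : F →+* F') (y : F) :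
    (modEqAt p y).map f = modEqAt p (f y) := by
  rw [modEqAt, modEqAt, Polynomial.map_map]
  congr 1
  exact Polynomial.ringHom_ext' (RingHom.ext_int _ _) (by simp)

theorem modEqAt_monic {F : Type*} [CommRing F] (y : F) : (modEqAt p y).Monic :=
  (modEq_spec p).1.map _

theorem natDegree_modEqAt {F : Type*} [CommRing F] [Nontrivial F] (y : F) :
    (modEqAt p y).natDegree = p + 1 := by
  rw [modEqAt, (modEq_spec p).1.natDegree_map, (modEq_spec p).2.1]

variable (φ : AlgInt →+* k)

theorem modEqAt_prod (d : ℕ) (hd : d ≠ 0) (c : kˣ) :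
    modEqAt p (Xj (p * d) (c ^ p)) =
      ∏ o : Option (Fin p), (X - Polynomial.C (o.elim (Xj (p * p * d) (c ^ (p * p)))
        fun i => Xj d (zetaIn p φ ^ (i : ℕ) * c))) := by
  haveI : NeZero d := ⟨hd⟩
  set g : LaurentSeries k →+* Amb k :=
    (algebraMap (LaurentSeries k) (Amb k)).comp ((qExpand k d).comp (twist c))
  have hg : ∀ a e, g (J k a e) = Xj (d * a) (e * c ^ a) := fun a e => by
    show algebraMap _ _ (qExpand k d (twist c (J k a e))) = _
    rw [qExpand_twist_J, Xj]
  have hy : g (qExpand k p (jqModC k)) = Xj (p * d) (c ^ p) := by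
    rw [← J_one_unit, hg, one_mul, mul_comm d p]
  have h := congr_arg (Polynomial.map g) ((modEq_spec p).2.2 k φ)
  rw [evZ, show (modEq p).map (eval₂RingHom (Int.castRingHom (LaurentSeries k)) (qExpand k p (jqModC k)))
      = modEqAt p (qExpand k p (jqModC k)) from rfl, map_modEqAt, hy] at h
  rw [h, Polynomial.map_prod]
  refine Finset.prod_congr rfl fun o _ => ?_
  rw [Polynomial.map_sub, Polynomial.map_X, Polynomial.map_C]
  rcases o with _ | i
  · simp [rootJ, hg, mul_comm d (p * p)]
  · simp [rootJ, hg]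

theorem eval_modEqAt_eq_zero_iff (d : ℕ) (hd : d ≠ 0) (c : kˣ) (z : Amb k) :
    (modEqAt p (Xj (p * d) (c ^ p))).eval z = 0 ↔
      z = Xj (p * p * d) (c ^ (p * p)) ∨ ∃ i : Fin p, z = Xj d (zetaIn p φ ^ (i : ℕ) * c) := by
  rw [modEqAt_prod p φ d hd c, eval_prod, Finset.prod_eq_zero_iff]
  simp [Option.exists, sub_eq_zero]

include φ in
theorem separable_modEqAt (hpk : (p : k) ≠ 0) (d : ℕ) (hd : d ≠ 0) (c : kˣ) :
    (modEqAt p (Xj (p * d) (c ^ p))).Separable := by
  rw [modEqAt_prod p φ d hd c, separable_prod_X_sub_C_iff]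
  have hp : p.Prime := Fact.out
  have hlt : d ≠ p * p * d := by
    have h4 : 2 * 2 * d ≤ p * p * d := Nat.mul_le_mul_right _ (Nat.mul_le_mul hp.two_le hp.two_le)
    omega
  have hppd : p * p * d ≠ 0 := Nat.mul_ne_zero (Nat.mul_ne_zero hp.ne_zero hp.ne_zero) hd
  rintro (_ | i) (_ | j) h
  · rfl
  · exact absurd (Xj_inj hppd hd h).1 hlt.symm
  · exact absurd (Xj_inj hd hppd h).1 hlt
  · exact congr_arg some (Fin.ext ((isPrimitiveRoot_zetaIn φ hpk).pow_inj i.2 j.2
      (mul_right_cancel (Xj_inj hd hd h).2)))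

end Equation

end FLTAgent.Igusa
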