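import Fermat.Agent.Igusa.Criterion
import Mathlib.RingTheory.TensorProduct.Maps
import Mathlib.Algebra.Algebra.ZMod

/-!
# Base change of the charts to a field of characteristic `ℓ`
-/

set_option autoImplicit false
set_option linter.style.haveILetI false
set_option linter.unusedSectionVars false

noncomputable section

open scoped TensorProduct
open ModularCurve ModularCurve.IgusaScheme

namespace FLTAgent.Igusa

variable (N : ℕ) [NeZero N] (ℓ : ℕ) [Fact ℓ.Prime]

/-- `S` is a chart in the Gauss ring, whose reduction has kernel `(ℓ)`. -/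
def GoodChart (S : Set ↥(modularFunctionFieldFull N)) : Prop :=
  ∃ hmem : ∀ x ∈ chartAlg N ℓ S, (x : LaurentSeries ℚ) ∈ gaussRing ℓ,
    ∀ (x : ↥(modularFunctionFieldFull N)) (hx : x ∈ chartAlg N ℓ S),
      red ℓ ⟨_, hmem x hx⟩ = 0 →
        ∃ y ∈ chartAlg N ℓ S, x = (ℓ : ↥(modularFunctionFieldFull N)) * y

theorem goodChart_fin (hℓN : ¬ ℓ ∣ N) : GoodChart N ℓ {jFull N} :=
  ⟨fun _ hx => coe_mem_gaussRing_of_chart N ℓ (fun s hs => by
      rw [Set.mem_singleton_iff.mp hs, coe_jFull]; exact jq_mem_gaussRing ℓ) hx,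
    fun _ hx h0 => red_chartFin_eq_zero N ℓ hℓN hx _ h0⟩

theorem goodChart_inf (hℓN : ¬ ℓ ∣ N) : GoodChart N ℓ {(jFull N)⁻¹} :=
  ⟨fun _ hx => coe_mem_gaussRing_of_chart N ℓ (fun s hs => by
      rw [Set.mem_singleton_iff.mp hs]
      simpa using (jq_inv_mem_gaussRing ℓ).1) hx,
    fun _ hx h0 => red_chartInf_eq_zero N ℓ hℓN hx _ h0⟩

theorem goodChart_mid (hℓN : ¬ ℓ ∣ N) : GoodChart N ℓ {jFull N, (jFull N)⁻¹} := by
  have hS : ∀ s ∈ ({jFull N, (jFull N)⁻¹} : Set ↥(modularFunctionFieldFull N)),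
      (s : LaurentSeries ℚ) ∈ gaussRing ℓ := by
    intro s hs
    rcases hs with rfl | hs
    · rw [coe_jFull]; exact jq_mem_gaussRing ℓ
    · rw [Set.mem_singleton_iff.mp hs]; simpa using (jq_inv_mem_gaussRing ℓ).1
  refine ⟨fun _ hx => coe_mem_gaussRing_of_chart N ℓ hS hx, fun x hx h0 => ?_⟩
  have hx' : x ∈ chartAlg N ℓ (insert (jFull N)⁻¹ {jFull N}) := by
    rwa [show insert (jFull N)⁻¹ ({jFull N} : Set ↥(modularFunctionFieldFull N))
      = {jFull N, (jFull N)⁻¹} from Set.pair_comm _ _]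
  obtain ⟨n, hn⟩ := exists_pow_mul_mem_chartAlg (Set.mem_singleton _) (jFull_ne_zero N) hx'
  obtain ⟨hmem, hker⟩ := goodChart_fin N ℓ hℓN
  have hxg := coe_mem_gaussRing_of_chart N ℓ hS hx
  obtain ⟨y, hy, hxy⟩ := hker _ hn (by
    rw [show (⟨_, hmem _ hn⟩ : gaussRing ℓ) = jGauss ℓ ^ n * ⟨_, hxg⟩ from
      Subtype.ext (by simp [jGauss]), map_mul, h0, mul_zero])
  refine ⟨(jFull N)⁻¹ ^ n * y, mul_mem (pow_mem (subset_chartAlg N ℓ _ (by simp)) n)
    (chartAlg_mono N ℓ (sFin_subset N) hy), ?_⟩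
  rw [mul_left_comm, ← hxy, ← mul_assoc, ← mul_pow, inv_mul_cancel₀ (jFull_ne_zero N), one_pow, one_mul]

variable (K : Type) [Field K] [CharP K ℓ] [Algebra ↥(GaloisRep.ratLocalizedAt ℓ) K]

theorem algebraMap_eq_resHom (a : ↥(GaloisRep.ratLocalizedAt ℓ)) :
    algebraMap ↥(GaloisRep.ratLocalizedAt ℓ) K a = ZMod.castHom dvd_rfl K (resHom ℓ a) := by
  have hden : ((a : ℚ).den : K) ≠ 0 := by
    rw [Ne, CharP.cast_eq_zero_iff K ℓ]
    exact not_dvd_den ℓ a
  have h1 := congr_arg (algebraMap ↥(GaloisRep.ratLocalizedAt ℓ) K)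
    (show a * ((a : ℚ).den : ↥(GaloisRep.ratLocalizedAt ℓ)) = ((a : ℚ).num : ↥(GaloisRep.ratLocalizedAt ℓ)) from
      Subtype.ext (by rw [Subring.coe_mul]; simp [Rat.mul_den_eq_num]))
  have h2 := congr_arg (ZMod.castHom dvd_rfl K) (resHom_mul_den ℓ a)
  rw [map_mul, map_natCast, map_intCast] at h1 h2
  exact mul_right_cancel₀ hden (h1.trans h2.symm)

/-- The reduction of a chart, with coefficients in `K`. -/
def chartRed (S : Set ↥(modularFunctionFieldFull N))
    (hmem : ∀ x ∈ chartAlg N ℓ S, (x : LaurentSeries ℚ) ∈ gaussRing ℓ) :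
    chartAlg N ℓ S →+* LaurentSeries K :=
  (coeffMap (ZMod.castHom dvd_rfl K)).comp ((red ℓ).comp
    { toFun := fun x => ⟨((x : ↥(modularFunctionFieldFull N)) : LaurentSeries ℚ), hmem x x.2⟩
      map_one' := rfl
      map_mul' := fun _ _ => rfl
      map_zero' := rfl
      map_add' := fun _ _ => rfl })

theorem chartRed_algebraMap (S : Set ↥(modularFunctionFieldFull N))
    (hmem : ∀ x ∈ chartAlg N ℓ S, (x : LaurentSeries ℚ) ∈ gaussRing ℓ)
    (a : ↥(GaloisRep.ratLocalizedAt ℓ)) :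
    chartRed N ℓ K S hmem (algebraMap ↥(GaloisRep.ratLocalizedAt ℓ) (chartAlg N ℓ S) a) =
      HahnSeries.C (algebraMap ↥(GaloisRep.ratLocalizedAt ℓ) K a) := by
  show coeffMap (ZMod.castHom dvd_rfl K) (red ℓ ⟨_, _⟩) = _
  have : (⟨lift ℓ (HahnSeries.C a), lift_mem ℓ _⟩ : gaussRing ℓ) =
      ⟨_, hmem _ (algebraMap ↥(GaloisRep.ratLocalizedAt ℓ) (chartAlg N ℓ S) a).2⟩ :=
    Subtype.ext (localConst_mem N ℓ a).symm
  rw [← this, red_lift, reduce, HahnSeries.C_apply, coeffMap_single, coeffMap_single,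
    algebraMap_eq_resHom ℓ K a, HahnSeries.C_apply]

theorem isDomain_chart_tensor {S : Set ↥(modularFunctionFieldFull N)} (hS : GoodChart N ℓ S) :
    IsDomain (↥(chartAlg N ℓ S) ⊗[↥(GaloisRep.ratLocalizedAt ℓ)] K) := by
  classical
  obtain ⟨hmem, hker⟩ := hS
  have hC : ∀ a : ↥(GaloisRep.ratLocalizedAt ℓ),
      algebraMap ↥(GaloisRep.ratLocalizedAt ℓ) (LaurentSeries K) a =
        HahnSeries.C (algebraMap ↥(GaloisRep.ratLocalizedAt ℓ) K a) := fun a => by
    rw [HahnSeries.algebraMap_apply', PowerSeries.algebraMap_apply, HahnSeries.ofPowerSeries_C]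
  let f : ↥(chartAlg N ℓ S) →ₐ[↥(GaloisRep.ratLocalizedAt ℓ)] LaurentSeries K :=
    { chartRed N ℓ K S hmem with
      commutes' := fun a => (chartRed_algebraMap N ℓ K S hmem a).trans (hC a).symm }
  let g : K →ₐ[↥(GaloisRep.ratLocalizedAt ℓ)] LaurentSeries K :=
    { (HahnSeries.C : K →+* LaurentSeries K) with commutes' := fun a => (hC a).symm }
  haveI : @IsScalarTower ↥(GaloisRep.ratLocalizedAt ℓ) ↥(GaloisRep.ratLocalizedAt ℓ) (LaurentSeries K)
      (Algebra.id ↥(GaloisRep.ratLocalizedAt ℓ)).toSMul Algebra.toSMul Algebra.toSMul :=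
    IsScalarTower.of_algebraMap_eq fun _ => rfl
  let Ψ := Algebra.TensorProduct.lift f g fun _ _ => mul_comm _ _
  letI : Algebra (ZMod ℓ) K := ZMod.algebra K ℓ
  let E := Module.Free.chooseBasis (ZMod ℓ) K
  have hdecomp : ∀ z : ↥(chartAlg N ℓ S) ⊗[↥(GaloisRep.ratLocalizedAt ℓ)] K,
      ∃ b : _ →₀ ↥(chartAlg N ℓ S), z = b.sum fun i x => x ⊗ₜ[↥(GaloisRep.ratLocalizedAt ℓ)] E i := by
    intro z
    induction z using TensorProduct.induction_on with
    | zero => exact ⟨0, by simp⟩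
    | tmul x u =>
      refine ⟨(E.repr u).mapRange (fun c : ZMod ℓ => (c.val : ↥(chartAlg N ℓ S)) * x) (by simp), ?_⟩
      rw [Finsupp.sum_mapRange_index
        (h := fun i (x : ↥(chartAlg N ℓ S)) => x ⊗ₜ[↥(GaloisRep.ratLocalizedAt ℓ)] E i)
        (fun i => TensorProduct.zero_tmul _ (E i))]
      conv_lhs => rw [← E.linearCombination_repr u, Finsupp.linearCombination_apply, Finsupp.sum,
        TensorProduct.tmul_sum]
      refine Finset.sum_congr rfl fun i _ => ?_
      rw [show ((E.repr u i) • E i) = ((E.repr u i).val : K) * E i by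
        rw [Algebra.smul_def]
        congr 1
        conv_lhs => rw [← ZMod.natCast_zmod_val (E.repr u i)]
        rw [map_natCast], ← nsmul_eq_mul]
      dsimp only
      rw [← nsmul_eq_mul, TensorProduct.tmul_smul,
        TensorProduct.smul_tmul']
    | add z w hz hw =>
      obtain ⟨b, hb⟩ := hz
      obtain ⟨c, hc⟩ := hw
      refine ⟨b + c, ?_⟩
      rw [Finsupp.sum_add_index'
        (h := fun i (x : ↥(chartAlg N ℓ S)) => x ⊗ₜ[↥(GaloisRep.ratLocalizedAt ℓ)] E i)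
        (fun i => TensorProduct.zero_tmul _ (E i))
        (fun i a a' => TensorProduct.add_tmul a a' (E i)), hb, hc]
  have hinj : Function.Injective Ψ := by
    rw [injective_iff_map_eq_zero]
    intro z hz
    obtain ⟨b, rfl⟩ := hdecomp z
    refine Finset.sum_eq_zero fun i hi => ?_
    set r : ↥(chartAlg N ℓ S) → LaurentSeries (ZMod ℓ) := fun x => red ℓ ⟨_, hmem x x.2⟩
    have hsum : ∀ k : ℤ, ∑ j ∈ b.support, ((r (b j)).coeff k) • E j = 0 := by
      intro k
      have h := congr_arg (fun s : LaurentSeries K => s.coeff k) hz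
      simp only [Finsupp.sum, map_sum, Ψ, Algebra.TensorProduct.lift_tmul] at h
      rw [HahnSeries.coeff_sum] at h
      refine Eq.trans (Finset.sum_congr rfl fun j _ => ?_) (h.trans rfl)
      show _ = (coeffMap (ZMod.castHom dvd_rfl K) (r (b j)) * HahnSeries.C (E j)).coeff k
      rw [mul_comm, HahnSeries.C_mul_eq_smul, HahnSeries.coeff_smul, smul_eq_mul, coeffMap_coeff,
        Algebra.smul_def, mul_comm]
      rfl
    have hr : r (b i) = 0 := HahnSeries.ext (funext fun k =>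
      linearIndependent_iff'.mp E.linearIndependent b.support _ (hsum k) i hi)
    obtain ⟨y, hy, hby⟩ := hker _ (b i).2 hr
    have hb : b i = ℓ • (⟨y, hy⟩ : ↥(chartAlg N ℓ S)) := Subtype.ext (by
      rw [hby, nsmul_eq_mul]; rfl)
    rw [hb]
    dsimp only
    rw [TensorProduct.smul_tmul, nsmul_eq_mul, CharP.cast_eq_zero, zero_mul,
      TensorProduct.tmul_zero]
  exact Function.Injective.isDomain Ψ.toRingHom hinj

end FLTAgent.Igusa
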