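import Mathlib.AlgebraicGeometry.Properties
import Fermat.Agent.Igusa.BaseChange

/-!
# Integrality of the base change of the Igusa scheme
-/

set_option autoImplicit false
set_option linter.style.haveILetI false
set_option linter.unusedSectionVars false

noncomputable section

open AlgebraicGeometry CategoryTheory CategoryTheory.Limits ModularCurve ModularCurve.IgusaScheme
open scoped TensorProduct

namespace FLTAgent.Igusa

/-- A space covered by irreducible open sets which all contain a common nonempty open set is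
irreducible. -/
theorem irreducibleSpace_of_open_cover {X : Type*} [TopologicalSpace X] {ι : Type*} (U : ι → Set X)
    (hopen : ∀ i, IsOpen (U i)) (hirr : ∀ i, IsIrreducible (U i)) (hcover : ∀ x, ∃ i, x ∈ U i)
    (i₀ : ι) (hsub : ∀ i, U i₀ ⊆ U i) : IrreducibleSpace X := by
  obtain ⟨x₀, hx₀⟩ := (hirr i₀).nonempty
  haveI : Nonempty X := ⟨x₀⟩
  refine { toNonempty := ⟨x₀⟩, isPreirreducible_univ := ?_ }
  rintro A B hA hB ⟨a, -, ha⟩ ⟨b, -, hb⟩
  have meet : ∀ (C : Set X), IsOpen C → ∀ c ∈ C, (U i₀ ∩ C).Nonempty := by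
    intro C hC c hc
    obtain ⟨i, hi⟩ := hcover c
    obtain ⟨z, -, hz1, hz2⟩ := (hirr i).2 (U i₀) C (hopen i₀) hC
      ⟨x₀, hsub i hx₀, hx₀⟩ ⟨c, hi, hc⟩
    exact ⟨z, hz1, hz2⟩
  obtain ⟨z, -, hz⟩ := (hirr i₀).2 A B hA hB (meet A hA a ha) (meet B hB b hb)
  exact ⟨z, trivial, hz⟩

variable (N : ℕ) [NeZero N] (ℓ : ℕ) [Fact ℓ.Prime] (K : Type) [Field K] [CharP K ℓ]
  [Algebra ↥(GaloisRep.ratLocalizedAt ℓ) K]

theorem isIntegral_chart_pullback {S : Set ↥(modularFunctionFieldFull N)} (hS : GoodChart N ℓ S) :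
    IsIntegral ↑(pullback (Spec.map (CommRingCat.ofHom
        (algebraMap ↥(GaloisRep.ratLocalizedAt ℓ) ↥(chartAlg N ℓ S))))
      (Spec.map (CommRingCat.ofHom (algebraMap ↥(GaloisRep.ratLocalizedAt ℓ) K)))) := by
  haveI := isDomain_chart_tensor N ℓ K hS
  haveI : IsDomain (CommRingCat.of (↥(chartAlg N ℓ S) ⊗[↥(GaloisRep.ratLocalizedAt ℓ)] K)) := this
  exact IsIntegral.of_isIso (pullbackSpecIso ↥(GaloisRep.ratLocalizedAt ℓ) ↥(chartAlg N ℓ S) K).inv

theorem isIntegral_pullback_igusaTo (hℓN : ¬ ℓ ∣ N) :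
    IsIntegral ↑(pullback (igusaTo N ℓ)
      (Spec.map (CommRingCat.ofHom (algebraMap ↥(GaloisRep.ratLocalizedAt ℓ) K)))) := by
  set g := Spec.map (CommRingCat.ofHom (algebraMap ↥(GaloisRep.ratLocalizedAt ℓ) K))
  let 𝒰 : (ModularCurve.IgusaScheme N ℓ).OpenCover :=
    Scheme.IsLocallyDirected.openCover (span (fFin N ℓ) (fInf N ℓ))
  let 𝒱 := Scheme.Pullback.openCoverOfLeft 𝒰 (igusaTo N ℓ) g
  have hnone : 𝒰.f none = fFin N ℓ ≫ ιFin N ℓ :=
    (colimit.w (span (fFin N ℓ) (fInf N ℓ)) WalkingSpan.Hom.fst).symm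
  have hnone' : 𝒰.f none = fInf N ℓ ≫ ιInf N ℓ := hnone.trans (glue_condition N ℓ)
  have hmid : fFin N ℓ ≫ Spec.map (CommRingCat.ofHom
      (algebraMap ↥(GaloisRep.ratLocalizedAt ℓ) ↥(chartAlgFin N ℓ))) = Spec.map (CommRingCat.ofHom
      (algebraMap ↥(GaloisRep.ratLocalizedAt ℓ) ↥(chartAlgMid N ℓ))) := by
    rw [← Spec.map_comp, ← CommRingCat.ofHom_comp]
    congr 2
  have hint : ∀ i, IsIntegral (𝒱.X i) := by
    rintro (_ | _ | _)
    · have e : 𝒰.f none ≫ igusaTo N ℓ = Spec.map (CommRingCat.ofHom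
          (algebraMap ↥(GaloisRep.ratLocalizedAt ℓ) ↥(chartAlgMid N ℓ))) :=
        ((congrArg (· ≫ igusaTo N ℓ) hnone).trans ((Category.assoc _ _ _).trans
          (congrArg (fFin N ℓ ≫ ·) (ιFin_igusaTo N ℓ)))).trans hmid
      exact @IsIntegral.of_isIso _ _ (isIntegral_chart_pullback N ℓ K (goodChart_mid N ℓ hℓN))
        (pullback.congrHom e (rfl : g = g)).inv _
    · have e : 𝒰.f WalkingSpan.left ≫ igusaTo N ℓ = Spec.map (CommRingCat.ofHom
          (algebraMap ↥(GaloisRep.ratLocalizedAt ℓ) ↥(chartAlgFin N ℓ))) := ιFin_igusaTo N ℓ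
      exact @IsIntegral.of_isIso _ _ (isIntegral_chart_pullback N ℓ K (goodChart_fin N ℓ hℓN))
        (pullback.congrHom e (rfl : g = g)).inv _
    · have e : 𝒰.f WalkingSpan.right ≫ igusaTo N ℓ = Spec.map (CommRingCat.ofHom
          (algebraMap ↥(GaloisRep.ratLocalizedAt ℓ) ↥(chartAlgInf N ℓ))) := ιInf_igusaTo N ℓ
      exact @IsIntegral.of_isIso _ _ (isIntegral_chart_pullback N ℓ K (goodChart_inf N ℓ hℓN))
        (pullback.congrHom e (rfl : g = g)).inv _
  haveI : ∀ i, IsIntegral (𝒱.X i) := hint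
  haveI : IsReduced (pullback (igusaTo N ℓ) g) := IsReduced.of_openCover _ 𝒱
  haveI : IrreducibleSpace ↥(pullback (igusaTo N ℓ) g) := by
    have hrange : ∀ i, Set.range (𝒱.f i) = (pullback.fst (igusaTo N ℓ) g) ⁻¹' Set.range (𝒰.f i) := by
      intro i
      show Set.range (pullback.map (𝒰.f i ≫ igusaTo N ℓ) g (igusaTo N ℓ) g (𝒰.f i) (𝟙 _) (𝟙 _) (by simp) (by simp)) = _
      rw [Scheme.Pullback.range_map]
      simp
    refine irreducibleSpace_of_open_cover (fun i : 𝒱.I₀ => Set.range (𝒱.f i))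
      (fun i => (𝒱.f i).isOpenEmbedding.isOpen_range) (fun i => ?_)
      (fun x => let ⟨i, y, hy⟩ := 𝒱.exists_eq x; ⟨i, y, hy⟩) none (fun i => ?_)
    · rw [← Set.image_univ]
      haveI := hint i
      exact (IrreducibleSpace.isIrreducible_univ _).image _ (𝒱.f i).continuous.continuousOn
    · show Set.range (𝒱.f none) ⊆ Set.range (𝒱.f i)
      rw [hrange, hrange]
      refine Set.preimage_mono ?_
      rcases i with _ | _ | _
      · exact subset_rfl
      · rw [hnone]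
        rintro _ ⟨y, rfl⟩
        exact ⟨(fFin N ℓ) y, rfl⟩
      · rw [hnone']
        rintro _ ⟨y, rfl⟩
        exact ⟨(fInf N ℓ) y, rfl⟩
  exact isIntegral_of_irreducibleSpace_of_isReduced _

end FLTAgent.Igusa
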