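import Fermat.Agent.Igusa.Basis
import Mathlib.RingTheory.Polynomial.IsIntegral
import Fermat.Prelude.Def_ModularCurve_IgusaScheme

/-!
# The charts of the Igusa model reduce injectively into `𝔽_ℓ((q))`
-/

set_option autoImplicit false
set_option linter.style.haveILetI false
set_option linter.unusedSectionVars false

noncomputable section

open Polynomial ModularCurve ModularCurve.IgusaScheme

namespace FLTAgent.Igusa

variable (N : ℕ) [NeZero N] (ℓ : ℕ) [Fact ℓ.Prime]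

/-- `ℤ_(ℓ)`-constants lie in the Gauss ring. -/
theorem localConst_eq (a : ↥(GaloisRep.ratLocalizedAt ℓ)) :
    ((algebraMap ↥(GaloisRep.ratLocalizedAt ℓ) ↥(modularFunctionFieldFull N) a :
      ↥(modularFunctionFieldFull N)) : LaurentSeries ℚ) = algebraMap ℚ (LaurentSeries ℚ) (a : ℚ) :=
  RingHom.congr_fun (Subsingleton.elim
    ((algebraMap ↥(modularFunctionFieldFull N) (LaurentSeries ℚ)).comp
      (algebraMap ℚ ↥(modularFunctionFieldFull N))) (algebraMap ℚ (LaurentSeries ℚ))) (a : ℚ)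

theorem localConst_mem (a : ↥(GaloisRep.ratLocalizedAt ℓ)) :
    ((algebraMap ↥(GaloisRep.ratLocalizedAt ℓ) ↥(modularFunctionFieldFull N) a :
      ↥(modularFunctionFieldFull N)) : LaurentSeries ℚ) = lift ℓ (HahnSeries.C a) := by
  rw [localConst_eq, algebraMap_laurentSeries_eq_single, lift, HahnSeries.C_apply, coeffMap_single]
  rfl

theorem coe_mem_gaussRing_of_adjoin {S : Set ↥(modularFunctionFieldFull N)}
    (hS : ∀ s ∈ S, (s : LaurentSeries ℚ) ∈ gaussRing ℓ) {x : ↥(modularFunctionFieldFull N)}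
    (hx : x ∈ Algebra.adjoin ↥(GaloisRep.ratLocalizedAt ℓ) S) : (x : LaurentSeries ℚ) ∈ gaussRing ℓ := by
  induction hx using Algebra.adjoin_induction with
  | mem y hy => exact hS y hy
  | algebraMap a => rw [localConst_mem N ℓ a]; exact lift_mem ℓ _
  | add y z _ _ hy hz => exact add_mem hy hz
  | mul y z _ _ hy hz => exact mul_mem hy hz

/-- Charts with integral coordinates lie in the Gauss ring. -/
theorem coe_mem_gaussRing_of_chart {S : Set ↥(modularFunctionFieldFull N)}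
    (hS : ∀ s ∈ S, (s : LaurentSeries ℚ) ∈ gaussRing ℓ) {x : ↥(modularFunctionFieldFull N)}
    (hx : x ∈ chartAlg N ℓ S) : (x : LaurentSeries ℚ) ∈ gaussRing ℓ := by
  obtain ⟨P, hP, hPx⟩ := (mem_chartAlg_iff N ℓ).mp hx
  let f : Algebra.adjoin ↥(GaloisRep.ratLocalizedAt ℓ) S →+* gaussRing ℓ :=
    { toFun := fun y => ⟨((y : ↥(modularFunctionFieldFull N)) : LaurentSeries ℚ),
        coe_mem_gaussRing_of_adjoin N ℓ hS y.2⟩
      map_one' := rfl
      map_mul' := fun _ _ => rfl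
      map_zero' := rfl
      map_add' := fun _ _ => rfl }
  refine mem_gaussRing_of_monic ℓ (modularFunctionFieldFull_le_boundedField ℓ N x.2) (hP.map f) ?_
  rw [eval₂_map]
  have h := congr_arg (algebraMap ↥(modularFunctionFieldFull N) (LaurentSeries ℚ)) hPx
  rw [map_zero, hom_eval₂] at h
  exact h

/-- `ℤ_(ℓ)`-integral elements of `ℚ (j)`. -/
def baseVal : Subring ratBase := (gaussRing ℓ).comap (algebraMap ratBase (LaurentSeries ℚ))

theorem isIntegral_baseVal (hℓN : ¬ ℓ ∣ N) {y : LaurentSeries ℚ} (hy : y ∈ modularFunctionFieldFull N)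
    (hyg : y ∈ gaussRing ℓ) : IsIntegral (baseVal ℓ) y := by
  obtain ⟨b, hbF, hbg, hdec⟩ := exists_gauss_basis N ℓ hℓN
  let O : Subalgebra (baseVal ℓ) (LaurentSeries ℚ) :=
    { carrier := {z | z ∈ modularFunctionFieldFull N ∧ z ∈ gaussRing ℓ}
      mul_mem' := fun ha hb => ⟨mul_mem ha.1 hb.1, mul_mem ha.2 hb.2⟩
      one_mem' := ⟨one_mem _, one_mem _⟩
      add_mem' := fun ha hb => ⟨add_mem ha.1 hb.1, add_mem ha.2 hb.2⟩
      zero_mem' := ⟨zero_mem _, zero_mem _⟩
      algebraMap_mem' := fun r =>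
        ⟨mem_full_of_mem_ratTop N (IntermediateField.algebraMap_mem (ratTop N) (r : ratBase)), r.2⟩ }
  refine IsIntegral.of_mem_of_fg O ?_ y ⟨hy, hyg⟩
  rw [Submodule.fg_def]
  refine ⟨Set.range b, Set.finite_range b, le_antisymm (Submodule.span_le.mpr ?_) ?_⟩
  · rintro _ ⟨i, rfl⟩
    exact ⟨hbF i, hbg i⟩
  · rintro z ⟨hz, hzg⟩
    obtain ⟨c, hc, hcg⟩ := hdec z hz
    rw [hc]
    exact Submodule.sum_mem _ fun i _ =>
      Submodule.smul_mem _ (⟨c i, hcg hzg i⟩ : baseVal ℓ) (Submodule.subset_span ⟨i, rfl⟩)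

theorem coe_mem_gaussRing_of_isIntegral {c : ratBase} (h : IsIntegral (baseVal ℓ) c) :
    (c : LaurentSeries ℚ) ∈ gaussRing ℓ := by
  obtain ⟨P, hP, hPc⟩ := h
  let f : baseVal ℓ →+* gaussRing ℓ :=
    { toFun := fun v => ⟨((v : ratBase) : LaurentSeries ℚ), v.2⟩
      map_one' := rfl
      map_mul' := fun _ _ => rfl
      map_zero' := rfl
      map_add' := fun _ _ => rfl }
  refine mem_gaussRing_of_monic ℓ ?_ (hP.map f) ?_
  · exact modularFunctionFieldFull_le_boundedField ℓ 1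
      (mem_full_of_mem_ratTop 1 (IntermediateField.algebraMap_mem (ratTop 1) c))
  · rw [eval₂_map]
    have h := congr_arg (algebraMap ratBase (LaurentSeries ℚ)) hPc
    rw [map_zero, hom_eval₂] at h
    exact h

section Criterion

variable (t : gaussRing ℓ) (tF : ↥(modularFunctionFieldFull N))

/-- In the chart of `t ∈ {j, j⁻¹}`, an element whose reduction vanishes is divisible by `ℓ`. -/
theorem exists_eq_mul_of_red_chart_eq_zero (hℓN : ¬ ℓ ∣ N)
    (htF : (tF : LaurentSeries ℚ) = t)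
    (hbase : IntermediateField.adjoin ℚ {(t : LaurentSeries ℚ)} = ratBase)
    (htQ : Function.Injective (aeval (R := ℚ) (t : LaurentSeries ℚ)))
    (ht : Function.Injective (aeval (R := ZMod ℓ) (red ℓ t)))
    {x : ↥(modularFunctionFieldFull N)} (hx : x ∈ chartAlg N ℓ {tF})
    (hxg : (x : LaurentSeries ℚ) ∈ gaussRing ℓ) (hx0 : red ℓ ⟨_, hxg⟩ = 0) :
    ∃ y ∈ chartAlg N ℓ {tF}, x = (ℓ : ↥(modularFunctionFieldFull N)) * y := by
  obtain ⟨y, hy⟩ := exists_eq_mul_of_red_eq_zero ℓ hx0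
  have hyx : (x : LaurentSeries ℚ) = (ℓ : LaurentSeries ℚ) * (y : LaurentSeries ℚ) := by
    have := congr_arg Subtype.val hy
    simpa using this
  have hℓ := natCast_ne_zero_laurentRat ℓ
  have hyF : (y : LaurentSeries ℚ) ∈ modularFunctionFieldFull N := by
    rw [show (y : LaurentSeries ℚ) = (x : LaurentSeries ℚ) / (ℓ : LaurentSeries ℚ) by
      rw [hyx, mul_div_cancel_left₀ _ hℓ]]
    exact div_mem x.2 (natCast_mem _ ℓ)
  set yF : ↥(modularFunctionFieldFull N) := ⟨y, hyF⟩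
  refine ⟨yF, ?_, Subtype.ext (by rw [IntermediateField.coe_mul]; simpa [yF] using hyx)⟩
  set A := Algebra.adjoin ↥(GaloisRep.ratLocalizedAt ℓ) ({tF} : Set ↥(modularFunctionFieldFull N))
  -- the minimal polynomial over `ℚ (j)`
  have hyint : IsIntegral (baseVal ℓ) (y : LaurentSeries ℚ) := isIntegral_baseVal N ℓ hℓN hyF y.2
  set m := minpoly ratBase (y : LaurentSeries ℚ)
  have hyB : IsIntegral ratBase (y : LaurentSeries ℚ) := hyint.tower_top
  have hcg : ∀ i, ((m.coeff i : ratBase) : LaurentSeries ℚ) ∈ gaussRing ℓ := by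
    intro i
    obtain ⟨P, hP, hPy⟩ := hyint
    refine coe_mem_gaussRing_of_isIntegral ℓ (isIntegral_coeff_of_dvd P m hP (minpoly.monic hyB) ?_ i)
    exact minpoly.dvd _ _ (by rw [aeval_map_algebraMap]; exact hPy)
  have htmem : (t : LaurentSeries ℚ) ∈ ratBase := hbase ▸ IntermediateField.mem_adjoin_simple_self ℚ _
  set g : ℚ[X] →+* ratBase :=
    (aeval (R := ℚ) (t : LaurentSeries ℚ)).toRingHom.codRestrict ratBase.toSubfield.toSubring
      (fun P => by
        show aeval (t : LaurentSeries ℚ) P ∈ ratBase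
        rw [← hbase]
        exact IntermediateField.algebra_adjoin_le_adjoin ℚ _ (aeval_mem_adjoin_singleton ℚ _))
  have hxA : ∀ a : A, ∃ P : ℚ[X], (((a : ↥(modularFunctionFieldFull N))) : LaurentSeries ℚ)
      = aeval (t : LaurentSeries ℚ) P := by
    rintro ⟨a, ha⟩
    induction ha using Algebra.adjoin_induction with
    | mem s hs =>
      refine ⟨X, ?_⟩
      rw [aeval_X]
      obtain rfl : s = tF := hs
      exact htF
    | algebraMap r => exact ⟨Polynomial.C (r : ℚ), by rw [aeval_C]; exact localConst_eq N ℓ r⟩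
    | add a b _ _ ha hb =>
      obtain ⟨P, hP⟩ := ha; obtain ⟨Q, hQ⟩ := hb
      exact ⟨P + Q, by rw [map_add, ← hP, ← hQ]; rfl⟩
    | mul a b _ _ ha hb =>
      obtain ⟨P, hP⟩ := ha; obtain ⟨Q, hQ⟩ := hb
      exact ⟨P * Q, by rw [map_mul, ← hP, ← hQ]; rfl⟩
  have hcQ : ∀ i, ∃ P : ℚ[X], ((m.coeff i : ratBase) : LaurentSeries ℚ) = aeval (t : LaurentSeries ℚ) P := by
    intro i
    letI algB : Algebra ℚ[X] ratBase := g.toAlgebra
    letI algL : Algebra ℚ[X] (LaurentSeries ℚ) := (aeval (R := ℚ) (t : LaurentSeries ℚ)).toRingHom.toAlgebra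
    haveI : IsScalarTower ℚ[X] ratBase (LaurentSeries ℚ) := IsScalarTower.of_algebraMap_eq fun _ => rfl
    have hxi : IsIntegral ℚ[X] (x : LaurentSeries ℚ) := by
      obtain ⟨P, hP, hPx⟩ := (mem_chartAlg_iff N ℓ).mp hx
      set P' := P.map ((algebraMap ↥(modularFunctionFieldFull N) (LaurentSeries ℚ)).comp
        (algebraMap A ↥(modularFunctionFieldFull N)))
      have hl : P' ∈ Polynomial.lifts (algebraMap ℚ[X] (LaurentSeries ℚ)) := by
        rw [lifts_iff_coeff_lifts]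
        intro n
        obtain ⟨Q, hQ⟩ := hxA (P.coeff n)
        exact ⟨Q, by rw [coeff_map]; exact hQ.symm⟩
      obtain ⟨Q, hQ, -, hQm⟩ := lifts_and_natDegree_eq_and_monic hl (hP.map _)
      refine ⟨Q, hQm, ?_⟩
      rw [eval₂_eq_eval_map, hQ, eval_map]
      have h := congr_arg (algebraMap ↥(modularFunctionFieldFull N) (LaurentSeries ℚ)) hPx
      rw [map_zero, hom_eval₂] at h
      exact h
    have hyi : IsIntegral ℚ[X] (y : LaurentSeries ℚ) := by
      have h := (isIntegral_algebraMap (x := Polynomial.C ((ℓ : ℚ)⁻¹))).mul hxi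
      have e : (y : LaurentSeries ℚ) =
          algebraMap ℚ[X] (LaurentSeries ℚ) (Polynomial.C ((ℓ : ℚ)⁻¹)) * (x : LaurentSeries ℚ) := by
        show _ = aeval (t : LaurentSeries ℚ) (Polynomial.C ((ℓ : ℚ)⁻¹)) * _
        rw [aeval_C, map_inv₀, map_natCast, hyx, ← mul_assoc, inv_mul_cancel₀ hℓ, one_mul]
      rw [e]
      exact h
    obtain ⟨P, hP, hPy⟩ := hyi
    have hci : IsIntegral ℚ[X] (m.coeff i) :=
      isIntegral_coeff_of_dvd P m hP (minpoly.monic hyB)
        (minpoly.dvd _ _ (by rw [aeval_map_algebraMap]; exact hPy)) i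
    obtain ⟨Q, hQ, hQc⟩ := hci
    refine mem_range_aeval_of_isIntegralElem htQ (hbase.symm ▸ (m.coeff i).2) ⟨Q, hQ, ?_⟩
    have h := congr_arg (algebraMap ratBase (LaurentSeries ℚ)) hQc
    rw [map_zero, hom_eval₂] at h
    exact h
  choose P hP using hcQ
  have hloc : ∀ i, ∃ p : Polynomial ↥(GaloisRep.ratLocalizedAt ℓ),
      p.map (GaloisRep.ratLocalizedAt ℓ).subtype = P i := fun i =>
    exists_local_polynomial ℓ t htQ ht (hP i ▸ hcg i)
  choose p hp using hloc
  have hlifts : m.map (algebraMap ratBase (LaurentSeries ℚ)) ∈ Polynomial.lifts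
      ((algebraMap ↥(modularFunctionFieldFull N) (LaurentSeries ℚ)).comp
        (algebraMap A ↥(modularFunctionFieldFull N))) := by
    rw [lifts_iff_coeff_lifts]
    intro n
    refine ⟨aeval (R := ↥(GaloisRep.ratLocalizedAt ℓ)) (⟨tF, Algebra.subset_adjoin rfl⟩ : A) (p n), ?_⟩
    rw [coeff_map]
    show _ = ((m.coeff n : ratBase) : LaurentSeries ℚ)
    rw [hP n, ← hp n, aeval_def, aeval_def, hom_eval₂, eval₂_map]
    refine congr_arg₂ (fun f z => eval₂ f z (p n)) ?_ htF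
    exact RingHom.ext fun a => localConst_eq N ℓ a
  obtain ⟨Q, hQ, -, hQm⟩ := lifts_and_natDegree_eq_and_monic hlifts ((minpoly.monic hyB).map _)
  rw [mem_chartAlg_iff]
  refine ⟨Q, hQm, (algebraMap ↥(modularFunctionFieldFull N) (LaurentSeries ℚ)).injective ?_⟩
  rw [map_zero, hom_eval₂, ← eval_map, hQ, eval_map]
  exact minpoly.aeval ratBase (y : LaurentSeries ℚ)

end Criterion

theorem injective_aeval_inv {K L : Type*} [Field K] [Field L] [Algebra K L] {x : L}
    (hx : Function.Injective (aeval (R := K) x)) : Function.Injective (aeval (R := K) x⁻¹) := by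
  rcases eq_or_ne x 0 with rfl | h0
  · simpa using hx
  rw [injective_iff_map_eq_zero]
  intro P hP
  haveI : Invertible x⁻¹ := invertibleOfNonzero (inv_ne_zero h0)
  have h := (eval₂_reverse_eq_zero_iff (algebraMap K L) x⁻¹ P).mpr hP
  rw [invOf_eq_inv, inv_inv] at h
  exact reverse_eq_zero.mp (hx (h.trans (map_zero _).symm))

theorem jq_inv_mem_gaussRing : jq⁻¹ ∈ gaussRing ℓ ∧
    ∀ h, red ℓ ⟨jq⁻¹, h⟩ = (jqModC (ZMod ℓ))⁻¹ := by
  have hne : reduce ℓ (jqModC ↥(GaloisRep.ratLocalizedAt ℓ)) = jqModC (ZMod ℓ) := coeffMap_jqModC _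
  have hmem : jq⁻¹ ∈ gaussRing ℓ :=
    ⟨1, jqModC _, by rw [hne]; exact jqModC_ne_zero_of_nontrivial _,
      by rw [← jq_eq_lift, inv_mul_cancel₀ jq_ne_zero, map_one]⟩
  refine ⟨hmem, fun h => ?_⟩
  rw [red_eq ℓ (a := 1) (b := jqModC _) (by rw [hne]; exact jqModC_ne_zero_of_nontrivial _)
    (by rw [← jq_eq_lift, inv_mul_cancel₀ jq_ne_zero, map_one]), map_one, hne, one_div]

theorem adjoin_inv_eq : IntermediateField.adjoin ℚ {jq⁻¹} = ratBase := by
  refine le_antisymm ?_ ?_ <;> rw [IntermediateField.adjoin_le_iff, Set.singleton_subset_iff]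
  · exact inv_mem (IntermediateField.mem_adjoin_simple_self ℚ jq)
  · simpa using inv_mem (IntermediateField.mem_adjoin_simple_self ℚ jq⁻¹)

theorem red_chartFin_eq_zero (hℓN : ¬ ℓ ∣ N) {x : ↥(modularFunctionFieldFull N)}
    (hx : x ∈ chartAlgFin N ℓ) (hxg : (x : LaurentSeries ℚ) ∈ gaussRing ℓ)
    (hx0 : red ℓ ⟨_, hxg⟩ = 0) :
    ∃ y ∈ chartAlgFin N ℓ, x = (ℓ : ↥(modularFunctionFieldFull N)) * y :=
  exists_eq_mul_of_red_chart_eq_zero N ℓ (jGauss ℓ) (jFull N) hℓN rfl rfl injective_aeval_jq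
    (injective_aeval_red_jGauss ℓ) hx hxg hx0

theorem red_chartInf_eq_zero (hℓN : ¬ ℓ ∣ N) {x : ↥(modularFunctionFieldFull N)}
    (hx : x ∈ chartAlgInf N ℓ) (hxg : (x : LaurentSeries ℚ) ∈ gaussRing ℓ)
    (hx0 : red ℓ ⟨_, hxg⟩ = 0) :
    ∃ y ∈ chartAlgInf N ℓ, x = (ℓ : ↥(modularFunctionFieldFull N)) * y := by
  obtain ⟨hmem, hred⟩ := jq_inv_mem_gaussRing ℓ
  refine exists_eq_mul_of_red_chart_eq_zero N ℓ ⟨jq⁻¹, hmem⟩ (jFull N)⁻¹ hℓN (by simp)
    adjoin_inv_eq (injective_aeval_inv injective_aeval_jq) ?_ hx hxg hx0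
  rw [hred]
  refine injective_aeval_inv ?_
  rw [← red_jGauss ℓ]
  exact injective_aeval_red_jGauss ℓ

end FLTAgent.Igusa
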