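import Mathlib.FieldTheory.IntermediateField.Adjoin.Basic
import Mathlib.FieldTheory.Minpoly.Field
import Mathlib.Algebra.Polynomial.Roots

/-!
# Simple extensions inside a tower: degrees, conjugates, extensions of embeddings
-/

set_option autoImplicit false
set_option linter.style.haveILetI false
set_option linter.unusedSectionVars false

noncomputable section

open Polynomial IntermediateField

namespace FLTAgent.Igusa

variable {K L : Type*} [Field K] [Field L] [Algebra K L] {S : Set L} {x : L}

theorem adjoin_insert_eq :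
    (adjoin (adjoin K S) ({x} : Set L)).restrictScalars K = adjoin K (insert x S) := by
  rw [adjoin_adjoin_left, Set.union_singleton]

/-- Degree of a simple extension inside a tower. -/
theorem finrank_adjoin_insert (hx : IsIntegral K x) :
    Module.finrank K (adjoin K (insert x S)) =
      Module.finrank K (adjoin K S) * (minpoly (adjoin K S) x).natDegree := by
  rw [← adjoin_insert_eq, ← adjoin.finrank (K := adjoin K S) hx.tower_top,
    Module.finrank_mul_finrank]
  rfl

/-- The minimal polynomial over `adjoin K S`, pushed by an embedding. -/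
def minpolyVia (σ : adjoin K S →ₐ[K] L) (x : L) : L[X] :=
  (minpoly (adjoin K S) x).map σ.toRingHom

theorem natDegree_minpolyVia (σ : adjoin K S →ₐ[K] L) (x : L) :
    (minpolyVia σ x).natDegree = (minpoly (adjoin K S) x).natDegree :=
  natDegree_map _

theorem card_le_natDegree_minpoly (hx : IsIntegral K x) (σ : adjoin K S →ₐ[K] L) (T : Finset L)
    (hT : ∀ z ∈ T, (minpolyVia σ x).eval z = 0) :
    T.card ≤ (minpoly (adjoin K S) x).natDegree := by
  rw [← natDegree_minpolyVia σ x]
  have h0 : minpolyVia σ x ≠ 0 := ((minpoly.monic hx.tower_top).map _).ne_zero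
  exact card_le_degree_of_subset_roots (fun z hz => (mem_roots h0).mpr (hT z hz))

/-- An embedding of `adjoin K S` extends with prescribed conjugate. -/
theorem exists_extension (hx : IsIntegral K x) (σ : adjoin K S →ₐ[K] L) {z : L}
    (hz : (minpolyVia σ x).eval z = 0) :
    ∃ σ' : adjoin K (insert x S) →ₐ[K] L,
      σ' ⟨x, subset_adjoin K _ (Set.mem_insert x S)⟩ = z ∧
        ∀ y : adjoin K S,
          σ' ⟨y, adjoin.mono K S (insert x S) (Set.subset_insert x S) y.2⟩ = σ y := by
  have hxE : IsIntegral (adjoin K S) x := hx.tower_top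
  rw [minpolyVia, eval_map] at hz
  let ψ : (adjoin K S)⟮x⟯ →+* L :=
    (AdjoinRoot.lift σ.toRingHom z hz).comp (adjoinRootEquivAdjoin (adjoin K S) hxE).symm.toRingHom
  have hψ : ∀ y : adjoin K S, ψ (algebraMap (adjoin K S) (adjoin K S)⟮x⟯ y) = σ y := fun y => by
    show AdjoinRoot.lift σ.toRingHom z hz ((adjoinRootEquivAdjoin (adjoin K S) hxE).symm (algebraMap (adjoin K S) (adjoin K S)⟮x⟯ y)) = _
    rw [AlgEquiv.commutes, AdjoinRoot.algebraMap_eq, AdjoinRoot.lift_of]
    rfl
  have hψx : ψ (AdjoinSimple.gen (adjoin K S) x) = z := by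
    show AdjoinRoot.lift σ.toRingHom z hz ((adjoinRootEquivAdjoin (adjoin K S) hxE).symm (AdjoinSimple.gen (adjoin K S) x)) = _
    rw [adjoinRootEquivAdjoin_symm_apply_gen, AdjoinRoot.lift_root]
  let σ₁ : ((adjoin K S)⟮x⟯).restrictScalars K →ₐ[K] L :=
    { toFun := fun y => ψ y
      map_one' := map_one ψ
      map_mul' := fun a b => map_mul ψ a b
      map_zero' := map_zero ψ
      map_add' := fun a b => map_add ψ a b
      commutes' := fun r => (hψ (algebraMap K (adjoin K S) r)).trans (σ.commutes r) }
  refine ⟨σ₁.comp (inclusion (le_of_eq adjoin_insert_eq.symm)), ?_, fun y => ?_⟩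
  · exact hψx
  · exact hψ y

/-- If the minimal polynomial vanishes at the image of an element of the field, `x` is that
element. -/
theorem eq_of_minpolyVia_eval_eq_zero (hx : IsIntegral K x) (σ : adjoin K S →ₐ[K] L)
    (y : adjoin K S) (h : (minpolyVia σ x).eval (σ y) = 0) : x = y := by
  have h0 : (minpoly (adjoin K S) x).eval y = 0 := by
    refine σ.toRingHom.injective ?_
    rw [map_zero, ← eval₂_at_apply]
    rwa [minpolyVia, eval_map] at h
  have hi := minpoly.irreducible (hx.tower_top (A := adjoin K S))
  have hdeg := natDegree_eq_of_degree_eq_some (Polynomial.degree_eq_one_of_irreducible_of_root hi h0)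
  have hm := minpoly.monic (hx.tower_top (A := adjoin K S))
  have heq : minpoly (adjoin K S) x = X - C y := by
    have h1 := hm.eq_X_add_C hdeg
    rw [h1, eval_add, eval_X, eval_C, add_eq_zero_iff_neg_eq] at h0
    rw [h1, ← h0, map_neg, sub_eq_add_neg]
  have := minpoly.aeval (adjoin K S) x
  rw [heq, map_sub, aeval_X, aeval_C, sub_eq_zero] at this
  exact this

end FLTAgent.Igusa
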