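import Fermat.Agent.Igusa.Ambient
import Fermat.Agent.Igusa.Embedding
import Mathlib.Data.Nat.Factorization.Basic
import Mathlib.FieldTheory.IsAlgClosed.Basic

/-!
# Lower bound for the degree of the modular function field of level `N` in characteristic `∤ N`
-/

set_option autoImplicit false
set_option linter.style.haveILetI false
set_option linter.unusedSectionVars false

noncomputable section

open Polynomial Finset IntermediateField

namespace FLTAgent.Igusa

/-- `∏ (p + 1) p ^ (e - 1)`. -/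
def psiProd (N : ℕ) : ℕ :=
  ∏ p ∈ N.primeFactors, (p + 1) * p ^ (N.factorization p - 1)

variable {k : Type} [Field k] [IsAlgClosed k] (φ : AlgInt →+* k) (N : ℕ)

/-- `j (q ^ (p ^ i))`. -/
def gen (p i : ℕ) : Amb k := Xj (N * p ^ i) 1

/-- The generators for a set of primes. -/
def genSet (P : Finset ℕ) : Set (Amb k) :=
  {z | ∃ p ∈ P, ∃ i ≤ N.factorization p, z = gen N p i}

/-- The generators `gen N p i'`, `i' ≤ i`, together with `genSet N P`. -/
def chainSet (P : Finset ℕ) (p i : ℕ) : Set (Amb k) :=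
  genSet N P ∪ {z | ∃ i' ≤ i, z = gen N p i'}

variable {N}

theorem genSet_mono {P Q : Finset ℕ} (h : P ⊆ Q) : genSet (k := k) N P ⊆ genSet N Q := by
  rintro z ⟨p, hp, i, hi, rfl⟩
  exact ⟨p, h hp, i, hi, rfl⟩

theorem chainSet_succ (P : Finset ℕ) (p i : ℕ) :
    chainSet (k := k) N P p (i + 1) = insert (gen N p (i + 1)) (chainSet N P p i) := by
  ext z
  simp only [chainSet, Set.mem_union, Set.mem_insert_iff, Set.mem_ofPred_eq]
  constructor
  · rintro (h | ⟨i', hi', rfl⟩)
    · exact Or.inr (Or.inl h)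
    · rcases Nat.eq_or_lt_of_le hi' with rfl | hlt
      · exact Or.inl rfl
      · exact Or.inr (Or.inr ⟨i', Nat.lt_succ_iff.mp hlt, rfl⟩)
  · rintro (rfl | h | ⟨i', hi', rfl⟩)
    · exact Or.inr ⟨i + 1, le_rfl, rfl⟩
    · exact Or.inl h
    · exact Or.inr ⟨i', hi'.trans (Nat.le_succ i), rfl⟩

theorem adjoin_chainSet_zero (P : Finset ℕ) (p : ℕ) :
    adjoin (baseField k N) (chainSet (k := k) N P p 0) = adjoin (baseField k N) (genSet N P) := by
  refine le_antisymm (adjoin_le_iff.mpr ?_) (adjoin.mono _ _ _ Set.subset_union_left)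
  rintro z (h | ⟨i', hi', rfl⟩)
  · exact subset_adjoin _ _ h
  · rw [Nat.le_zero.mp hi']
    have : gen (k := k) N p 0 ∈ baseField k N := by simpa [gen] using Xj_N_mem (k := k) N
    exact IntermediateField.algebraMap_mem _ (⟨_, this⟩ : baseField k N)

theorem genSet_insert (P : Finset ℕ) (p : ℕ) :
    genSet (k := k) N (insert p P) = chainSet N P p (N.factorization p) := by
  ext z
  simp only [genSet, chainSet, Set.mem_union, Set.mem_ofPred_eq, Finset.mem_insert,
    exists_eq_or_imp]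
  exact or_comm

theorem finite_genSet (P : Finset ℕ) : (genSet (k := k) N P).Finite := by
  refine ((P.biUnion fun p => (Finset.range (N.factorization p + 1)).image fun i => (p, i)).finite_toSet.image
    fun pi => gen (k := k) N pi.1 pi.2).subset ?_
  rintro z ⟨p, hp, i, hi, rfl⟩
  exact ⟨(p, i), Finset.mem_coe.mpr (Finset.mem_biUnion.mpr ⟨p, hp, Finset.mem_image.mpr
    ⟨i, Finset.mem_range.mpr (Nat.lt_succ_of_le hi), rfl⟩⟩), rfl⟩

theorem finite_chainSet (P : Finset ℕ) (p i : ℕ) : (chainSet (k := k) N P p i).Finite :=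
  (finite_genSet P).union (((Set.finite_Iic i).image fun i' => gen (k := k) N p i').subset (by
    rintro z ⟨i', hi', rfl⟩
    exact ⟨i', hi', rfl⟩))

variable [NeZero N]

theorem pow_dvd_N {p i : ℕ} (hi : i ≤ N.factorization p) : p ^ i ∣ N :=
  (pow_dvd_pow p hi).trans (Nat.ordProj_dvd N p)

theorem dvd_N_of_lt {p i : ℕ} (hi : i < N.factorization p) : p ∣ N :=
  (dvd_pow_self p (Nat.succ_ne_zero i)).trans (pow_dvd_N hi)

theorem natCast_ne_zero_of_dvd (hN : (N : k) ≠ 0) {p : ℕ} (hp : p ∣ N) : (p : k) ≠ 0 := by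
  obtain ⟨e, rfl⟩ := hp
  exact left_ne_zero_of_mul (by rwa [Nat.cast_mul] at hN)

theorem div_pow_eq {p : ℕ} {i : ℕ} (hp : 0 < p) (hi : i < N.factorization p) :
    N / p ^ i = p * (N / p ^ (i + 1)) := by
  obtain ⟨e, he⟩ := pow_dvd_N (N := N) (p := p) hi
  rw [he, Nat.mul_div_cancel_left _ (pow_pos hp _), pow_succ, mul_assoc,
    Nat.mul_div_cancel_left _ (pow_pos hp _)]

theorem div_pow_ne_zero {p : ℕ} {i : ℕ} (hp : 0 < p) (hi : i ≤ N.factorization p) :
    N / p ^ i ≠ 0 := by
  obtain ⟨e, he⟩ := pow_dvd_N (N := N) (p := p) hi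
  rw [he, Nat.mul_div_cancel_left _ (pow_pos hp _)]
  intro h
  exact NeZero.ne N (by rw [he, h, mul_zero])

include φ in
/-- The `p`-th equation relates consecutive generators. -/
theorem eval_modEqAt_gen {p : ℕ} [Fact p.Prime] (hpN : p ∣ N) (i : ℕ) :
    (modEqAt p (gen (k := k) N p i)).eval (gen N p (i + 1)) = 0 ∧
      (1 ≤ i → (modEqAt p (gen (k := k) N p i)).eval (gen N p (i - 1)) = 0) := by
  have hp : p.Prime := Fact.out
  obtain ⟨e, he⟩ := hpN
  have he0 : e * p ^ i ≠ 0 :=
    Nat.mul_ne_zero (fun h => NeZero.ne N (by rw [he, h, mul_zero])) (pow_ne_zero _ hp.ne_zero)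
  have hg : gen (k := k) N p i = Xj (p * (e * p ^ i)) ((1 : kˣ) ^ p) := by
    rw [gen, one_pow, he, mul_assoc]
  haveI : NeZero p := ⟨hp.ne_zero⟩
  refine ⟨?_, fun hi => ?_⟩
  · rw [hg, eval_modEqAt_eq_zero_iff p φ _ he0]
    refine Or.inl ?_
    rw [gen, one_pow, he]
    congr 1
    ring
  · rw [hg, eval_modEqAt_eq_zero_iff p φ _ he0]
    refine Or.inr ⟨⟨0, hp.pos⟩, ?_⟩
    obtain ⟨i', rfl⟩ : ∃ i', i = i' + 1 := ⟨i - 1, by omega⟩
    rw [Fin.val_mk, pow_zero, one_mul, gen, he, Nat.add_sub_cancel]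
    congr 1
    ring

include φ in
theorem isIntegral_gen (p : ℕ) : ∀ i ≤ N.factorization p,
    IsIntegral (baseField k N) (gen (k := k) N p i) := by
  intro i
  induction i with
  | zero =>
    intro _
    have : gen (k := k) N p 0 ∈ baseField k N := by simpa [gen] using Xj_N_mem (k := k) N
    exact isIntegral_algebraMap (x := (⟨_, this⟩ : baseField k N))
  | succ i ih =>
    intro hi
    haveI : Fact p.Prime := ⟨by
      by_contra h
      rw [Nat.factorization_eq_zero_of_not_prime N h] at hi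
      omega⟩
    set K0 := baseField k N
    have hy := ih (Nat.le_of_succ_le hi)
    haveI := adjoin.finiteDimensional hy
    refine isIntegral_trans (A := K0⟮gen (k := k) N p i⟯) _ ?_
    refine ⟨modEqAt p (AdjoinSimple.gen K0 (gen (k := k) N p i)), modEqAt_monic p _, ?_⟩
    rw [← eval_map, map_modEqAt, AdjoinSimple.algebraMap_gen]
    exact (eval_modEqAt_gen φ (dvd_N_of_lt hi) i).1

include φ in
/-- Images of the generators under embeddings over `k (j)`. -/
theorem image_gen (hN : (N : k) ≠ 0) {S : Set (Amb k)}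
    (σ : adjoin (baseField k N) S →ₐ[baseField k N] Amb k) (p : ℕ) :
    ∀ i ≤ N.factorization p, (∀ i' ≤ i, gen (k := k) N p i' ∈ adjoin (baseField k N) S) →
      ∀ h : gen (k := k) N p i ∈ adjoin (baseField k N) S,
        ∃ (a : ℕ) (c : kˣ), a ≠ 0 ∧ N / p ^ i ∣ a ∧ σ ⟨_, h⟩ = Xj a c := by
  intro i
  induction i with
  | zero =>
    intro _ _ h
    refine ⟨N, 1, NeZero.ne N, by simp, ?_⟩
    have h0 : gen (k := k) N p 0 = Xj N 1 := by simp [gen]
    have := σ.commutes ⟨Xj N 1, Xj_N_mem N⟩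
    refine Eq.trans ?_ this
    congr 1
    exact Subtype.ext h0
  | succ i ih =>
    intro hi hmem h
    haveI : Fact p.Prime := ⟨by
      by_contra h'
      rw [Nat.factorization_eq_zero_of_not_prime N h'] at hi
      omega⟩
    have hp : p.Prime := Fact.out
    haveI : NeZero p := ⟨hp.ne_zero⟩
    obtain ⟨a, c, ha, hdvd, hσ⟩ := ih (Nat.le_of_succ_le hi)
      (fun i' hi' => hmem i' (hi'.trans (Nat.le_succ i))) (hmem i (Nat.le_succ i))
    rw [div_pow_eq hp.pos hi] at hdvd
    obtain ⟨d, rfl⟩ := (dvd_mul_right p _).trans hdvd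
    have hd : d ≠ 0 := right_ne_zero_of_mul ha
    have hdvd' : N / p ^ (i + 1) ∣ d := (Nat.mul_dvd_mul_iff_left hp.pos).mp hdvd
    obtain ⟨c', hc'⟩ := IsAlgClosed.exists_pow_nat_eq (c : k) hp.pos
    have hc'0 : c' ≠ 0 := fun e => c.ne_zero (by rw [← hc', e, zero_pow hp.ne_zero])
    have hcc : c = (Units.mk0 c' hc'0) ^ p := Units.ext (by simp [hc'])
    set y : adjoin (baseField k N) S := ⟨_, hmem i (Nat.le_succ i)⟩
    have h0 : (modEqAt p y).eval ⟨_, h⟩ = 0 := by
      refine Subtype.val_injective ?_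
      change algebraMap (adjoin (baseField k N) S) (Amb k) _ = algebraMap (adjoin (baseField k N) S) (Amb k) 0
      rw [map_zero, ← eval_map_apply, map_modEqAt]
      exact (eval_modEqAt_gen φ (dvd_N_of_lt hi) i).1
    have h1 := congr_arg σ.toRingHom h0
    rw [map_zero, ← eval_map_apply, map_modEqAt] at h1
    change (modEqAt p (σ y)).eval (σ ⟨_, h⟩) = 0 at h1
    rw [hσ, hcc, eval_modEqAt_eq_zero_iff p φ d hd] at h1
    rcases h1 with h1 | ⟨j, h1⟩
    · exact ⟨_, _, Nat.mul_ne_zero (Nat.mul_ne_zero hp.ne_zero hp.ne_zero) hd,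
        hdvd'.trans (dvd_mul_left _ _), h1⟩
    · exact ⟨_, _, hd, hdvd', h1⟩

include φ in
theorem finiteDimensional_genSet (P : Finset ℕ) :
    FiniteDimensional (baseField k N) (adjoin (baseField k N) (genSet (k := k) N P)) := by
  haveI : Finite (genSet (k := k) N P) := finite_genSet P
  refine finiteDimensional_adjoin ?_
  rintro z ⟨p, -, i, hi, rfl⟩
  exact isIntegral_gen φ p i hi

end FLTAgent.Igusa
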