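import Fermat.Agent.Igusa.Degree

/-!
# `[k (j (q ^ d) : d ∣ N) : k (j)] ≥ ψ N` in characteristic prime to `N`
-/

set_option autoImplicit false
set_option linter.style.haveILetI false
set_option linter.unusedSectionVars false

noncomputable section

open Polynomial Finset IntermediateField ModularCurve

namespace FLTAgent.Igusa

variable {k : Type} [Field k] [IsAlgClosed k] (φ : AlgInt →+* k) {N : ℕ} [NeZero N]

/-- The prime to `p` part attached to a set of primes. -/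
def levelOf (N : ℕ) (P : Finset ℕ) : ℕ := ∏ q ∈ P, q ^ N.factorization q

theorem exists_twist (hN : (N : k) ≠ 0) (P : Finset ℕ) (hP : ∀ q ∈ P, q.Prime) {p : ℕ} (hp : p.Prime)
    (hpP : p ∉ P) {i : ℕ} (hi : i < N.factorization p) :
    ∃ η : kˣ, η ^ N = 1 ∧
      (∀ q ∈ P, ∀ j ≤ N.factorization q, ∀ a, N / q ^ j ∣ a → η ^ a = 1) ∧
      (∀ i' ≤ i, ∀ a, N / p ^ i' ∣ a → η ^ a = 1) ∧
      ∀ d, d ∣ N / p ^ (i + 1) → IsPrimitiveRoot (η ^ (N / p ^ (i + 1))) p := by
  haveI : NeZero (N : k) := ⟨hN⟩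
  obtain ⟨z, hz⟩ := IsAlgClosed.exists_root (cyclotomic N k)
    (degree_cyclotomic_pos N k (Nat.pos_of_ne_zero (NeZero.ne N))).ne'
  have hzp : IsPrimitiveRoot z N := isRoot_cyclotomic_iff.mp hz
  set ζ : kˣ := (hzp.isUnit (NeZero.ne N)).unit
  have hζ : IsPrimitiveRoot ζ N := IsPrimitiveRoot.coe_units_iff.mp hzp
  set M := levelOf N P
  refine ⟨ζ ^ (M * p ^ i), ?_, fun q hq j hj a ha => ?_, fun i' hi' a ha => ?_, fun _ _ => ?_⟩
  · rw [← pow_mul, mul_comm, pow_mul, hζ.pow_eq_one, one_pow]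
  · rw [← pow_mul, hζ.pow_eq_one_iff_dvd, ← Nat.mul_div_cancel' (pow_dvd_N (N := N) hj)]
    exact mul_dvd_mul
      (((pow_dvd_pow q hj).trans (Finset.dvd_prod_of_mem (fun q => q ^ N.factorization q) hq)).trans
        (dvd_mul_right _ _)) ha
  · rw [← pow_mul, hζ.pow_eq_one_iff_dvd,
      ← Nat.mul_div_cancel' (pow_dvd_N (N := N) (hi'.trans hi.le))]
    exact mul_dvd_mul ((pow_dvd_pow p hi').trans (dvd_mul_left _ _)) ha
  · haveI : Fact p.Prime := ⟨hp⟩
    rw [← pow_mul]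
    refine (Nat.Prime.eq_one_or_self_of_dvd hp _ ?_).elim (fun h => absurd h ?_)
      (fun h => IsPrimitiveRoot.iff_orderOf.mpr h)
    · refine orderOf_dvd_of_pow_eq_one ?_
      rw [← pow_mul, hζ.pow_eq_one_iff_dvd, mul_assoc, mul_comm (N / p ^ (i + 1)) p,
        ← div_pow_eq hp.pos hi, mul_assoc, Nat.mul_div_cancel' (pow_dvd_N (N := N) hi.le)]
      exact dvd_mul_left _ _
    · rw [orderOf_eq_one_iff, hζ.pow_eq_one_iff_dvd]
      intro hdvd
      have hMN : M * p ^ i * (N / p ^ (i + 1)) * p = M * N := by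
        rw [mul_assoc, mul_assoc, mul_comm (N / p ^ (i + 1)) p, ← div_pow_eq hp.pos hi,
          Nat.mul_div_cancel' (pow_dvd_N (N := N) hi.le)]
      have h2 : N * p ∣ M * N := hMN ▸ Nat.mul_dvd_mul_right hdvd p
      rw [mul_comm M N] at h2
      have h3 : p ∣ M := (Nat.mul_dvd_mul_iff_left (Nat.pos_of_ne_zero (NeZero.ne N))).mp h2
      obtain ⟨q, hq, hpq⟩ := (hp.prime.dvd_finsetProd_iff _).mp h3
      exact hpP ((Nat.prime_eq_prime_of_dvd_pow hp (hP q hq) hpq).symm ▸ hq)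

include φ in
/-- An embedding of a chain field is fixed by the adapted twist. -/
theorem ambTwist_comp (hN : (N : k) ≠ 0) {P : Finset ℕ} {p i : ℕ} {η : kˣ} (hη : η ^ N = 1)
    (hi : i ≤ N.factorization p)
    (h1 : ∀ q ∈ P, ∀ j ≤ N.factorization q, ∀ a, N / q ^ j ∣ a → η ^ a = 1)
    (h2 : ∀ i' ≤ i, ∀ a, N / p ^ i' ∣ a → η ^ a = 1)
    (σ : adjoin (baseField k N) (chainSet (k := k) N P p i) →ₐ[baseField k N] Amb k)
    (y : adjoin (baseField k N) (chainSet (k := k) N P p i)) :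
    ambTwist η hη (σ y) = σ y := by
  obtain ⟨y, hy⟩ := y
  induction hy using adjoin_induction with
  | mem z hz =>
    rcases hz with ⟨q, hq, j, hj, rfl⟩ | ⟨i', hi', rfl⟩
    · obtain ⟨a, c, -, ha, hσ⟩ := image_gen φ hN σ q j hj
        (fun j' hj' => subset_adjoin _ _ (Or.inl ⟨q, hq, j', hj'.trans hj, rfl⟩))
        (subset_adjoin _ _ (Or.inl ⟨q, hq, j, hj, rfl⟩))
      rw [hσ, ambTwist_Xj, h1 q hq j hj a ha, mul_one]
    · obtain ⟨a, c, -, ha, hσ⟩ := image_gen φ hN σ p i' (hi'.trans hi)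
        (fun j' hj' => subset_adjoin _ _ (Or.inr ⟨j', hj'.trans hi', rfl⟩))
        (subset_adjoin _ _ (Or.inr ⟨i', hi', rfl⟩))
      rw [hσ, ambTwist_Xj, h2 i' hi' a ha, mul_one]
  | algebraMap r =>
    have : σ ⟨algebraMap (baseField k N) (Amb k) r, IntermediateField.algebraMap_mem _ r⟩
        = algebraMap (baseField k N) (Amb k) r := σ.commutes r
    rw [this, AlgHom.commutes]
  | add a b ha hb iha ihb =>
    have : σ ⟨a + b, add_mem ha hb⟩ = σ ⟨a, ha⟩ + σ ⟨b, hb⟩ := map_add σ ⟨a, ha⟩ ⟨b, hb⟩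
    rw [this, map_add, iha, ihb]
  | inv a ha iha =>
    have : σ ⟨a⁻¹, inv_mem ha⟩ = (σ ⟨a, ha⟩)⁻¹ := map_inv₀ σ ⟨a, ha⟩
    rw [this, map_inv₀, iha]
  | mul a b ha hb iha ihb =>
    have : σ ⟨a * b, mul_mem ha hb⟩ = σ ⟨a, ha⟩ * σ ⟨b, hb⟩ := map_mul σ ⟨a, ha⟩ ⟨b, hb⟩
    rw [this, map_mul, iha, ihb]

include φ in
/-- The conjugates of the next generator contain whole twist orbits. -/
theorem exists_conjugates (hN : (N : k) ≠ 0) {P : Finset ℕ} (hP : ∀ q ∈ P, q.Prime) {p : ℕ}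
    [Fact p.Prime] (hpP : p ∉ P) {i : ℕ} (hi : i < N.factorization p)
    (σ : adjoin (baseField k N) (chainSet (k := k) N P p i) →ₐ[baseField k N] Amb k) {c₁ : kˣ}
    (hroot : (minpolyVia σ (gen N p (i + 1))).eval (Xj (N / p ^ (i + 1)) c₁) = 0) :
    ∃ T : Finset (Amb k), T.card = p ∧
      (∀ z ∈ T, (minpolyVia σ (gen N p (i + 1))).eval z = 0) ∧
      ∀ z ∈ T, ∃ c, z = Xj (N / p ^ (i + 1)) c := by
  classical
  have hp : p.Prime := Fact.out
  obtain ⟨η, hη, h1, h2, h3⟩ := exists_twist hN P hP hp hpP hi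
  have hω := h3 1 (one_dvd _)
  have hd := div_pow_ne_zero (N := N) hp.pos hi
  refine ⟨(Finset.range p).image fun n => Xj (N / p ^ (i + 1)) (c₁ * (η ^ (N / p ^ (i + 1))) ^ n),
    ?_, ?_, ?_⟩
  · rw [Finset.card_image_of_injOn, Finset.card_range]
    intro m hm n hn h
    exact hω.pow_inj (Finset.mem_range.mp hm) (Finset.mem_range.mp hn)
      (mul_left_cancel (Xj_inj hd hd h).2)
  · intro z hz
    obtain ⟨n, -, rfl⟩ := Finset.mem_image.mp hz
    have hηn : (η ^ n) ^ N = 1 := by rw [← pow_mul, mul_comm, pow_mul, hη, one_pow]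
    have hz : Xj (N / p ^ (i + 1)) (c₁ * (η ^ (N / p ^ (i + 1))) ^ n)
        = ambTwist (η ^ n) hηn (Xj (N / p ^ (i + 1)) c₁) := by
      rw [ambTwist_Xj, ← pow_mul, ← pow_mul, mul_comm n]
    have hfix : (minpolyVia σ (gen N p (i + 1))).map (ambTwist (η ^ n) hηn).toRingHom
        = minpolyVia σ (gen N p (i + 1)) := by
      rw [minpolyVia, Polynomial.map_map]
      congr 1
      refine RingHom.ext fun y => ?_
      exact ambTwist_comp φ hN hηn hi.le
        (fun q hq j hj a ha => by rw [← pow_mul, mul_comm, pow_mul, h1 q hq j hj a ha, one_pow])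
        (fun i' hi' a ha => by rw [← pow_mul, mul_comm, pow_mul, h2 i' hi' a ha, one_pow]) σ y
    rw [hz, ← hfix]
    show (Polynomial.map _ _).eval ((ambTwist (η ^ n) hηn).toRingHom _) = 0
    rw [eval_map_apply, hroot, map_zero]
  · intro z hz
    obtain ⟨n, -, rfl⟩ := Finset.mem_image.mp hz
    exact ⟨_, rfl⟩

include φ in
theorem eval_modEqAt_of_minpolyVia {P : Finset ℕ} {p i : ℕ} [Fact p.Prime]
    (hi : i < N.factorization p)
    (σ : adjoin (baseField k N) (chainSet (k := k) N P p i) →ₐ[baseField k N] Amb k) {z : Amb k}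
    (hz : (minpolyVia σ (gen N p (i + 1))).eval z = 0) :
    (modEqAt p (σ ⟨_, subset_adjoin _ _ (Or.inr ⟨i, le_rfl, rfl⟩)⟩)).eval z = 0 := by
  set y : adjoin (baseField k N) (chainSet (k := k) N P p i) :=
    ⟨_, subset_adjoin _ _ (Or.inr ⟨i, le_rfl, rfl⟩)⟩
  have hdvd : minpoly (adjoin (baseField k N) (chainSet (k := k) N P p i)) (gen (k := k) N p (i + 1)) ∣
      modEqAt p y := by
    refine minpoly.dvd _ _ ?_
    rw [aeval_def, ← eval_map, map_modEqAt]
    exact (eval_modEqAt_gen φ (dvd_N_of_lt hi) i).1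
  obtain ⟨r, hr⟩ := Polynomial.map_dvd σ.toRingHom hdvd
  rw [map_modEqAt] at hr
  change (modEqAt p (σ.toRingHom y)).eval z = 0
  rw [hr, eval_mul]
  exact mul_eq_zero_of_left hz _

include φ in
theorem gen_one_not_mem_base {p : ℕ} [Fact p.Prime] (hpN : p ∣ N) (hpk : (p : k) ≠ 0) :
    gen (k := k) N p 1 ∉ baseField k N := by
  have hp : p.Prime := Fact.out
  haveI : NeZero p := ⟨hp.ne_zero⟩
  obtain ⟨e, he⟩ := hpN
  haveI : NeZero e := ⟨fun h => NeZero.ne N (by rw [he, h, mul_zero])⟩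
  set g : LaurentSeries k →ₐ[k] Amb k :=
    (IsScalarTower.toAlgHom k (LaurentSeries k) (Amb k)).comp (qExpandAlgHomC k e)
  have hg : ∀ a, g (J k a 1) = Xj (e * a) 1 := fun a => by
    show algebraMap _ _ (qExpand k e (J k a 1)) = _
    rw [qExpand_J, Xj]
  have hbase : (adjoin k {qExpand k p (jqModC k)}).map g = baseField k N := by
    rw [IntermediateField.adjoin_map, Set.image_singleton, baseField, ← J_one_unit, hg,
      show e * p = N by rw [he, mul_comm]]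
  have hx : gen (k := k) N p 1 = g (rootJ k p (zetaIn p φ) none) := by
    rw [rootJ, hg, gen, pow_one, he]
    congr 1
    ring
  intro h
  rw [hx, ← hbase] at h
  obtain ⟨x, hxm, hxe⟩ := IntermediateField.mem_map _ |>.mp h
  exact rootJ_none_not_mem_adjoin p hpk φ (g.injective hxe ▸ hxm)

end FLTAgent.Igusa
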