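import Mathlib.NumberTheory.Padics.RingHoms
import Fermat.Prelude.Def_GaloisRep_Flat
import Fermat.Prelude.Def_ModularCurve_X0ModL

/-!
# The Gauss valuation on `ℚ((q))` at `ℓ`, with residue series in `𝔽_ℓ((q))`
-/

set_option autoImplicit false
set_option linter.style.haveILetI false
set_option linter.unusedSectionVars false

noncomputable section

open ModularCurve HahnSeries

namespace FLTAgent.Igusa

variable (ℓ : ℕ) [Fact ℓ.Prime]

theorem not_dvd_den (x : ↥(GaloisRep.ratLocalizedAt ℓ)) : ¬ ℓ ∣ (x : ℚ).den := fun h =>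
  (Fact.out : ℓ.Prime).ne_one
    (Nat.eq_one_of_dvd_coprimes (x.2 : Nat.Coprime _ ℓ) h dvd_rfl)

/-- `ℤ_(ℓ) → ℤ_ℓ`. -/
def toPadicInt : ↥(GaloisRep.ratLocalizedAt ℓ) →+* ℤ_[ℓ] where
  toFun x := ⟨((x : ℚ) : ℚ_[ℓ]), Padic.norm_rat_le_one (not_dvd_den ℓ x)⟩
  map_one' := Subtype.ext (by simp)
  map_mul' x y := Subtype.ext (by simp)
  map_zero' := Subtype.ext (by simp)
  map_add' x y := Subtype.ext (by simp)

/-- Reduction `ℤ_(ℓ) → 𝔽_ℓ`. -/
def resHom : ↥(GaloisRep.ratLocalizedAt ℓ) →+* ZMod ℓ := PadicInt.toZMod.comp (toPadicInt ℓ)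

theorem resHom_mul_den (x : ↥(GaloisRep.ratLocalizedAt ℓ)) : resHom ℓ x * ((x : ℚ).den : ZMod ℓ) = ((x : ℚ).num : ZMod ℓ) := by
  have h : x * ((x : ℚ).den : ↥(GaloisRep.ratLocalizedAt ℓ)) = ((x : ℚ).num : ↥(GaloisRep.ratLocalizedAt ℓ)) := by
    refine Subtype.ext ?_
    rw [Subring.coe_mul]
    simp [Rat.mul_den_eq_num]
  simpa using congr_arg (resHom ℓ) h

/-- An element reducing to `0` is `ℓ` times an element with smaller numerator. -/
theorem exists_eq_mul_of_resHom_eq_zero {x : ↥(GaloisRep.ratLocalizedAt ℓ)} (h : resHom ℓ x = 0) :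
    ∃ y : ↥(GaloisRep.ratLocalizedAt ℓ), x = (ℓ : ↥(GaloisRep.ratLocalizedAt ℓ)) * y ∧ (x : ℚ).num = ℓ * (y : ℚ).num := by
  have hℓ : ℓ.Prime := Fact.out
  obtain ⟨n', hn'⟩ : (ℓ : ℤ) ∣ (x : ℚ).num := by
    rw [← ZMod.intCast_zmod_eq_zero_iff_dvd, ← resHom_mul_den, h, zero_mul]
  have hcop : n'.natAbs.Coprime (x : ℚ).den := by
    refine Nat.Coprime.coprime_dvd_left ?_ (x : ℚ).reduced
    rw [hn', Int.natAbs_mul]
    exact dvd_mul_left _ _
  refine ⟨⟨⟨n', (x : ℚ).den, (x : ℚ).den_nz, hcop⟩, x.2⟩, Subtype.ext ?_, hn'⟩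
  rw [Subring.coe_mul]
  simp only [SubringClass.coe_natCast]
  conv_lhs => rw [← Rat.num_div_den (x : ℚ), hn']
  conv_rhs => rw [← Rat.num_div_den (⟨n', (x : ℚ).den, (x : ℚ).den_nz, hcop⟩ : ℚ)]
  push_cast
  ring

/-- `ℤ_(ℓ)((q)) → ℚ((q))`. -/
def lift : LaurentSeries ↥(GaloisRep.ratLocalizedAt ℓ) →+* LaurentSeries ℚ := coeffMap (GaloisRep.ratLocalizedAt ℓ).subtype

/-- `ℤ_(ℓ)((q)) → 𝔽_ℓ((q))`. -/
def reduce : LaurentSeries ↥(GaloisRep.ratLocalizedAt ℓ) →+* LaurentSeries (ZMod ℓ) := coeffMap (resHom ℓ)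

theorem lift_injective : Function.Injective (lift ℓ) := fun a b h =>
  HahnSeries.ext (funext fun k =>
    Subtype.ext (congr_arg (fun z : LaurentSeries ℚ => z.coeff k) h))

theorem exists_eq_mul_of_reduce_eq_zero {a : LaurentSeries ↥(GaloisRep.ratLocalizedAt ℓ)} (h : reduce ℓ a = 0) :
    ∃ a', a = (ℓ : LaurentSeries ↥(GaloisRep.ratLocalizedAt ℓ)) * a' := by
  have hk : ∀ k, resHom ℓ (a.coeff k) = 0 := fun k =>
    congr_arg (fun z : LaurentSeries (ZMod ℓ) => z.coeff k) h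
  choose y hy _hy' using fun k => exists_eq_mul_of_resHom_eq_zero ℓ (hk k)
  refine ⟨⟨fun k => y k, a.isPWO_support.mono ?_⟩, ?_⟩
  · intro k hk'
    simp only [Function.mem_support] at hk'
    rw [HahnSeries.mem_support, hy k]
    exact mul_ne_zero (by
      intro e
      have := congr_arg Subtype.val e
      simp at this
      exact (Fact.out : ℓ.Prime).ne_zero this) hk'
  · ext k
    rw [← map_natCast (HahnSeries.C (Γ := ℤ) (R := ↥(GaloisRep.ratLocalizedAt ℓ))), HahnSeries.C_mul_eq_smul,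
      HahnSeries.coeff_smul, smul_eq_mul]
    exact congr_arg Subtype.val (hy k)

theorem exists_pow_mul_reduce_ne_zero {a : LaurentSeries ↥(GaloisRep.ratLocalizedAt ℓ)} (ha : a ≠ 0) :
    ∃ (n : ℕ) (a' : LaurentSeries ↥(GaloisRep.ratLocalizedAt ℓ)), a = (ℓ : LaurentSeries ↥(GaloisRep.ratLocalizedAt ℓ)) ^ n * a' ∧ reduce ℓ a' ≠ 0 := by
  obtain ⟨k, hk⟩ : ∃ k, a.coeff k ≠ 0 := by
    by_contra h
    push Not at h
    exact ha (HahnSeries.ext (funext h))
  induction hN : ((a.coeff k : ℚ).num.natAbs) using Nat.strong_induction_on generalizing a with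
  | _ N ih =>
    by_cases h : reduce ℓ a = 0
    · obtain ⟨a₁, rfl⟩ := exists_eq_mul_of_reduce_eq_zero ℓ h
      have hcoeff : ((ℓ : LaurentSeries ↥(GaloisRep.ratLocalizedAt ℓ)) * a₁).coeff k = (ℓ : ↥(GaloisRep.ratLocalizedAt ℓ)) * a₁.coeff k := by
        rw [← map_natCast (HahnSeries.C (Γ := ℤ) (R := ↥(GaloisRep.ratLocalizedAt ℓ))), HahnSeries.C_mul_eq_smul,
          HahnSeries.coeff_smul, smul_eq_mul]
      have hk1 : a₁.coeff k ≠ 0 := fun e => hk (by rw [hcoeff, e, mul_zero])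
      have ha1 : a₁ ≠ 0 := fun e => hk1 (by rw [e]; rfl)
      have hres : resHom ℓ (((ℓ : LaurentSeries ↥(GaloisRep.ratLocalizedAt ℓ)) * a₁).coeff k) = 0 :=
        congr_arg (fun z : LaurentSeries (ZMod ℓ) => z.coeff k) h
      obtain ⟨y, hy, hnum⟩ := exists_eq_mul_of_resHom_eq_zero ℓ hres
      have hℓ0 : (ℓ : ↥(GaloisRep.ratLocalizedAt ℓ)) ≠ 0 := fun e => hk (by rw [hcoeff, e, zero_mul])
      have hya : y = a₁.coeff k := mul_left_cancel₀ hℓ0 (hy.symm.trans hcoeff)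
      rw [hya] at hnum
      obtain ⟨n, a', he, ha'⟩ := ih _ (by
        rw [← hN, hnum, Int.natAbs_mul, Int.natAbs_natCast]
        refine lt_mul_of_one_lt_left ?_ (Fact.out : ℓ.Prime).one_lt
        rw [Int.natAbs_pos, Rat.num_ne_zero]
        exact fun e => hk1 (Subtype.ext e)) ha1 hk1 rfl
      exact ⟨n + 1, a', by rw [he, _root_.pow_succ']; ring, ha'⟩
    · exact ⟨0, a, by simp, h⟩

theorem reduce_natCast_self : reduce ℓ (ℓ : LaurentSeries ↥(GaloisRep.ratLocalizedAt ℓ)) = 0 := by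
  rw [map_natCast, ← map_natCast (HahnSeries.C (Γ := ℤ) (R := ZMod ℓ)), ZMod.natCast_self, map_zero]

theorem lift_natCast (n : ℕ) : lift ℓ (n : LaurentSeries ↥(GaloisRep.ratLocalizedAt ℓ)) = n := map_natCast _ n

theorem natCast_ne_zero_laurentRat : (ℓ : LaurentSeries ℚ) ≠ 0 := by
  rw [← map_natCast (HahnSeries.C (Γ := ℤ) (R := ℚ))]
  intro e
  exact Nat.cast_ne_zero.mpr (Fact.out : ℓ.Prime).ne_zero
    (HahnSeries.C_injective (e.trans (map_zero _).symm))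

/-- The valuation ring of the Gauss valuation. -/
def gaussRing : Subring (LaurentSeries ℚ) where
  carrier := {x | ∃ a b, reduce ℓ b ≠ 0 ∧ x * lift ℓ b = lift ℓ a}
  one_mem' := ⟨1, 1, by simp, by simp⟩
  zero_mem' := ⟨0, 1, by simp, by simp⟩
  mul_mem' := by
    rintro x y ⟨a, b, hb, he⟩ ⟨c, d, hd, hf⟩
    exact ⟨a * c, b * d, by rw [map_mul]; exact mul_ne_zero hb hd,
      by rw [map_mul, map_mul, mul_mul_mul_comm, he, hf]⟩
  add_mem' := by
    rintro x y ⟨a, b, hb, he⟩ ⟨c, d, hd, hf⟩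
    refine ⟨a * d + c * b, b * d, by rw [map_mul]; exact mul_ne_zero hb hd, ?_⟩
    rw [map_mul, map_add, map_mul, map_mul, ← he, ← hf]
    ring
  neg_mem' := by
    rintro x ⟨a, b, hb, he⟩
    exact ⟨-a, b, hb, by rw [map_neg, ← he, neg_mul]⟩

theorem mem_gaussRing_iff {x : LaurentSeries ℚ} :
    x ∈ gaussRing ℓ ↔ ∃ a b, reduce ℓ b ≠ 0 ∧ x * lift ℓ b = lift ℓ a := Iff.rfl

theorem redVal_unique {x : LaurentSeries ℚ} {a b c d : LaurentSeries ↥(GaloisRep.ratLocalizedAt ℓ)} (hb : reduce ℓ b ≠ 0)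
    (hd : reduce ℓ d ≠ 0) (he : x * lift ℓ b = lift ℓ a) (hf : x * lift ℓ d = lift ℓ c) :
    reduce ℓ a / reduce ℓ b = reduce ℓ c / reduce ℓ d := by
  rw [div_eq_div_iff hb hd, ← map_mul, ← map_mul]
  congr 1
  apply lift_injective ℓ
  rw [map_mul, map_mul, ← he, ← hf]
  ring

/-- Reduction on the Gauss valuation ring. -/
def redVal (x : gaussRing ℓ) : LaurentSeries (ZMod ℓ) :=
  reduce ℓ x.2.choose / reduce ℓ x.2.choose_spec.choose

theorem redVal_eq {x : gaussRing ℓ} {a b : LaurentSeries ↥(GaloisRep.ratLocalizedAt ℓ)} (hb : reduce ℓ b ≠ 0)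
    (he : (x : LaurentSeries ℚ) * lift ℓ b = lift ℓ a) : redVal ℓ x = reduce ℓ a / reduce ℓ b :=
  redVal_unique ℓ x.2.choose_spec.choose_spec.1 hb x.2.choose_spec.choose_spec.2 he

/-- Reduction, as a ring homomorphism. -/
def red : gaussRing ℓ →+* LaurentSeries (ZMod ℓ) where
  toFun := redVal ℓ
  map_one' := by
    rw [redVal_eq ℓ (x := 1) (a := 1) (b := 1) (by simp) (by simp), map_one, div_one]
  map_zero' := by
    rw [redVal_eq ℓ (x := 0) (a := 0) (b := 1) (by simp) (by simp), map_zero, zero_div]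
  map_mul' x y := by
    obtain ⟨a, b, hb, he⟩ := x.2
    obtain ⟨c, d, hd, hf⟩ := y.2
    rw [redVal_eq ℓ hb he, redVal_eq ℓ hd hf,
      redVal_eq ℓ (x := x * y) (a := a * c) (b := b * d) (by rw [map_mul]; exact mul_ne_zero hb hd)
        (by rw [Subring.coe_mul, map_mul, map_mul, mul_mul_mul_comm, he, hf]),
      map_mul, map_mul, mul_div_mul_comm]
  map_add' x y := by
    obtain ⟨a, b, hb, he⟩ := x.2
    obtain ⟨c, d, hd, hf⟩ := y.2
    rw [redVal_eq ℓ hb he, redVal_eq ℓ hd hf,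
      redVal_eq ℓ (x := x + y) (a := a * d + c * b) (b := b * d)
        (by rw [map_mul]; exact mul_ne_zero hb hd)
        (by rw [Subring.coe_add, map_mul, map_add, map_mul, map_mul, ← he, ← hf]; ring),
      map_add, map_mul, map_mul, map_mul, div_add_div _ _ hb hd]
    ring

theorem red_eq {x : gaussRing ℓ} {a b : LaurentSeries ↥(GaloisRep.ratLocalizedAt ℓ)}
    (hb : reduce ℓ b ≠ 0) (he : (x : LaurentSeries ℚ) * lift ℓ b = lift ℓ a) :
    red ℓ x = reduce ℓ a / reduce ℓ b :=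
  redVal_eq ℓ hb he

theorem lift_mem (a : LaurentSeries ↥(GaloisRep.ratLocalizedAt ℓ)) : lift ℓ a ∈ gaussRing ℓ :=
  ⟨a, 1, by simp, by simp⟩

theorem red_lift (a : LaurentSeries ↥(GaloisRep.ratLocalizedAt ℓ)) : red ℓ ⟨lift ℓ a, lift_mem ℓ a⟩ = reduce ℓ a := by
  show redVal ℓ _ = _
  rw [redVal_eq ℓ (a := a) (b := 1) (by simp) (by simp), map_one, div_one]

theorem red_natCast_self : red ℓ (ℓ : gaussRing ℓ) = 0 := by
  show redVal ℓ _ = _
  rw [redVal_eq ℓ (x := (ℓ : gaussRing ℓ)) (a := (ℓ : LaurentSeries ↥(GaloisRep.ratLocalizedAt ℓ))) (b := 1) (by simp)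
    (by simp [lift_natCast]), reduce_natCast_self, zero_div]

/-- Elements reducing to `0` are divisible by `ℓ`. -/
theorem exists_eq_mul_of_red_eq_zero {x : gaussRing ℓ} (h : red ℓ x = 0) :
    ∃ y : gaussRing ℓ, x = (ℓ : gaussRing ℓ) * y := by
  obtain ⟨a, b, hb, he⟩ := x.2
  change redVal ℓ x = 0 at h
  rw [redVal_eq ℓ hb he, div_eq_zero_iff] at h
  obtain ⟨a', rfl⟩ := exists_eq_mul_of_reduce_eq_zero ℓ (h.resolve_right hb)
  refine ⟨⟨(x : LaurentSeries ℚ) / ℓ, a', b, hb, ?_⟩, Subtype.ext ?_⟩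
  · rw [div_mul_eq_mul_div, he, map_mul, lift_natCast, mul_div_cancel_left₀ _
      (natCast_ne_zero_laurentRat ℓ)]
  · rw [Subring.coe_mul, SubringClass.coe_natCast, mul_div_cancel₀ _ (natCast_ne_zero_laurentRat ℓ)]

/-- The fraction field of `ℤ_(ℓ)((q))` inside `ℚ((q))`. -/
def boundedField : Subfield (LaurentSeries ℚ) where
  carrier := {x | ∃ a b, b ≠ 0 ∧ x * lift ℓ b = lift ℓ a}
  one_mem' := ⟨1, 1, one_ne_zero, by simp⟩
  zero_mem' := ⟨0, 1, one_ne_zero, by simp⟩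
  mul_mem' := by
    rintro x y ⟨a, b, hb, he⟩ ⟨c, d, hd, hf⟩
    exact ⟨a * c, b * d, mul_ne_zero hb hd, by rw [map_mul, map_mul, mul_mul_mul_comm, he, hf]⟩
  add_mem' := by
    rintro x y ⟨a, b, hb, he⟩ ⟨c, d, hd, hf⟩
    refine ⟨a * d + c * b, b * d, mul_ne_zero hb hd, ?_⟩
    rw [map_mul, map_add, map_mul, map_mul, ← he, ← hf]
    ring
  neg_mem' := by
    rintro x ⟨a, b, hb, he⟩
    exact ⟨-a, b, hb, by rw [map_neg, ← he, neg_mul]⟩
  inv_mem' := by
    rintro x ⟨a, b, hb, he⟩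
    rcases eq_or_ne a 0 with rfl | ha
    · have hx : x = 0 := by
        rw [map_zero, mul_eq_zero, map_eq_zero_iff _ (lift_injective ℓ)] at he
        exact he.resolve_right hb
      exact ⟨0, 1, one_ne_zero, by simp [hx]⟩
    · refine ⟨b, a, ha, ?_⟩
      rw [← he, ← mul_assoc, inv_mul_cancel₀, one_mul]
      rintro rfl
      rw [zero_mul] at he
      exact ha ((map_eq_zero_iff _ (lift_injective ℓ)).mp he.symm)

theorem mem_gaussRing_or_inv {x : LaurentSeries ℚ} (hx : x ∈ boundedField ℓ) :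
    x ∈ gaussRing ℓ ∨ ∃ h : x⁻¹ ∈ gaussRing ℓ, red ℓ ⟨x⁻¹, h⟩ = 0 := by
  obtain ⟨a, b, hb, he⟩ := hx
  obtain ⟨m, b', hb', hb''⟩ := exists_pow_mul_reduce_ne_zero ℓ hb
  have hℓ := natCast_ne_zero_laurentRat ℓ
  rcases eq_or_ne a 0 with rfl | ha
  · refine Or.inl ?_
    rw [map_zero, mul_eq_zero, map_eq_zero_iff _ (lift_injective ℓ)] at he
    rw [he.resolve_right hb]
    exact zero_mem _
  obtain ⟨n, a', ha', ha''⟩ := exists_pow_mul_reduce_ne_zero ℓ ha
  rw [hb', ha', map_mul, map_mul, map_pow, map_pow, lift_natCast] at he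
  have hx0 : x ≠ 0 := by
    rintro rfl
    rw [zero_mul] at he
    rcases mul_eq_zero.mp he.symm with h | h
    · exact pow_ne_zero n hℓ h
    · exact ha'' (by rw [(map_eq_zero_iff _ (lift_injective ℓ)).mp h, map_zero])
  rcases le_or_gt m n with hmn | hnm
  · obtain ⟨e, rfl⟩ := Nat.exists_eq_add_of_le hmn
    refine Or.inl ⟨(ℓ : LaurentSeries ↥(GaloisRep.ratLocalizedAt ℓ)) ^ e * a', b', hb'', ?_⟩
    rw [map_mul, map_pow, lift_natCast]
    apply mul_left_cancel₀ (pow_ne_zero m hℓ)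
    linear_combination he
  · obtain ⟨e, rfl⟩ := Nat.exists_eq_add_of_lt hnm
    have hinv : x⁻¹ * lift ℓ a' = lift ℓ ((ℓ : LaurentSeries ↥(GaloisRep.ratLocalizedAt ℓ)) ^ (e + 1) * b') := by
      rw [inv_mul_eq_iff_eq_mul₀ hx0, map_mul, map_pow, lift_natCast]
      apply mul_left_cancel₀ (pow_ne_zero n hℓ)
      linear_combination -he
    have hmem : x⁻¹ ∈ gaussRing ℓ := ⟨_, a', ha'', hinv⟩
    refine Or.inr ⟨hmem, ?_⟩
    rw [red_eq ℓ (x := ⟨x⁻¹, hmem⟩) ha'' hinv, map_mul, map_pow, reduce_natCast_self,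
      zero_pow (Nat.succ_ne_zero e), zero_mul, zero_div]

theorem algebraMap_rat_mem_boundedField (r : ℚ) :
    algebraMap ℚ (LaurentSeries ℚ) r ∈ boundedField ℓ := by
  rw [algebraMap_laurentSeries_eq_single, ← HahnSeries.C_apply]
  refine ⟨(r.num : LaurentSeries ↥(GaloisRep.ratLocalizedAt ℓ)), (r.den : LaurentSeries ↥(GaloisRep.ratLocalizedAt ℓ)), ?_, ?_⟩
  · intro e
    have := congr_arg (lift ℓ) e
    rw [lift_natCast, map_zero, ← map_natCast (HahnSeries.C (Γ := ℤ) (R := ℚ))] at this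
    exact Nat.cast_ne_zero.mpr r.den_nz (HahnSeries.C_injective (this.trans (map_zero _).symm))
  · rw [lift_natCast, map_intCast, ← map_natCast (HahnSeries.C (Γ := ℤ) (R := ℚ)), ← map_mul,
      ← map_intCast (HahnSeries.C (Γ := ℤ) (R := ℚ)), Rat.mul_den_eq_num]

theorem qExpand_jq_eq_lift (d : ℕ) [NeZero d] :
    qExpand ℚ d jq = lift ℓ (qExpand ↥(GaloisRep.ratLocalizedAt ℓ) d (jqModC ↥(GaloisRep.ratLocalizedAt ℓ))) := by
  rw [lift, coeffMap_qExpand, coeffMap_jqModC, jqModC_rat]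

theorem reduce_qExpand_jqModC (d : ℕ) [NeZero d] :
    reduce ℓ (qExpand ↥(GaloisRep.ratLocalizedAt ℓ) d (jqModC ↥(GaloisRep.ratLocalizedAt ℓ))) = qExpand (ZMod ℓ) d (jqModC (ZMod ℓ)) := by
  rw [reduce, coeffMap_qExpand, coeffMap_jqModC]

theorem modularFunctionFieldFull_le_boundedField (N : ℕ) {x : LaurentSeries ℚ}
    (hx : x ∈ modularFunctionFieldFull N) : x ∈ boundedField ℓ := by
  unfold modularFunctionFieldFull at hx
  induction hx using IntermediateField.adjoin_induction with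
  | mem z hz =>
    obtain ⟨d, hd0, hd, rfl⟩ := hz
    refine ⟨qExpand _ d (jqModC ↥(GaloisRep.ratLocalizedAt ℓ)), 1, one_ne_zero, ?_⟩
    rw [map_one, mul_one, qExpand_jq_eq_lift ℓ d]
  | algebraMap r => exact algebraMap_rat_mem_boundedField ℓ r
  | add a b _ _ ha hb => exact add_mem ha hb
  | inv a _ ha => exact inv_mem ha
  | mul a b _ _ ha hb => exact mul_mem ha hb

end FLTAgent.Igusa
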