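import Mathlib.FieldTheory.RatFunc.AsPolynomial
import Mathlib.FieldTheory.IntermediateField.Adjoin.Basic
import Mathlib.RingTheory.Polynomial.UniqueFactorization
import Mathlib.RingTheory.IntegralClosure.IntegrallyClosed

/-!
# Integral elements of `k(t)` lie in `k[t]`
-/

set_option autoImplicit false

noncomputable section

open Polynomial

namespace FLTAgent.Igusa

variable {k L : Type*} [Field k] [Field L] [Algebra k L]

/-- An element of `k(t)`, `t` transcendental, which is integral over `k[t]` lies in `k[t]`. -/
theorem mem_range_aeval_of_isIntegralElem {t : L} (ht : Function.Injective (aeval (R := k) t))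
    {x : L} (hx : x ∈ IntermediateField.adjoin k {t})
    (hint : (aeval (R := k) t).toRingHom.IsIntegralElem x) : ∃ q : k[X], x = aeval t q := by
  obtain ⟨r, s, hrs⟩ := (IntermediateField.mem_adjoin_simple_iff k x).mp hx
  rcases eq_or_ne s 0 with rfl | hs
  · exact ⟨0, by simp [hrs]⟩
  have hle : nonZeroDivisors k[X] ≤ (nonZeroDivisors L).comap (aeval (R := k) t).toRingHom := fun q hq =>
    mem_nonZeroDivisors_of_ne_zero fun h =>
      nonZeroDivisors.ne_zero hq (ht (h.trans (map_zero (aeval (R := k) t)).symm))
  let e : RatFunc k →+* L := RatFunc.liftRingHom (aeval (R := k) t).toRingHom hle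
  have he : ∀ q : k[X], e (algebraMap k[X] (RatFunc k) q) = aeval t q := fun q => by
    have := RatFunc.liftRingHom_apply_div (φ := (aeval (R := k) t).toRingHom) (hφ := hle) q 1
    simpa [e] using this
  have hz : e (algebraMap k[X] (RatFunc k) r / algebraMap k[X] (RatFunc k) s) = x := by
    rw [map_div₀, he, he, hrs]
  obtain ⟨P, hP, hPx⟩ := hint
  have hzint : IsIntegral k[X] (algebraMap k[X] (RatFunc k) r / algebraMap k[X] (RatFunc k) s) := by
    refine ⟨P, hP, e.injective ?_⟩
    rw [map_zero, hom_eval₂, hz,
      show e.comp (algebraMap k[X] (RatFunc k)) = (aeval (R := k) t).toRingHom from RingHom.ext he]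
    exact hPx
  obtain ⟨q, hq⟩ := IsIntegrallyClosed.isIntegral_iff.mp hzint
  exact ⟨q, by rw [← he, hq, hz]⟩

/-- Transcendence from the leading term: if `t ^ i` starts strictly later for smaller `i`. -/
theorem injective_aeval_of_leading {c : L → ℕ → k} (t : L)
    (hlin : ∀ (q : k[X]), c (aeval t q) q.natDegree = q.leadingCoeff)
    (hzero : ∀ n, c 0 n = 0) : Function.Injective (aeval (R := k) t) := by
  rw [injective_iff_map_eq_zero]
  intro q hq
  have := hlin q
  rw [hq, hzero] at this
  exact leadingCoeff_eq_zero.mp this.symm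

end FLTAgent.Igusa
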