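import Fermat.Agent.Igusa.Gauss
import Fermat.Agent.Igusa.RationalOf
import Mathlib.RingTheory.Localization.Integral
import Mathlib.Algebra.Polynomial.Reverse

/-!
# Integral closedness of the Gauss ring; rational functions of a series with reduction
-/

set_option autoImplicit false
set_option linter.style.haveILetI false
set_option linter.unusedSectionVars false

noncomputable section

open Polynomial ModularCurve

namespace FLTAgent.Igusa

variable (ℓ : ℕ) [Fact ℓ.Prime]

theorem mem_gaussRing_of_monic {x : LaurentSeries ℚ} (hx : x ∈ boundedField ℓ)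
    {P : Polynomial (gaussRing ℓ)} (hP : P.Monic) (h : P.eval₂ (gaussRing ℓ).subtype x = 0) :
    x ∈ gaussRing ℓ := by
  rcases mem_gaussRing_or_inv ℓ hx with hmem | ⟨hi, hred⟩
  · exact hmem
  rcases eq_or_ne x 0 with rfl | hx0
  · exact zero_mem _
  exfalso
  haveI : Invertible x := invertibleOfNonzero hx0
  have h1 : eval₂ (gaussRing ℓ).subtype x⁻¹ (reverse P) = 0 := by
    have := (eval₂_reverse_eq_zero_iff (gaussRing ℓ).subtype x P).mpr h
    rwa [invOf_eq_inv] at this
  have h2 : (reverse P).eval (⟨x⁻¹, hi⟩ : gaussRing ℓ) = 0 := by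
    refine Subtype.val_injective ?_
    change (gaussRing ℓ).subtype _ = (0 : LaurentSeries ℚ)
    rw [← eval₂_at_apply]
    exact h1
  have h3 := congr_arg (red ℓ) h2
  rw [map_zero, ← eval₂_at_apply, hred, eval₂_at_zero, coeff_zero_reverse, hP.leadingCoeff,
    map_one] at h3
  exact one_ne_zero h3

/-- Evaluation of integral polynomials at a series. -/
def evInt (t : LaurentSeries ℚ) : Polynomial ℤ →+* LaurentSeries ℚ :=
  eval₂RingHom (Int.castRingHom _) t

theorem evInt_eq_aeval (t : LaurentSeries ℚ) (P : Polynomial ℤ) :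
    evInt t P = aeval t (P.map (Int.castRingHom ℚ)) := by
  rw [evInt, coe_eval₂RingHom, aeval_def, eval₂_map,
    RingHom.ext_int ((algebraMap ℚ (LaurentSeries ℚ)).comp (Int.castRingHom ℚ)) (Int.castRingHom _)]

theorem evInt_mem (t : gaussRing ℓ) (P : Polynomial ℤ) :
    evInt (t : LaurentSeries ℚ) P ∈ gaussRing ℓ ∧
      ∀ h, red ℓ ⟨evInt (t : LaurentSeries ℚ) P, h⟩ =
        aeval (red ℓ t) (P.map (Int.castRingHom (ZMod ℓ))) := by
  have he : evInt (t : LaurentSeries ℚ) P =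
      ((P.eval₂ (Int.castRingHom (gaussRing ℓ)) t : gaussRing ℓ) : LaurentSeries ℚ) := by
    show _ = (gaussRing ℓ).subtype _
    rw [hom_eval₂, RingHom.ext_int ((gaussRing ℓ).subtype.comp (Int.castRingHom _)) (Int.castRingHom _)]
    rfl
  refine ⟨he ▸ SetLike.coe_mem _, fun h => ?_⟩
  rw [show (⟨evInt (t : LaurentSeries ℚ) P, h⟩ : gaussRing ℓ) = P.eval₂ (Int.castRingHom _) t from
    Subtype.ext he, hom_eval₂, aeval_def, eval₂_map,
    RingHom.ext_int ((red ℓ).comp (Int.castRingHom _))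
      ((algebraMap (ZMod ℓ) (LaurentSeries (ZMod ℓ))).comp (Int.castRingHom (ZMod ℓ)))]

/-- Remove the common power of `ℓ` from two integral polynomials. -/
theorem exists_normalized (r s : Polynomial ℤ) (hs : s ≠ 0) :
    ∃ (a : ℕ) (r' s' : Polynomial ℤ), r = C ((ℓ : ℤ) ^ a) * r' ∧ s = C ((ℓ : ℤ) ^ a) * s' ∧
      (r'.map (Int.castRingHom (ZMod ℓ)) ≠ 0 ∨ s'.map (Int.castRingHom (ZMod ℓ)) ≠ 0) := by
  induction hN : s.leadingCoeff.natAbs using Nat.strong_induction_on generalizing r s with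
  | _ M ih =>
    by_cases h : r.map (Int.castRingHom (ZMod ℓ)) = 0 ∧ s.map (Int.castRingHom (ZMod ℓ)) = 0
    · have hd : ∀ q : Polynomial ℤ, q.map (Int.castRingHom (ZMod ℓ)) = 0 → C (ℓ : ℤ) ∣ q := by
        intro q hq
        rw [C_dvd_iff_dvd_coeff]
        intro i
        rw [← ZMod.intCast_zmod_eq_zero_iff_dvd]
        have := congr_arg (fun z : Polynomial (ZMod ℓ) => z.coeff i) hq
        simpa using this
      obtain ⟨r₁, rfl⟩ := hd r h.1
      obtain ⟨s₁, rfl⟩ := hd s h.2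
      have hs₁ : s₁ ≠ 0 := right_ne_zero_of_mul hs
      obtain ⟨a, r', s', hr', hs', hne⟩ := ih s₁.leadingCoeff.natAbs (by
        rw [← hN, leadingCoeff_mul, leadingCoeff_C, Int.natAbs_mul, Int.natAbs_natCast]
        exact lt_mul_of_one_lt_left (Int.natAbs_pos.mpr (leadingCoeff_ne_zero.mpr hs₁))
          (Fact.out : ℓ.Prime).one_lt) r₁ s₁ hs₁ rfl
      exact ⟨a + 1, r', s', by rw [hr', pow_succ, map_mul]; ring,
        by rw [hs', pow_succ, map_mul]; ring, hne⟩
    · exact ⟨0, r, s, by simp, by simp, by tauto⟩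

theorem exists_int_multiple (P : Polynomial ℚ) :
    ∃ (n : ℤ) (Q : Polynomial ℤ), n ≠ 0 ∧ Q.map (Int.castRingHom ℚ) = Polynomial.C (n : ℚ) * P := by
  obtain ⟨⟨n, hn⟩, he⟩ := IsLocalization.integerNormalization_map_to_map (nonZeroDivisors ℤ) P
  refine ⟨n, IsLocalization.integerNormalization (nonZeroDivisors ℤ) P, nonZeroDivisors.ne_zero hn, ?_⟩
  rw [← algebraMap_int_eq, he]
  simp

variable (t : gaussRing ℓ)

/-- A rational function of `t` lying in the Gauss ring reduces to a rational function of the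
reduction of `t`. -/
theorem exists_reduced_fraction (htQ : Function.Injective (aeval (R := ℚ) (t : LaurentSeries ℚ)))
    (ht : Function.Injective (aeval (R := ZMod ℓ) (red ℓ t)))
    {c : LaurentSeries ℚ} (hc : c ∈ IntermediateField.adjoin ℚ {(t : LaurentSeries ℚ)})
    (hcg : c ∈ gaussRing ℓ) :
    ∃ P Q : Polynomial (ZMod ℓ), Q ≠ 0 ∧
      red ℓ ⟨c, hcg⟩ * aeval (red ℓ t) Q = aeval (red ℓ t) P := by
  obtain ⟨r, s, hrs⟩ := (IntermediateField.mem_adjoin_simple_iff ℚ c).mp hc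
  rcases eq_or_ne s 0 with rfl | hs
  · refine ⟨0, 1, one_ne_zero, ?_⟩
    have : (⟨c, hcg⟩ : gaussRing ℓ) = 0 := Subtype.ext (by simp [hrs])
    simp [this]
  obtain ⟨n, R, hn, hR⟩ := exists_int_multiple r
  obtain ⟨m, S, hm, hS⟩ := exists_int_multiple s
  have hS0 : Polynomial.C n * S ≠ 0 := by
    refine mul_ne_zero (fun e => hn (by simpa using congr_arg (fun q : Polynomial ℤ => q.coeff 0) e)) ?_
    intro e
    rw [e, Polynomial.map_zero] at hS
    exact mul_ne_zero (by simpa using hm) hs hS.symm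
  obtain ⟨a, R', S', hR', hS', hne⟩ := exists_normalized ℓ (Polynomial.C m * R) (Polynomial.C n * S) hS0
  have hs0 : aeval (t : LaurentSeries ℚ) s ≠ 0 := fun e =>
    hs (htQ (e.trans (map_zero (aeval (R := ℚ) (t : LaurentSeries ℚ))).symm))
  have key : c * evInt (t : LaurentSeries ℚ) S' = evInt (t : LaurentSeries ℚ) R' := by
    have h1 : c * evInt (t : LaurentSeries ℚ) (Polynomial.C n * S) =
        evInt (t : LaurentSeries ℚ) (Polynomial.C m * R) := by
      simp only [evInt_eq_aeval, Polynomial.map_mul, Polynomial.map_C, hR, hS, map_mul, aeval_C]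
      rw [hrs, eq_intCast (Int.castRingHom ℚ), eq_intCast (Int.castRingHom ℚ)]
      field_simp
    rw [hR', hS', map_mul, map_mul, mul_left_comm] at h1
    refine mul_left_cancel₀ ?_ h1
    rw [evInt, coe_eval₂RingHom, eval₂_C, map_pow, eq_intCast, Int.cast_natCast]
    exact pow_ne_zero _ (natCast_ne_zero_laurentRat ℓ)
  obtain ⟨hmS, hredS⟩ := evInt_mem ℓ t S'
  obtain ⟨hmR, hredR⟩ := evInt_mem ℓ t R'
  have hred := congr_arg (red ℓ) (Subtype.ext key :
    (⟨c, hcg⟩ : gaussRing ℓ) * ⟨_, hmS⟩ = ⟨_, hmR⟩)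
  rw [map_mul, hredS, hredR] at hred
  refine ⟨R'.map (Int.castRingHom (ZMod ℓ)), S'.map (Int.castRingHom (ZMod ℓ)), ?_, hred⟩
  intro e
  rw [e, map_zero, mul_zero] at hred
  exact (hne.resolve_right (fun hh => hh e)) (ht (hred.symm.trans (map_zero _).symm))

/-- A polynomial in `t` lying in the Gauss ring has coefficients in `ℤ_(ℓ)`. -/
theorem exists_local_polynomial (htQ : Function.Injective (aeval (R := ℚ) (t : LaurentSeries ℚ)))
    (ht : Function.Injective (aeval (R := ZMod ℓ) (red ℓ t)))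
    {P : Polynomial ℚ} (hP : aeval (t : LaurentSeries ℚ) P ∈ gaussRing ℓ) :
    ∃ p : Polynomial ↥(GaloisRep.ratLocalizedAt ℓ),
      p.map (GaloisRep.ratLocalizedAt ℓ).subtype = P := by
  obtain ⟨n, R, hn, hR⟩ := exists_int_multiple P
  obtain ⟨a, R', S', hR', hS', hne⟩ := exists_normalized ℓ R (Polynomial.C n) (by simpa using hn)
  have hS'deg : S' = Polynomial.C (S'.coeff 0) := by
    refine eq_C_of_natDegree_eq_zero ?_
    have h := congr_arg natDegree hS'
    rw [natDegree_C, natDegree_C_mul (pow_ne_zero _ (Int.natCast_ne_zero.mpr (Fact.out : ℓ.Prime).ne_zero))] at h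
    exact h.symm
  set n' : ℤ := S'.coeff 0
  have hnn : n = (ℓ : ℤ) ^ a * n' := by
    have h := congr_arg (fun q : Polynomial ℤ => q.coeff 0) hS'
    simp only [Polynomial.coeff_C_mul, Polynomial.coeff_C_zero] at h
    exact h
  have hR'P : R'.map (Int.castRingHom ℚ) = Polynomial.C (n' : ℚ) * P := by
    rw [hR', Polynomial.map_mul, Polynomial.map_C, hnn, Int.cast_mul, map_mul, mul_assoc,
      eq_intCast (Int.castRingHom ℚ)] at hR
    refine mul_left_cancel₀ ?_ hR
    rw [Ne, Polynomial.C_eq_zero, Int.cast_pow, Int.cast_natCast]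
    exact pow_ne_zero _ (Nat.cast_ne_zero.mpr (Fact.out : ℓ.Prime).ne_zero)
  have key : evInt (t : LaurentSeries ℚ) R' =
      evInt (t : LaurentSeries ℚ) (Polynomial.C n') * aeval (t : LaurentSeries ℚ) P := by
    rw [evInt_eq_aeval, evInt_eq_aeval, hR'P, map_mul, Polynomial.map_C, eq_intCast]
  obtain ⟨hmS, hredS⟩ := evInt_mem ℓ t (Polynomial.C n')
  obtain ⟨hmR, hredR⟩ := evInt_mem ℓ t R'
  have hred := congr_arg (red ℓ) (Subtype.ext key :
    (⟨_, hmR⟩ : gaussRing ℓ) = ⟨_, hmS⟩ * ⟨_, hP⟩)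
  rw [map_mul, hredS, hredR, Polynomial.map_C] at hred
  have hn' : ¬ (ℓ : ℤ) ∣ n' := by
    intro hd
    rw [← ZMod.intCast_zmod_eq_zero_iff_dvd] at hd
    rw [eq_intCast, hd, map_zero, map_zero, zero_mul] at hred
    refine hne.elim (fun h => h (ht (hred.trans (map_zero _).symm))) (fun h => h ?_)
    rw [hS'deg, Polynomial.map_C, eq_intCast, hd, map_zero]
  have hn'0 : (n' : ℚ) ≠ 0 := Int.cast_ne_zero.mpr fun e => hn' (e ▸ dvd_zero _)
  have hmem : ((n' : ℚ)⁻¹) ∈ GaloisRep.ratLocalizedAt ℓ := by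
    show Nat.Coprime _ ℓ
    have hn0 : n' ≠ 0 := fun e => hn' (e ▸ dvd_zero _)
    rw [Rat.inv_intCast_den, if_neg hn0]
    exact ((Fact.out : ℓ.Prime).coprime_iff_not_dvd.mpr fun h =>
      hn' (Int.natCast_dvd.mpr h)).symm
  refine ⟨R'.map (Int.castRingHom _) * Polynomial.C ⟨_, hmem⟩, ?_⟩
  rw [Polynomial.map_mul, Polynomial.map_map, Polynomial.map_C,
    RingHom.ext_int ((GaloisRep.ratLocalizedAt ℓ).subtype.comp (Int.castRingHom _)) (Int.castRingHom ℚ),
    hR'P, mul_right_comm, ← map_mul]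
  simp [mul_inv_cancel₀ hn'0]

end FLTAgent.Igusa
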