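import Mathlib.RingTheory.MvPolynomial.Symmetric.NewtonIdentities
import Mathlib.RingTheory.Polynomial.Vieta
import Mathlib.Algebra.Polynomial.Div
import Mathlib.Algebra.Polynomial.Lifts
import Mathlib.Algebra.Polynomial.Roots

/-!
# From power sums to polynomials over a subring
-/

set_option autoImplicit false

noncomputable section

open Polynomial Finset

namespace FLTAgent.Igusa

variable {K : Type*} [Field K] {ι : Type*} [Fintype ι] (S : Subring K)

/-- Over a subring closed under division by positive integers, power sums determine the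
coefficients of `∏ (X - x i)`. -/
theorem coeff_prod_X_sub_C_mem (hdiv : ∀ (n : ℕ) (x : K), n ≠ 0 → (n : K) * x ∈ S → x ∈ S)
    (x : ι → K) (hpsum : ∀ n, ∑ i, x i ^ n ∈ S) (k : ℕ) :
    (∏ i, (X - C (x i))).coeff k ∈ S := by
  classical
  have hesymm : ∀ n, (univ.val.map x).esymm n ∈ S := by
    intro n
    induction n using Nat.strong_induction_on with
    | _ n ih =>
      rcases eq_or_ne n 0 with rfl | hn
      · simp [Multiset.esymm, one_mem]
      refine hdiv n _ hn ?_
      have h := congr_arg (MvPolynomial.aeval x) (MvPolynomial.mul_esymm_eq_sum ι ℤ n)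
      simp only [map_mul, map_natCast, map_pow, map_neg, map_one, map_sum,
        MvPolynomial.aeval_esymm_eq_multiset_esymm] at h
      rw [h]
      refine S.mul_mem (pow_mem (neg_mem (one_mem S)) _) (sum_mem fun a ha => ?_)
      refine S.mul_mem (S.mul_mem (pow_mem (neg_mem (one_mem S)) _) (ih _ (mem_filter.mp ha).2)) ?_
      simpa [MvPolynomial.psum] using hpsum a.2
  have hprod : ∏ i, (X - C (x i)) = ((univ.val.map x).map fun t => X - C t).prod := by
    rw [Multiset.map_map]; rfl
  by_cases hk : k ≤ Multiset.card (univ.val.map x)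
  · rw [hprod, Multiset.prod_X_sub_C_coeff _ hk]
    exact S.mul_mem (pow_mem (neg_mem (one_mem S)) _) (hesymm _)
  · rw [hprod, coeff_eq_zero_of_natDegree_lt]
    · exact zero_mem S
    · rw [natDegree_multiset_prod_X_sub_C_eq_card]
      omega

/-- If the power sums of all monomials `v ^ a * w ^ b` are in `S`, so is every trace
`∑ v i ^ a * Q (w i)` for `Q` with coefficients in `S`. -/
theorem sum_mul_eval_mem (v w : ι → K) (h : ∀ a b, ∑ i, v i ^ a * w i ^ b ∈ S)
    (Q : Polynomial S) (a : ℕ) : ∑ i, v i ^ a * Q.eval₂ S.subtype (w i) ∈ S := by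
  have : ∑ i, v i ^ a * Q.eval₂ S.subtype (w i) =
      ∑ n ∈ range (Q.natDegree + 1), (Q.coeff n : K) * ∑ i, v i ^ a * w i ^ n := by
    simp only [eval₂_eq_sum_range, Finset.mul_sum]
    rw [Finset.sum_comm]
    exact Finset.sum_congr rfl fun n _ => Finset.sum_congr rfl fun i _ => by
      rw [Subring.coe_subtype]; ring
  rw [this]
  exact sum_mem fun n _ => S.mul_mem (Q.coeff n).2 (h a n)

/-- The interpolation polynomial `∑ w i * ∏_{k ≠ i} (X - x k)` is defined over `S`. -/
theorem coeff_interpolation_mem [DecidableEq ι] (x w : ι → K)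
    (hprod : ∀ k, (∏ i, (X - C (x i))).coeff k ∈ S)
    (h : ∀ n, ∑ i, w i * x i ^ n ∈ S) (r : ℕ) :
    (∑ i, C (w i) * ∏ k ∈ univ.erase i, (X - C (x k))).coeff r ∈ S := by
  set P := ∏ i, (X - C (x i))
  have hdiv : ∀ i, ∏ k ∈ univ.erase i, (X - C (x k)) = P /ₘ (X - C (x i)) := fun i => by
    have hP : P = (X - C (x i)) * ∏ k ∈ univ.erase i, (X - C (x k)) :=
      (Finset.mul_prod_erase univ (fun k => X - C (x k)) (mem_univ i)).symm
    rw [hP, mul_divByMonic_cancel_left _ (monic_X_sub_C _)]
  rw [finsetSum_coeff]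
  simp only [coeff_C_mul, hdiv, coeff_divByMonic_X_sub_C, Finset.mul_sum]
  rw [Finset.sum_comm]
  refine sum_mem fun n _ => ?_
  simp only [← mul_assoc, ← Finset.sum_mul]
  exact S.mul_mem (h _) (hprod n)

/-- A polynomial all of whose coefficients lie in the range of `f` lifts. -/
theorem exists_map_eq_of_coeff_mem {R T : Type*} [CommRing R] [CommRing T] (f : R →+* T)
    (P : Polynomial T) (h : ∀ n, P.coeff n ∈ f.range) (hP : P.Monic) :
    ∃ Q : Polynomial R, Q.map f = P ∧ Q.Monic ∧ Q.natDegree = P.natDegree := by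
  obtain ⟨Q, h1, h2, h3⟩ :=
    lifts_and_natDegree_eq_and_monic ((lifts_iff_coeff_lifts P).mpr h) hP
  exact ⟨Q, h1, h3, h2⟩

end FLTAgent.Igusa
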