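import Fermat.Agent.Igusa.PrimeEquation
import Fermat.Agent.Igusa.RationalOf

/-!
# `j (q ^ p)` is not a rational function of `j` in characteristic `≠ p`
-/

set_option autoImplicit false
set_option linter.style.haveILetI false
set_option linter.unusedSectionVars false

noncomputable section

open HahnSeries ModularCurve Polynomial Finset

namespace FLTAgent.Igusa

variable {k : Type} [Field k] (p : ℕ) [NeZero p]

theorem aeval_qExpand_jqModC_coeff (q : k[X]) {n : ℕ} (hn : q.natDegree ≤ n) :
    (aeval (qExpand k p (jqModC k)) q).coeff (-((p : ℤ) * n)) = q.coeff n := by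
  rw [aeval_eq_sum_range' (Nat.lt_succ_of_le hn), HahnSeries.coeff_sum, Finset.sum_eq_single n]
  · rw [Algebra.smul_def, algebraMap_laurentSeries_eq_single, ← HahnSeries.C_apply,
      HahnSeries.C_mul_eq_smul, HahnSeries.coeff_smul, (coeff_qExpand_jqModC_pow p k n).1,
      smul_eq_mul, mul_one]
  · intro i hi hne
    rw [Algebra.smul_def, algebraMap_laurentSeries_eq_single, ← HahnSeries.C_apply,
      HahnSeries.C_mul_eq_smul, HahnSeries.coeff_smul,
      (coeff_qExpand_jqModC_pow p k n).2 i
        (lt_of_le_of_ne (Nat.lt_succ_iff.mp (Finset.mem_range.mp hi)) hne), smul_zero]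
  · simp

theorem injective_aeval_qExpand_jqModC :
    Function.Injective (aeval (R := k) (qExpand k p (jqModC k))) :=
  injective_aeval_of_leading (c := fun x n => x.coeff (-((p : ℤ) * n))) _
    (fun q => aeval_qExpand_jqModC_coeff p q le_rfl) fun _ => rfl

theorem evZ_eq_aeval (P : Polynomial ℤ) :
    evZ p k P = aeval (qExpand k p (jqModC k)) (P.map (Int.castRingHom k)) := by
  rw [evZ, coe_eval₂RingHom, aeval_def, eval₂_map,
    RingHom.ext_int ((algebraMap k (LaurentSeries k)).comp (Int.castRingHom k)) (Int.castRingHom _)]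

theorem eval_prod_X_sub_C_derivative {R ι : Type*} [CommRing R] [DecidableEq ι] (s : Finset ι)
    (x : ι → R) {o : ι} (ho : o ∈ s) :
    (derivative (∏ i ∈ s, (X - Polynomial.C (x i)))).eval (x o) =
      (∏ i ∈ s.erase o, (X - Polynomial.C (x i))).eval (x o) := by
  rw [← Finset.mul_prod_erase s _ ho, derivative_mul, eval_add, eval_mul, eval_mul]
  simp

theorem rootJ_none_not_mem_adjoin [Fact p.Prime] (hpk : (p : k) ≠ 0) (φ : AlgInt →+* k) :
    rootJ k p (zetaIn p φ) none ∉ IntermediateField.adjoin k {qExpand k p (jqModC k)} := by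
  classical
  have hp : p.Prime := Fact.out
  obtain ⟨Φ, G, U, -, hGmon, -, hEq⟩ := exists_modularEquations p hp
  obtain ⟨hΦ, hG, hU⟩ := hEq k φ
  set ζ := zetaIn p φ
  set x := rootJ k p ζ with hx
  set w := rootW k p ζ with hw
  set y := qExpand k p (jqModC k)
  set K := IntermediateField.adjoin k {y}
  intro hmem
  have hev : ∀ P : Polynomial ℤ, evZ p k P ∈ K := fun P => by
    rw [evZ_eq_aeval]
    exact IntermediateField.algebra_adjoin_le_adjoin k {y} (Polynomial.aeval_mem_adjoin_singleton k y)
  have heval : ∀ Q : Polynomial (Polynomial ℤ), (Q.map (evZ p k)).eval (x none) ∈ K := fun Q => by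
    rw [eval_eq_sum_range]
    exact sum_mem fun i _ => mul_mem (by rw [Polynomial.coeff_map]; exact hev _) (pow_mem hmem _)
  -- `U (x) = w * Φ' (x)`
  have hUx : (U.map (evZ p k)).eval (x none) =
      w none * (derivative Φ |>.map (evZ p k)).eval (x none) := by
    rw [hU, eval_finsetSum, Finset.sum_eq_single none]
    · rw [eval_mul, eval_C, ← Polynomial.derivative_map, hΦ,
        eval_prod_X_sub_C_derivative _ _ (mem_univ none)]
    · intro o _ ho
      rw [eval_mul, eval_prod, Finset.prod_eq_zero (i := none)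
        (Finset.mem_erase.mpr ⟨ho.symm, mem_univ _⟩) (by simp [hx]), mul_zero]
    · simp
  have hder : (derivative Φ |>.map (evZ p k)).eval (x none) ≠ 0 := by
    rw [← Polynomial.derivative_map, hΦ, eval_prod_X_sub_C_derivative _ _ (mem_univ none),
      eval_prod]
    refine Finset.prod_ne_zero_iff.mpr fun o ho => ?_
    obtain ⟨i, rfl⟩ : ∃ i, o = some i := Option.ne_none_iff_exists'.mp (Finset.mem_erase.mp ho).1
    rw [eval_sub, eval_X, eval_C, sub_ne_zero]
    intro h
    have hh := (J_inj (R := k) (a := p * p) (b := 1) h).1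
    have h2 : 2 * 2 ≤ p * p := Nat.mul_le_mul hp.two_le hp.two_le
    omega
  have hwK : w none ∈ K := by
    have : w none = (U.map (evZ p k)).eval (x none) / (derivative Φ |>.map (evZ p k)).eval (x none) := by
      rw [hUx, mul_div_assoc, div_self hder, mul_one]
    rw [this]
    exact div_mem (heval U) (heval _)
  have hint : (aeval (R := k) y).toRingHom.IsIntegralElem (w none) := by
    refine ⟨G.map (mapRingHom (Int.castRingHom k)), hGmon.map _, ?_⟩
    rw [eval₂_map, eval₂_eq_eval_map,
      show (aeval (R := k) y).toRingHom.comp (mapRingHom (Int.castRingHom k)) = evZ p k from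
        RingHom.ext fun P => (evZ_eq_aeval p P).symm, hG, eval_prod]
    exact Finset.prod_eq_zero (mem_univ none) (by simp [hw])
  obtain ⟨q, hq⟩ := mem_range_aeval_of_isIntegralElem (injective_aeval_qExpand_jqModC p) hwK hint
  have hne : w none ≠ 0 := by
    have hD : qExpand k (p * p) (ofZ k psD) ≠ 0 := fun h =>
      left_ne_zero_of_mul_eq_one (psD_mul_sDinv k) ((map_eq_zero_iff _ (qExpand_injective _)).mp h)
    have hDi : qExpand k p (sDinv k) ≠ 0 := fun h =>
      right_ne_zero_of_mul_eq_one (psD_mul_sDinv k) ((map_eq_zero_iff _ (qExpand_injective p)).mp h)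
    exact mul_ne_zero (mul_ne_zero (pow_ne_zero _ (natCast_ne_zero_laurent hpk)) hD) hDi
  have h0 : (w none).coeff (-((p : ℤ) * q.natDegree)) = 0 := by
    obtain ⟨u, hu⟩ := exists_rootW_eq p ζ none
    rw [hw, hu, coeff_single_mul, one_mul]
    refine ofPowerSeries_coeff_of_neg _ ?_
    simp only [Option.elim]
    have h1 : (p : ℤ) * 1 < (p : ℤ) * p :=
      mul_lt_mul_of_pos_left (by exact_mod_cast hp.one_lt) (by exact_mod_cast hp.pos)
    have h2 : (0 : ℤ) ≤ (p : ℤ) * q.natDegree := mul_nonneg (Int.natCast_nonneg _) (Int.natCast_nonneg _)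
    omega
  rw [hq, aeval_qExpand_jqModC_coeff p q le_rfl, coeff_natDegree, Polynomial.leadingCoeff_eq_zero] at h0
  exact hne (by rw [hq, h0, map_zero])

end FLTAgent.Igusa
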