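import Mathlib.RingTheory.RootsOfUnity.Complex
import Mathlib.RingTheory.IntegralClosure.IsIntegralClosure.Basic
import Fermat.Agent.Igusa.Subst
import Fermat.Agent.Igusa.LevelOne
import Fermat.Agent.Igusa.PowerSums

/-!
# The modular equations of prime level for `j`, for `Δ (pτ) / Δ (τ)`, and their interpolation

Everything is stated on series in `t`, `t ^ p = q`, over the ring of algebraic integers, and is
transported to an arbitrary ring receiving it.
-/

set_option autoImplicit false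
set_option linter.style.haveILetI false
set_option linter.unusedSectionVars false

noncomputable section

open HahnSeries ModularCurve Polynomial Finset
open FLTAgent.ModPoly (twist twist_coeff twist_single twist_ofPowerSeries qExpand_ofPowerSeries
  twist_one_unit coeffMap_twist)

namespace FLTAgent.Igusa

section Series

variable (R : Type*) [CommRing R]

/-- An integral power series as a Laurent series over `R`. -/
def ofZ : PowerSeries ℤ →+* LaurentSeries R :=
  (HahnSeries.ofPowerSeries ℤ R).comp (PowerSeries.map (Int.castRingHom R))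

/-- `Δ⁻¹`. -/
def sDinv : LaurentSeries R := single (-1) 1 * ofZ R dedekindEtaUnitInv

theorem ofZ_psD : ofZ R psD = single 1 1 * ofZ R dedekindEtaUnit := by
  rw [psD, map_mul]
  congr 1
  simp [ofZ]

theorem psD_mul_sDinv : ofZ R psD * sDinv R = 1 := by
  rw [ofZ_psD, sDinv, mul_mul_mul_comm, single_mul_single, ← map_mul, dedekindEtaUnit_mul_inv,
    map_one]
  simp

theorem psA_mul_sDinv : ofZ R psA * sDinv R = jqModC R := by
  rw [sDinv, jqModC, mul_left_comm, ← map_mul, psA]
  rfl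

theorem jqModC_mul_psD : jqModC R * ofZ R psD = ofZ R psA := by
  rw [← psA_mul_sDinv, mul_assoc, mul_comm (sDinv R), psD_mul_sDinv, mul_one]

variable {R} {S : Type*} [CommRing S]

theorem coeffMap_ofZ (f : R →+* S) (G : PowerSeries ℤ) : coeffMap f (ofZ R G) = ofZ S G := by
  rw [ofZ, ofZ, RingHom.comp_apply, RingHom.comp_apply, coeffMap_ofPowerSeries]
  congr 1
  ext n
  simp

theorem coeffMap_sDinv (f : R →+* S) : coeffMap f (sDinv R) = sDinv S := by
  rw [sDinv, sDinv, map_mul, coeffMap_single, map_one, coeffMap_ofZ]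

end Series

section Family

variable (R : Type*) [CommRing R] (p : ℕ) [NeZero p] (ζ : Rˣ)

/-- The `p + 1` conjugates of `j (q ^ p)`. -/
def rootJ : Option (Fin p) → LaurentSeries R
  | none => J R (p * p) 1
  | some i => J R 1 (ζ ^ (i : ℕ))

/-- The `p + 1` conjugates of `p ^ 12 Δ (q ^ p) / Δ q`. -/
def rootW : Option (Fin p) → LaurentSeries R
  | none => (p : LaurentSeries R) ^ 12 * qExpand R (p * p) (ofZ R psD) * qExpand R p (sDinv R)
  | some i => twist (ζ ^ (i : ℕ)) (ofZ R psD) * qExpand R p (sDinv R)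

/-- The conjugates of `p ^ 12 E₄ (q ^ p) ^ 3 / Δ q`. -/
def rootV : Option (Fin p) → LaurentSeries R
  | none => (p : LaurentSeries R) ^ 12 * qExpand R (p * p) (ofZ R psA) * qExpand R p (sDinv R)
  | some i => twist (ζ ^ (i : ℕ)) (ofZ R psA) * qExpand R p (sDinv R)

theorem rootV_eq (o : Option (Fin p)) : rootV R p ζ o = rootJ R p ζ o * rootW R p ζ o := by
  rcases o with _ | i
  · rw [rootV, rootW, rootJ, J_one_unit, ← jqModC_mul_psD, map_mul]
    ring
  · rw [rootV, rootW, rootJ, J_def, qExpand_one_apply, ← jqModC_mul_psD, map_mul]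
    ring

variable {R p}

theorem sum_zpow_eq [IsDomain R] {ζ : Rˣ} (hζ : IsPrimitiveRoot ζ p) (k : ℤ) :
    ∑ i : Fin p, (((ζ ^ (i : ℕ)) ^ k : Rˣ) : R) = if (p : ℤ) ∣ k then (p : R) else 0 := by
  have h1 : ∀ i : Fin p, (((ζ ^ (i : ℕ)) ^ k : Rˣ) : R) = (((ζ ^ k : Rˣ)) : R) ^ (i : ℕ) := fun i => by
    rw [← Units.val_pow_eq_pow_val, ← zpow_natCast, ← zpow_natCast, ← zpow_mul, ← zpow_mul, mul_comm]
  simp only [h1]
  rw [Fin.sum_univ_eq_sum_range (fun i => (((ζ ^ k : Rˣ)) : R) ^ i) p]
  split_ifs with h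
  · simp [(hζ.zpow_eq_one_iff_dvd k).mpr h]
  · have hne : ((ζ ^ k : Rˣ) : R) - 1 ≠ 0 := fun e =>
      h ((hζ.zpow_eq_one_iff_dvd k).mp (Units.ext (sub_eq_zero.mp e)))
    refine (mul_eq_zero.mp ?_).resolve_right hne
    rw [geom_sum_mul, sub_eq_zero, ← Units.val_pow_eq_pow_val, ← zpow_natCast, ← zpow_mul,
      (hζ.zpow_eq_one_iff_dvd _).mpr (dvd_mul_left _ _), Units.val_one]

theorem sum_twist_ofZ [IsDomain R] {ζ : Rˣ} (hζ : IsPrimitiveRoot ζ p) (m : ℕ) (G : PowerSeries ℤ) :
    ((p : LaurentSeries R) ^ 12) ^ m * qExpand R (p * p) (ofZ R G)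
        + ∑ i : Fin p, twist (ζ ^ (i : ℕ)) (ofZ R G)
      = qExpand R p (ofZ R (heckePS p m G)) := by
  have hp : 0 < p := Nat.pos_of_ne_zero (NeZero.ne p)
  ext k
  rw [← pow_mul, ← Nat.cast_pow, ← map_natCast (HahnSeries.C (Γ := ℤ) (R := R)),
    HahnSeries.coeff_add, HahnSeries.C_mul_eq_smul, HahnSeries.coeff_smul, HahnSeries.coeff_sum]
  simp only [twist_coeff, ← Finset.sum_mul, sum_zpow_eq hζ]
  by_cases hk : (p : ℤ) ∣ k
  · obtain ⟨n, rfl⟩ := hk
    rw [if_pos (dvd_mul_right _ _), qExpand_coeff_mul]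
    rcases le_or_gt 0 n with hn | hn
    · lift n to ℕ using hn
      simp only [ofZ, RingHom.comp_apply]
      rw [← Nat.cast_mul, HahnSeries.ofPowerSeries_apply_coeff,
        HahnSeries.ofPowerSeries_apply_coeff, PowerSeries.coeff_map, PowerSeries.coeff_map,
        heckePS, PowerSeries.coeff_mk]
      split_ifs with h
      · obtain ⟨e, rfl⟩ := h
        rw [show ((p * (p * e) : ℕ) : ℤ) = ((p * p : ℕ) : ℤ) * (e : ℤ) by push_cast; ring,
          qExpand_coeff_mul, HahnSeries.ofPowerSeries_apply_coeff, PowerSeries.coeff_map,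
          Nat.mul_div_cancel_left e hp, mul_comm (p * e) p]
        simp [smul_eq_mul]
        ring
      · rw [qExpand_coeff_of_not_dvd (p * p) _ (by
          intro hd
          exact h ((Nat.mul_dvd_mul_iff_left hp).mp (Int.natCast_dvd_natCast.mp hd))),
          mul_comm n p]
        simp
    · have hpn : (p : ℤ) * n < 0 := mul_neg_of_pos_of_neg (by exact_mod_cast hp) hn
      simp only [ofZ, RingHom.comp_apply]
      rw [ofPowerSeries_coeff_of_neg _ hn, ofPowerSeries_coeff_of_neg _ hpn, mul_zero, add_zero]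
      by_cases hd : ((p * p : ℕ) : ℤ) ∣ (p : ℤ) * n
      · obtain ⟨e, he⟩ := hd
        rw [he, qExpand_coeff_mul, ofPowerSeries_coeff_of_neg _ ?_, smul_zero]
        by_contra h
        push Not at h
        rw [he] at hpn
        exact absurd hpn (not_lt.mpr (mul_nonneg (Int.natCast_nonneg _) h))
      · rw [qExpand_coeff_of_not_dvd (p * p) _ hd, smul_zero]
  · rw [if_neg hk, zero_mul, add_zero, qExpand_coeff_of_not_dvd p _ hk,
      qExpand_coeff_of_not_dvd (p * p) _ (fun h => hk ((Dvd.intro (p : ℤ) (by push_cast; ring)).trans h)),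
      smul_zero]

theorem sum_monomial_eq [IsDomain R] (hp : p.Prime) {ζ : Rˣ} (hζ : IsPrimitiveRoot ζ p) (a b : ℕ) :
    ∃ c : ℕ → ℤ, ∑ o, rootV R p ζ o ^ a * rootW R p ζ o ^ b =
      ∑ i ∈ range (a + b + 1), (c i : LaurentSeries R) * qExpand R p (jqModC R) ^ (a + b - i) := by
  obtain ⟨c, hc⟩ := exists_heckePS_eq_sum hp a b
  refine ⟨c, ?_⟩
  have h := sum_twist_ofZ hζ (a + b) (psA ^ a * psD ^ b)
  rw [hc] at h
  have hL : ∑ o, rootV R p ζ o ^ a * rootW R p ζ o ^ b =
      (((p : LaurentSeries R) ^ 12) ^ (a + b) * qExpand R (p * p) (ofZ R (psA ^ a * psD ^ b))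
        + ∑ i : Fin p, twist (ζ ^ (i : ℕ)) (ofZ R (psA ^ a * psD ^ b)))
      * qExpand R p (sDinv R) ^ (a + b) := by
    rw [Fintype.sum_option, add_mul, Finset.sum_mul]
    congr 1
    · simp only [rootV, rootW, map_mul, map_pow]
      ring
    · refine Finset.sum_congr rfl fun i _ => ?_
      simp only [rootV, rootW, map_mul, map_pow]
      ring
  rw [hL, h, map_sum, map_sum, Finset.sum_mul]
  refine Finset.sum_congr rfl fun i hi => ?_
  have hC : ofZ R (PowerSeries.C (c i)) = (c i : LaurentSeries R) := by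
    rw [eq_intCast PowerSeries.C (c i), map_intCast]
  have hi' : a + b = a + b - i + i :=
    (Nat.sub_add_cancel (Nat.lt_succ_iff.mp (Finset.mem_range.mp hi))).symm
  have h1 : qExpand R p (ofZ R psD) * qExpand R p (sDinv R) = 1 := by
    rw [← map_mul, psD_mul_sDinv, map_one]
  rw [map_mul (ofZ R), map_mul (ofZ R), map_mul (qExpand R p), map_mul (qExpand R p), hC,
    map_intCast, map_pow, map_pow, map_pow, map_pow, mul_assoc]
  congr 1
  conv_lhs => rw [hi', _root_.pow_add, ← hi']
  rw [mul_mul_mul_comm, ← mul_pow, ← mul_pow, h1, one_pow, mul_one, ← map_mul, psA_mul_sDinv]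

end Family

section Integrality

variable (p : ℕ) [NeZero p]

theorem coeff_qExpand_jqModC_pow (R : Type*) [CommRing R] (n : ℕ) :
    ((qExpand R p (jqModC R)) ^ n).coeff (-((p : ℤ) * n)) = 1 ∧
      ∀ i < n, ((qExpand R p (jqModC R)) ^ i).coeff (-((p : ℤ) * n)) = 0 := by
  refine ⟨?_, fun i hi => ?_⟩
  · rw [← map_pow, ← mul_neg, qExpand_coeff_mul]
    exact coeff_jqModC_pow_self R n
  · rw [← map_pow, ← mul_neg, qExpand_coeff_mul]
    exact coeff_jqModC_pow_of_lt R (by omega)

/-- Evaluation at `j (t ^ p)` of a rational polynomial. -/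
def evQ : Polynomial ℚ →+* LaurentSeries ℂ :=
  eval₂RingHom ((HahnSeries.C).comp (algebraMap ℚ ℂ)) (qExpand ℂ p (jqModC ℂ))

/-- Evaluation at `j (t ^ p)` of an integral polynomial. -/
def evZ (R : Type*) [CommRing R] : Polynomial ℤ →+* LaurentSeries R :=
  eval₂RingHom (Int.castRingHom _) (qExpand R p (jqModC R))

theorem coeffMap_comp_evZ {R S : Type*} [CommRing R] [CommRing S] (f : R →+* S) :
    (coeffMap f).comp (evZ p R) = evZ p S := by
  refine Polynomial.ringHom_ext' (RingHom.ext_int _ _) ?_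
  simp [evZ, coeffMap_qExpand, coeffMap_jqModC]

theorem evQ_map (P : Polynomial ℤ) : evQ p (P.map (Int.castRingHom ℚ)) = evZ p ℂ P := by
  rw [evQ, evZ, coe_eval₂RingHom, coe_eval₂RingHom, eval₂_map,
    RingHom.ext_int (((HahnSeries.C).comp (algebraMap ℚ ℂ)).comp (Int.castRingHom ℚ))
      (Int.castRingHom _)]

theorem evQ_coeff_top (P : Polynomial ℚ) {n : ℕ} (hn : P.natDegree ≤ n) :
    (evQ p P).coeff (-((p : ℤ) * n)) = algebraMap ℚ ℂ (P.coeff n) := by
  rw [evQ, coe_eval₂RingHom, eval₂_eq_sum_range' _ (Nat.lt_succ_of_le hn), HahnSeries.coeff_sum,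
    Finset.sum_eq_single n]
  · rw [RingHom.comp_apply, HahnSeries.C_mul_eq_smul, HahnSeries.coeff_smul,
      (coeff_qExpand_jqModC_pow p ℂ n).1, smul_eq_mul, mul_one]
  · intro i hi hne
    rw [RingHom.comp_apply, HahnSeries.C_mul_eq_smul, HahnSeries.coeff_smul,
      (coeff_qExpand_jqModC_pow p ℂ n).2 i
        (lt_of_le_of_ne (Nat.lt_succ_iff.mp (Finset.mem_range.mp hi)) hne), smul_zero]
  · simp

theorem evQ_mem_evZ_range (n : ℕ) : ∀ P : Polynomial ℚ, P.natDegree ≤ n →
    (∀ k, IsIntegral ℤ ((evQ p P).coeff k)) → evQ p P ∈ (evZ p ℂ).range := by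
  induction n using Nat.strong_induction_on with
  | _ n ih =>
    intro P hP hint
    have h := hint (-((p : ℤ) * n))
    rw [evQ_coeff_top p P hP] at h
    have h' : IsIntegral ℤ (P.coeff n) :=
      (isIntegral_algebraMap_iff (R := ℤ) (algebraMap ℚ ℂ).injective).mp h
    obtain ⟨z, hz⟩ := IsIntegrallyClosed.isIntegral_iff.mp h'
    rcases Nat.eq_zero_or_pos n with rfl | hn
    · refine ⟨Polynomial.C z, ?_⟩
      rw [eq_C_of_natDegree_le_zero hP, ← evQ_map, Polynomial.map_C, ← hz]
      rfl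
    · have hQ : evQ p (P - Polynomial.C (z : ℚ) * X ^ n) ∈ (evZ p ℂ).range := by
        refine ih (n - 1) (by omega) _ ?_ fun k => ?_
        · rw [natDegree_le_iff_coeff_eq_zero]
          intro i hi
          rw [Polynomial.coeff_sub, Polynomial.coeff_C_mul, Polynomial.coeff_X_pow]
          rcases eq_or_lt_of_le (show n ≤ i by omega) with rfl | hlt
          · rw [if_pos rfl, mul_one, ← hz]; simp
          · rw [if_neg (by omega), mul_zero, sub_zero]
            exact coeff_eq_zero_of_natDegree_lt (hP.trans_lt hlt)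
        · rw [map_sub, HahnSeries.coeff_sub]
          refine (hint k).sub ?_
          have : evQ p (Polynomial.C (z : ℚ) * X ^ n) = HahnSeries.C (z : ℂ) * qExpand ℂ p (jqModC ℂ) ^ n := by
            rw [evQ, coe_eval₂RingHom, eval₂_mul, eval₂_C, eval₂_X_pow, RingHom.comp_apply, map_intCast (algebraMap ℚ ℂ)]
          rw [this, HahnSeries.C_mul_eq_smul, HahnSeries.coeff_smul, smul_eq_mul]
          refine (isIntegral_algebraMap (x := z)).mul ?_
          rw [← coeffMap_jqModC (Int.castRingHom ℂ), ← coeffMap_qExpand, ← map_pow, coeffMap_coeff]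
          exact isIntegral_algebraMap
      obtain ⟨Q, hQ⟩ := hQ
      refine ⟨Q + Polynomial.C z * X ^ n, ?_⟩
      rw [map_add, hQ, map_sub, sub_add_eq_add_sub, add_sub_assoc, add_eq_left, sub_eq_zero,
        ← evQ_map]
      simp

end Integrality

end FLTAgent.Igusa
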