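import Fermat.Agent.Igusa.Tower
import Mathlib.FieldTheory.Separable

/-!
# Generation and degree bound for the modular function field over `ℚ (j)`
-/

set_option autoImplicit false
set_option linter.style.haveILetI false
set_option linter.unusedSectionVars false

noncomputable section

open Polynomial Finset IntermediateField ModularCurve

namespace FLTAgent.Igusa

/-- `j (q ^ d)` over `ℚ`, for `d ≠ 0`. -/
abbrev jQ (d : ℕ) : LaurentSeries ℚ := J ℚ d 1

theorem jQ_one : jQ 1 = jq := by rw [jQ, J_one_one, jqModC_rat]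

/-- `q = t ^ s` over `ℂ`. -/
def toC (s : ℕ) [NeZero s] : LaurentSeries ℚ →+* LaurentSeries ℂ :=
  (qExpand ℂ s).comp (coeffMap (algebraMap ℚ ℂ))

theorem toC_injective (s : ℕ) [NeZero s] : Function.Injective (toC s) := (toC s).injective

theorem toC_jQ (s d : ℕ) [NeZero s] : toC s (jQ d) = J ℂ (s * d) 1 := by
  rw [toC, RingHom.comp_apply, jQ, coeffMap_J, map_one, qExpand_J]

section Complex

variable (p : ℕ) [Fact p.Prime]

/-- The conjugates of `j (t ^ (p d))` at level `p`. -/
def rootC (d : ℕ) : Option (Fin p) → LaurentSeries ℂ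
  | none => J ℂ (p * p * d) 1
  | some i =>
      haveI : NeZero p := ⟨(Fact.out : p.Prime).ne_zero⟩
      J ℂ d (zetaIn p (algebraMap AlgInt ℂ) ^ (i : ℕ))

theorem modEqAt_rootC (d : ℕ) [NeZero d] :
    modEqAt p (J ℂ (p * d) 1) = ∏ o, (X - Polynomial.C (rootC p d o)) := by
  haveI : NeZero p := ⟨(Fact.out : p.Prime).ne_zero⟩
  have h := congr_arg (Polynomial.map (qExpand ℂ d)) ((modEq_spec p).2.2 ℂ (algebraMap AlgInt ℂ))
  rw [evZ, show (modEq p).map (eval₂RingHom (Int.castRingHom (LaurentSeries ℂ)) (qExpand ℂ p (jqModC ℂ)))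
      = modEqAt p (qExpand ℂ p (jqModC ℂ)) from rfl, map_modEqAt] at h
  rw [← J_one_unit, qExpand_J, mul_comm d p] at h
  rw [h, Polynomial.map_prod]
  refine Finset.prod_congr rfl fun o _ => ?_
  rw [Polynomial.map_sub, Polynomial.map_X, Polynomial.map_C]
  rcases o with _ | i
  · rw [rootJ, qExpand_J, rootC, mul_comm d (p * p)]
  · rw [rootJ, qExpand_J, rootC, mul_one]

theorem rootC_injective (d : ℕ) [NeZero d] : Function.Injective (rootC p d) := by
  have hp : p.Prime := Fact.out
  haveI : NeZero p := ⟨hp.ne_zero⟩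
  have hne : d ≠ p * p * d := by
    have h4 : 2 * 2 * d ≤ p * p * d := Nat.mul_le_mul_right _ (Nat.mul_le_mul hp.two_le hp.two_le)
    have := NeZero.pos d
    omega
  rintro (_ | i) (_ | j) h
  · rfl
  · exact absurd (J_inj (R := ℂ) (a := p * p * d) (b := d) h).1 hne.symm
  · exact absurd (J_inj (R := ℂ) (a := d) (b := p * p * d) h).1 hne
  · exact congr_arg some (Fin.ext
      ((isPrimitiveRoot_zetaIn (algebraMap AlgInt ℂ) (Nat.cast_ne_zero.mpr hp.ne_zero)).pow_inj i.2 j.2
        (J_inj (R := ℂ) (a := d) (b := d) h).2))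

/-- The `p`-th equation over `ℚ`. -/
theorem eval_modEqAt_jQ (d : ℕ) [NeZero d] :
    (modEqAt p (jQ d)).eval (jQ (p * d)) = 0 ∧ (modEqAt p (jQ (p * d))).eval (jQ d) = 0 := by
  haveI : NeZero p := ⟨(Fact.out : p.Prime).ne_zero⟩
  refine ⟨?_, ?_⟩
  · apply toC_injective p
    rw [map_zero, ← eval_map_apply, map_modEqAt, toC_jQ, toC_jQ, modEqAt_rootC, eval_prod]
    refine Finset.prod_eq_zero (Finset.mem_univ none) ?_
    rw [rootC, ← mul_assoc]
    simp
  · apply toC_injective 1
    rw [map_zero, ← eval_map_apply, map_modEqAt, toC_jQ, toC_jQ, one_mul, one_mul, modEqAt_rootC,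
      eval_prod]
    refine Finset.prod_eq_zero (Finset.mem_univ (some ⟨0, (Fact.out : p.Prime).pos⟩)) ?_
    simp [rootC]

end Complex

/-- If two prime level equations have a single common root, it is rational over their
coefficients. -/
theorem jQ_mem_of_two_primes {K : IntermediateField ℚ (LaurentSeries ℚ)} (p p' m : ℕ) [Fact p.Prime]
    [Fact p'.Prime] (hne : p ≠ p') [NeZero m] (h1 : jQ (p' * m) ∈ K) (h2 : jQ (p * m) ∈ K) :
    jQ (p * (p' * m)) ∈ K := by
  classical
  have hp : p.Prime := Fact.out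
  have hp' : p'.Prime := Fact.out
  haveI : NeZero p := ⟨hp.ne_zero⟩
  haveI : NeZero p' := ⟨hp'.ne_zero⟩
  set h : K →+* LaurentSeries ℂ := (toC (p * p')).comp (algebraMap K (LaurentSeries ℚ))
  set f1 : K[X] := modEqAt p ⟨_, h1⟩
  set f2 : K[X] := modEqAt p' ⟨_, h2⟩
  set x := toC (p * p') (jQ (p * (p' * m))) with hxdef
  have hx : x = J ℂ (p * p * (p' * p' * m)) 1 := by
    rw [hxdef, toC_jQ]; congr 1; ring
  have e1 : f1.map h = ∏ o, (X - Polynomial.C (rootC p (p' * p' * m) o)) := by
    rw [map_modEqAt, ← modEqAt_rootC]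
    congr 1
    show toC (p * p') (jQ (p' * m)) = _
    rw [toC_jQ]; congr 1; ring
  have e2 : f2.map h = ∏ o, (X - Polynomial.C (rootC p' (p * p * m) o)) := by
    rw [map_modEqAt, ← modEqAt_rootC]
    congr 1
    show toC (p * p') (jQ (p * m)) = _
    rw [toC_jQ]; congr 1; ring
  set g := EuclideanDomain.gcd f1 f2
  have hg : g.map h = EuclideanDomain.gcd (f1.map h) (f2.map h) := (Polynomial.gcd_map h).symm
  have hf1 : f1.map h ≠ 0 := ((modEqAt_monic p _).map _).ne_zero
  have hdvd1 : g.map h ∣ f1.map h := hg ▸ EuclideanDomain.gcd_dvd_left _ _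
  have hdvd2 : g.map h ∣ f2.map h := hg ▸ EuclideanDomain.gcd_dvd_right _ _
  have hg0 : g.map h ≠ 0 := fun e => hf1 (zero_dvd_iff.mp (e ▸ hdvd1))
  have hxg : (g.map h).IsRoot x := by
    rw [← dvd_iff_isRoot, hg]
    refine EuclideanDomain.dvd_gcd ?_ ?_ <;> rw [dvd_iff_isRoot, IsRoot]
    · rw [e1, eval_prod]
      exact Finset.prod_eq_zero (Finset.mem_univ none) (by simp [rootC, hx])
    · rw [e2, eval_prod]
      refine Finset.prod_eq_zero (Finset.mem_univ none) ?_
      rw [rootC, hx, show p * p * (p' * p' * m) = p' * p' * (p * p * m) by ring]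
      simp
  have hsep : (g.map h).Separable := by
    refine Separable.of_dvd ?_ hdvd1
    rw [e1, separable_prod_X_sub_C_iff]
    exact rootC_injective p _
  have hsplit : (g.map h).Splits := by
    refine Polynomial.Splits.of_dvd ?_ hf1 hdvd1
    rw [e1]
    exact Polynomial.Splits.prod fun o _ => Polynomial.Splits.X_sub_C _
  have hroots : (g.map h).roots = {x} := by
    have hnd := nodup_roots hsep
    have hmem : x ∈ (g.map h).roots := (mem_roots hg0).mpr hxg
    have hall : ∀ z ∈ (g.map h).roots, z = x := by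
      intro z hz
      have hz1 := eval_eq_zero_of_dvd_of_eval_eq_zero hdvd1 (mem_roots'.mp hz).2
      have hz2 := eval_eq_zero_of_dvd_of_eval_eq_zero hdvd2 (mem_roots'.mp hz).2
      rw [e1, eval_prod, Finset.prod_eq_zero_iff] at hz1
      rw [e2, eval_prod, Finset.prod_eq_zero_iff] at hz2
      obtain ⟨o, -, ho⟩ := hz1
      obtain ⟨o', -, ho'⟩ := hz2
      rw [eval_sub, eval_X, eval_C, sub_eq_zero] at ho ho'
      rcases o with _ | i
      · rw [ho, rootC, hx]
      · exfalso
        rw [ho] at ho'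
        have h4 : 2 * 2 ≤ p * p := Nat.mul_le_mul hp.two_le hp.two_le
        rcases o' with _ | j
        · simp only [rootC] at ho'
          have := (J_inj (R := ℂ) (a := p' * p' * m) (b := p' * p' * (p * p * m)) ho').1
          have e : p' * p' * (p * p * m) = p * p * (p' * p' * m) := by ring
          have h5 : 2 * 2 * (p' * p' * m) ≤ p * p * (p' * p' * m) := Nat.mul_le_mul_right _ h4
          have := NeZero.pos (p' * p' * m)
          omega
        · simp only [rootC] at ho'
          have h6 := (J_inj (R := ℂ) (a := p' * p' * m) (b := p * p * m) ho').1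
          exact hne (Nat.mul_self_inj.mp (Nat.eq_of_mul_eq_mul_right (NeZero.pos m) h6)).symm
    rw [Multiset.eq_replicate_card.mpr hall]
    have : Multiset.card (g.map h).roots = 1 := by
      refine le_antisymm ?_ (Multiset.card_pos_iff_exists_mem.mpr ⟨x, hmem⟩)
      by_contra hc
      push Not at hc
      rw [Multiset.eq_replicate_card.mpr hall] at hnd
      have := Multiset.nodup_iff_count_le_one.mp hnd x
      rw [Multiset.count_replicate_self] at this
      omega
    rw [this, Multiset.replicate_one]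
  have hdeg : (g.map h).natDegree = 1 := by
    rw [hsplit.natDegree_eq_card_roots, hroots, Multiset.card_singleton]
  rw [natDegree_map] at hdeg
  obtain ⟨a, ha, b, hab⟩ := natDegree_eq_one.mp hdeg
  have hev : h a * x + h b = 0 := by
    have := hxg
    rw [IsRoot, ← hab, Polynomial.map_add, Polynomial.map_mul, Polynomial.map_C, Polynomial.map_X,
      Polynomial.map_C, eval_add, eval_mul, eval_C, eval_X, eval_C] at this
    exact this
  have hK : jQ (p * (p' * m)) = ((-b / a : K) : LaurentSeries ℚ) := by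
    refine toC_injective (p * p') ?_
    show x = h (-b / a)
    rw [map_div₀, map_neg, eq_div_iff ((map_ne_zero h).mpr ha), mul_comm]
    linear_combination hev
  rw [hK]
  exact SetLike.coe_mem _

/-- Prime power generators. -/
def genQ (N : ℕ) (P : Finset ℕ) : Set (LaurentSeries ℚ) :=
  {z | ∃ p ∈ P, ∃ i ≤ N.factorization p, z = jQ (p ^ i)}

theorem jQ_mem_adjoin (N : ℕ) [NeZero N] : ∀ d, d ∣ N →
    jQ d ∈ IntermediateField.adjoin ℚ (insert jq (genQ N N.primeFactors)) := by
  intro d
  induction d using Nat.strong_induction_on with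
  | _ d ih =>
    intro hd
    have hd0 : d ≠ 0 := fun h => NeZero.ne N (Nat.eq_zero_of_zero_dvd (h ▸ hd))
    by_cases hpp : ∃ p p', p.Prime ∧ p'.Prime ∧ p ≠ p' ∧ p ∣ d ∧ p' ∣ d
    · obtain ⟨p, p', hp, hp', hne, hpd, hp'd⟩ := hpp
      obtain ⟨m, rfl⟩ : p * p' ∣ d := (Nat.coprime_primes hp hp').mpr hne |>.mul_dvd_of_dvd_of_dvd hpd hp'd
      haveI : Fact p.Prime := ⟨hp⟩
      haveI : Fact p'.Prime := ⟨hp'⟩
      haveI : NeZero m := ⟨fun h => hd0 (by simp [h])⟩
      rw [mul_assoc] at hd ⊢
      refine jQ_mem_of_two_primes p p' m hne (ih _ ?_ ((dvd_mul_left _ p).trans hd))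
        (ih _ ?_ ((Dvd.intro p' (by ring)).trans hd))
      · rw [mul_assoc]
        exact lt_mul_of_one_lt_left (Nat.mul_pos hp'.pos (NeZero.pos m)) hp.one_lt
      · have : p * p' * m = p' * (p * m) := by ring
        rw [this]
        exact lt_mul_of_one_lt_left (Nat.mul_pos hp.pos (NeZero.pos m)) hp'.one_lt
    · rcases eq_or_ne d 1 with rfl | hd1
      · rw [jQ_one]
        exact subset_adjoin ℚ _ (Set.mem_insert _ _)
      · obtain ⟨p, hp, hpd⟩ := Nat.exists_prime_and_dvd hd1
        have hd' : d = p ^ d.primeFactorsList.length := Nat.eq_prime_pow_of_unique_prime_dvd hd0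
          fun {q} hq hqd => by
            by_contra hne
            exact hpp ⟨q, p, hq, hp, hne, hqd, hpd⟩
        rw [hd'] at hd ⊢
        exact subset_adjoin ℚ _ (Set.mem_insert_of_mem _
          ⟨p, Nat.mem_primeFactors.mpr ⟨hp, hpd.trans (hd'.symm ▸ hd), NeZero.ne N⟩, _,
            (hp.pow_dvd_iff_le_factorization (NeZero.ne N)).mp hd, rfl⟩)

end FLTAgent.Igusa
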