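import Fermat.Agent.Igusa.DegreeBound

/-!
# The degree bound, prime by prime
-/

set_option autoImplicit false
set_option linter.style.haveILetI false
set_option linter.unusedSectionVars false

noncomputable section

open Polynomial Finset IntermediateField

namespace FLTAgent.Igusa

variable {k : Type} [Field k] [IsAlgClosed k] (φ : AlgInt →+* k) {N : ℕ} [NeZero N]

include φ in
/-- First step: a new prime multiplies the degree by `p + 1`. -/
theorem chain_one (hN : (N : k) ≠ 0) {P : Finset ℕ} (hP : ∀ q ∈ P, q.Prime) {p : ℕ} [Fact p.Prime]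
    (hpP : p ∉ P) (he : 0 < N.factorization p) :
    Module.finrank (baseField k N) (adjoin (baseField k N) (genSet (k := k) N P)) * (p + 1)
      ≤ Module.finrank (baseField k N) (adjoin (baseField k N) (chainSet (k := k) N P p 1)) ∧
    ∃ (σ : adjoin (baseField k N) (chainSet (k := k) N P p 1) →ₐ[baseField k N] Amb k) (c : kˣ),
      σ ⟨_, subset_adjoin _ _ (Or.inr ⟨1, le_rfl, rfl⟩)⟩ = Xj (N / p ^ 1) c := by
  classical
  have hp : p.Prime := Fact.out
  haveI : NeZero p := ⟨hp.ne_zero⟩
  set K0 := baseField k N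
  set x : Amb k := gen N p 1
  have hpN : p ∣ N := dvd_N_of_lt (p := p) (i := 0) he
  have hpk : (p : k) ≠ 0 := natCast_ne_zero_of_dvd hN hpN
  have hxint : IsIntegral K0 x := isIntegral_gen φ p 1 he
  set e := N / p
  have hNe : N = p * e := (Nat.mul_div_cancel' hpN).symm
  have he0 : e ≠ 0 := fun h => NeZero.ne N (by rw [hNe, h, mul_zero])
  have hx : x = Xj (p * p * e) ((1 : kˣ) ^ (p * p)) := by
    show gen (k := k) N p 1 = _
    rw [gen, one_pow, pow_one]
    congr 1
    rw [hNe]; ring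
  have hy : Xj N 1 = Xj (p * e) ((1 : kˣ) ^ p) := by rw [one_pow, ← hNe]
  set m := minpoly K0 x
  set j0 : K0 := ⟨Xj N 1, Xj_N_mem N⟩
  have hdvd : m.map (algebraMap K0 (Amb k)) ∣ modEqAt p (Xj (k := k) N 1) := by
    rw [← show algebraMap K0 (Amb k) j0 = Xj N 1 from rfl, ← map_modEqAt]
    refine Polynomial.map_dvd _ (minpoly.dvd _ _ ?_)
    rw [aeval_def, ← eval_map, map_modEqAt]
    show (modEqAt p (Xj N 1)).eval _ = 0
    have h0 : gen (k := k) N p 0 = Xj N 1 := by simp [gen]
    rw [← h0]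
    exact (eval_modEqAt_gen φ hpN 0).1
  have hsep : (m.map (algebraMap K0 (Amb k))).Separable :=
    (hy ▸ separable_modEqAt p φ hpk e he0 1).of_dvd hdvd
  -- a conjugate of `x` different from `x`
  obtain ⟨z0, hz0, hz0x⟩ : ∃ z0, (m.map (algebraMap K0 (Amb k))).eval z0 = 0 ∧ z0 ≠ x := by
    by_contra hcon
    push Not at hcon
    have hsplit : (m.map (algebraMap K0 (Amb k))).Splits := IsAlgClosed.splits _
    have hcard := card_rootSet_eq_natDegree (K := Amb k) ((Polynomial.separable_map _).mp hsep) hsplit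
    have hsub : m.rootSet (Amb k) ⊆ {x} := fun z hz => by
      refine Set.mem_singleton_iff.mpr (hcon z ?_)
      rw [Polynomial.mem_rootSet] at hz
      rw [eval_map]
      exact hz.2
    have hle : Fintype.card (m.rootSet (Amb k)) ≤ 1 := by
      rw [Fintype.card_le_one_iff_subsingleton]
      exact ⟨fun a b => Subtype.ext ((Set.mem_singleton_iff.mp (hsub a.2)).trans
        (Set.mem_singleton_iff.mp (hsub b.2)).symm)⟩
    have hdeg : m.natDegree = 1 :=
      le_antisymm (hcard ▸ hle) (minpoly.natDegree_pos hxint)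
    refine gen_one_not_mem_base φ hpN hpk ?_
    have := minpoly.natDegree_eq_one_iff.mp hdeg
    obtain ⟨r, hr⟩ := this
    rw [show gen (k := k) N p 1 = x from rfl, ← hr]
    exact r.2
  have hz0child : ∃ i : Fin p, z0 = Xj e (zetaIn p φ ^ (i : ℕ) * 1) := by
    have h1 : (modEqAt p (Xj (p * e) ((1 : kˣ) ^ p))).eval z0 = 0 := by
      rw [← hy]
      obtain ⟨r, hr⟩ := hdvd
      rw [hr, eval_mul, hz0, zero_mul]
    exact ((eval_modEqAt_eq_zero_iff p φ e he0 1 z0).mp h1).resolve_left (hx ▸ hz0x)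
  obtain ⟨i₀, hi₀⟩ := hz0child
  have hgen : chainSet (k := k) N P p 1 = insert x (chainSet N P p 0) := chainSet_succ P p 0
  set S := chainSet (k := k) N P p 0
  have hE : adjoin K0 S = adjoin K0 (genSet (k := k) N P) := adjoin_chainSet_zero P p
  haveI : FiniteDimensional K0 (adjoin K0 S) := by
    rw [hE]; exact finiteDimensional_genSet φ P
  obtain ⟨η, hη, h1, h2, h3⟩ := exists_twist hN P hP hp hpP he
  have hω := h3 1 (one_dvd _)
  rw [zero_add, pow_one] at hω
  change IsPrimitiveRoot (η ^ e) p at hω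
  -- `x` is not in the field already constructed
  have hxS : x ∉ adjoin K0 S := by
    intro hmem
    haveI : Algebra.IsAlgebraic K0 (adjoin K0 S) := Algebra.IsAlgebraic.of_finite K0 _
    have hmin : minpoly K0 (⟨x, hmem⟩ : adjoin K0 S) = m :=
      (minpoly.algebraMap_eq (algebraMap (adjoin K0 S) (Amb k)).injective ⟨x, hmem⟩).symm
    have hzroot : z0 ∈ (minpoly K0 (⟨x, hmem⟩ : adjoin K0 S)).rootSet (Amb k) := by
      rw [hmin, Polynomial.mem_rootSet]
      exact ⟨minpoly.ne_zero hxint, by rw [aeval_def, ← eval_map]; exact hz0⟩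
    rw [← Algebra.IsAlgebraic.range_eval_eq_rootSet_minpoly (Amb k)] at hzroot
    obtain ⟨σ, hσ⟩ := hzroot
    have hfix := ambTwist_comp φ hN hη (Nat.zero_le _) h1 h2 σ ⟨x, hmem⟩
    simp only at hσ
    rw [hσ, hi₀, ambTwist_Xj] at hfix
    have := (Xj_inj he0 he0 hfix).2
    exact hω.ne_one hp.one_lt (mul_eq_left.mp this)
  set σ₀ : adjoin K0 S →ₐ[K0] Amb k := (adjoin K0 S).val
  have hpoly : ∀ z, (minpolyVia σ₀ x).eval z = 0 →
      (modEqAt p (Xj (p * e) ((1 : kˣ) ^ p))).eval z = 0 := by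
    intro z hz
    have := eval_modEqAt_of_minpolyVia φ he σ₀ hz
    have h0 : σ₀ ⟨_, subset_adjoin _ _ (Or.inr ⟨0, le_rfl, rfl⟩)⟩ = Xj (p * e) ((1 : kˣ) ^ p) := by
      rw [← hy]; show gen (k := k) N p 0 = _; simp [gen]
    rwa [h0] at this
  have hxroot : (minpolyVia σ₀ x).eval x = 0 := by
    rw [minpolyVia, eval_map]
    exact minpoly.aeval _ x
  -- a child conjugate over the field already constructed
  obtain ⟨c₁, hc₁⟩ : ∃ c₁, (minpolyVia σ₀ x).eval (Xj (N / p ^ (0 + 1)) c₁) = 0 := by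
    have hxT : IsIntegral (adjoin K0 S) x := hxint.tower_top
    have hdeg : 2 ≤ (minpoly (adjoin K0 S) x).natDegree := by
      rcases Nat.lt_or_ge (minpoly (adjoin K0 S) x).natDegree 2 with hlt | hge
      · exfalso
        have hdeg1 : (minpoly (adjoin K0 S) x).natDegree = 1 :=
          le_antisymm (Nat.lt_succ_iff.mp hlt) (minpoly.natDegree_pos hxT)
        obtain ⟨r, hr⟩ := minpoly.natDegree_eq_one_iff.mp hdeg1
        exact hxS (hr ▸ r.2)
      · exact hge
    have hmon : (minpolyVia σ₀ x).Monic := (minpoly.monic hxT).map _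
    have hsplit : (minpolyVia σ₀ x).Splits := IsAlgClosed.splits _
    have hsep' : (minpolyVia σ₀ x).Separable := by
      refine hsep.of_dvd ?_
      have h := Polynomial.map_dvd σ₀.toRingHom (minpoly.dvd_map_of_isScalarTower K0 (adjoin K0 S) x)
      rw [Polynomial.map_map, show σ₀.toRingHom.comp (algebraMap K0 (adjoin K0 S))
        = algebraMap K0 (Amb k) from RingHom.ext fun r => σ₀.commutes r] at h
      exact h
    by_contra hcon
    push Not at hcon
    have hroots : ∀ z ∈ (minpolyVia σ₀ x).roots, z = x := by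
      intro z hz
      have hz0 := (mem_roots'.mp hz).2
      rcases (eval_modEqAt_eq_zero_iff p φ e he0 1 z).mp (hpoly z hz0) with h | ⟨j, h⟩
      · exact h.trans hx.symm
      · refine absurd hz0 ?_
        rw [h]
        have := hcon (zetaIn p φ ^ (j : ℕ) * 1)
        rwa [zero_add, pow_one] at this
    have hn := hsplit.natDegree_eq_card_roots
    have hnd := (nodup_roots hsep')
    have h2 : Multiset.card (minpolyVia σ₀ x).roots ≤ 1 := by
      by_contra h
      push Not at h
      obtain ⟨a, b, ha, hb, hab⟩ : ∃ a b, a ∈ (minpolyVia σ₀ x).roots.toFinset ∧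
          b ∈ (minpolyVia σ₀ x).roots.toFinset ∧ a ≠ b := by
        rw [← Finset.one_lt_card_iff, Multiset.toFinset_card_of_nodup hnd]
        exact h
      exact hab ((hroots a (Multiset.mem_toFinset.mp ha)).trans
        (hroots b (Multiset.mem_toFinset.mp hb)).symm)
    rw [natDegree_minpolyVia] at hn
    omega
  obtain ⟨T, hT, hTroot, hTform⟩ := exists_conjugates φ hN hP hpP he σ₀ hc₁
  have hxnT : x ∉ T := by
    intro h
    obtain ⟨c, hc⟩ := hTform x h
    rw [hx, zero_add, pow_one] at hc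
    have h2 := (Xj_inj (Nat.mul_ne_zero (Nat.mul_ne_zero hp.ne_zero hp.ne_zero) he0) he0 hc).1
    have h4 : 2 * 2 * e ≤ p * p * e := Nat.mul_le_mul_right _ (Nat.mul_le_mul hp.two_le hp.two_le)
    have h5 : 0 < e := Nat.pos_of_ne_zero he0
    omega
  have hbound := card_le_natDegree_minpoly hxint σ₀ (insert x T) (by
    intro z hz
    rcases Finset.mem_insert.mp hz with rfl | hz
    · exact hxroot
    · exact hTroot z hz)
  rw [Finset.card_insert_of_notMem hxnT, hT] at hbound
  obtain ⟨σ', hσ', -⟩ := exists_extension hxint σ₀ hc₁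
  refine ⟨?_, ?_⟩
  · rw [hgen, finrank_adjoin_insert hxint, ← hE]
    exact Nat.mul_le_mul_left _ hbound
  · have key : ∀ (U : Set (Amb k)) (h : U = insert x S) (hu : x ∈ U),
        ∃ (σ : adjoin K0 U →ₐ[K0] Amb k) (c : kˣ), σ ⟨x, subset_adjoin _ _ hu⟩ = Xj (N / p ^ 1) c := by
      rintro U rfl hu
      exact ⟨σ', c₁, hσ'⟩
    exact key _ hgen (Or.inr ⟨1, le_rfl, rfl⟩)

include φ in
/-- Higher steps multiply the degree by `p`. -/
theorem chain_step (hN : (N : k) ≠ 0) {P : Finset ℕ} (hP : ∀ q ∈ P, q.Prime) {p : ℕ} [Fact p.Prime]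
    (hpP : p ∉ P) {i : ℕ} (hi0 : 1 ≤ i) (hi : i < N.factorization p)
    (σ : adjoin (baseField k N) (chainSet (k := k) N P p i) →ₐ[baseField k N] Amb k) (c : kˣ)
    (hσ : σ ⟨_, subset_adjoin _ _ (Or.inr ⟨i, le_rfl, rfl⟩)⟩ = Xj (N / p ^ i) c) :
    Module.finrank (baseField k N) (adjoin (baseField k N) (chainSet (k := k) N P p i)) * p
      ≤ Module.finrank (baseField k N) (adjoin (baseField k N) (chainSet (k := k) N P p (i + 1))) ∧
    ∃ (σ' : adjoin (baseField k N) (chainSet (k := k) N P p (i + 1)) →ₐ[baseField k N] Amb k) (c : kˣ),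
      σ' ⟨_, subset_adjoin _ _ (Or.inr ⟨i + 1, le_rfl, rfl⟩)⟩ = Xj (N / p ^ (i + 1)) c := by
  have hp : p.Prime := Fact.out
  haveI : NeZero p := ⟨hp.ne_zero⟩
  set x : Amb k := gen N p (i + 1)
  have hgen : chainSet (k := k) N P p (i + 1) = insert x (chainSet (k := k) N P p i) := chainSet_succ P p i
  have hxint : IsIntegral (baseField k N) x := isIntegral_gen φ p (i + 1) hi
  set d := N / p ^ (i + 1)
  have hd : d ≠ 0 := div_pow_ne_zero hp.pos hi
  obtain ⟨c', hc'⟩ := IsAlgClosed.exists_pow_nat_eq (c : k) hp.pos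
  have hc'0 : c' ≠ 0 := fun e => c.ne_zero (by rw [← hc', e, zero_pow hp.ne_zero])
  have hσ' : σ ⟨_, subset_adjoin _ _ (Or.inr ⟨i, le_rfl, rfl⟩)⟩
      = Xj (p * d) ((Units.mk0 c' hc'0) ^ p) := by
    rw [hσ, div_pow_eq hp.pos hi, show (Units.mk0 c' hc'0) ^ p = c from Units.ext (by simp [hc'])]
  -- the parent conjugate
  obtain ⟨i', hi'⟩ : ∃ i', i = i' + 1 := ⟨i - 1, by omega⟩
  have hmem' : gen (k := k) N p i' ∈ adjoin (baseField k N) (chainSet (k := k) N P p i) := subset_adjoin _ _ (Or.inr ⟨i', by omega, rfl⟩)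
  obtain ⟨a, e', ha, hadvd, hpar⟩ := image_gen φ hN σ p i' (by omega)
    (fun j hj => subset_adjoin _ _ (Or.inr ⟨j, by omega, rfl⟩)) hmem'
  have hparent : σ ⟨_, hmem'⟩ = Xj (p * p * d) ((Units.mk0 c' hc'0) ^ (p * p)) := by
    set y : adjoin (baseField k N) (chainSet (k := k) N P p i) := ⟨_, subset_adjoin _ _ (Or.inr ⟨i, le_rfl, rfl⟩)⟩
    have h0 : (modEqAt p y).eval ⟨_, hmem'⟩ = 0 := by
      refine Subtype.val_injective ?_
      change algebraMap (adjoin (baseField k N) (chainSet (k := k) N P p i)) (Amb k) _ = algebraMap (adjoin (baseField k N) (chainSet (k := k) N P p i)) (Amb k) 0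
      rw [map_zero, ← eval_map_apply, map_modEqAt]
      have := (eval_modEqAt_gen (k := k) φ (dvd_N_of_lt hi) i).2 hi0
      rwa [show i - 1 = i' by omega] at this
    have h1 := congr_arg σ.toRingHom h0
    rw [map_zero, ← eval_map_apply, map_modEqAt] at h1
    change (modEqAt p (σ y)).eval (σ ⟨_, hmem'⟩) = 0 at h1
    rw [hσ', eval_modEqAt_eq_zero_iff p φ d hd] at h1
    refine h1.resolve_right ?_
    rintro ⟨j, hj⟩
    rw [hpar] at hj
    have hae := (Xj_inj ha hd hj).1
    have h2 : N / p ^ i' = p * (p * d) := by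
      rw [div_pow_eq hp.pos (by omega), ← hi', div_pow_eq hp.pos hi]
    rw [h2, hae] at hadvd
    have h3 := Nat.le_of_dvd (Nat.pos_of_ne_zero hd) hadvd
    have h4 : 2 * (2 * d) ≤ p * (p * d) := Nat.mul_le_mul hp.two_le (Nat.mul_le_mul_right d hp.two_le)
    omega
  obtain ⟨z, hz⟩ := IsAlgClosed.exists_root (minpolyVia σ x) (by
    rw [degree_eq_natDegree (show minpolyVia σ x ≠ 0 from
      ((minpoly.monic hxint.tower_top).map _).ne_zero), natDegree_minpolyVia]
    exact_mod_cast (minpoly.natDegree_pos (hxint.tower_top (A := adjoin (baseField k N) (chainSet (k := k) N P p i)))).ne')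
  change (minpolyVia σ x).eval z = 0 at hz
  have hzΦ := eval_modEqAt_of_minpolyVia φ hi σ hz
  rw [hσ', eval_modEqAt_eq_zero_iff p φ d hd] at hzΦ
  rcases hzΦ with hzp | ⟨j, hj⟩
  · exfalso
    rw [← hparent] at hzp
    rw [hzp] at hz
    have hxe := eq_of_minpolyVia_eval_eq_zero hxint σ ⟨_, hmem'⟩ hz
    simp only [x, gen] at hxe
    have h := (Xj_inj (Nat.mul_ne_zero (NeZero.ne N) (pow_ne_zero _ hp.ne_zero))
      (Nat.mul_ne_zero (NeZero.ne N) (pow_ne_zero _ hp.ne_zero)) hxe).1
    have := Nat.pow_right_injective hp.two_le (Nat.eq_of_mul_eq_mul_left (Nat.pos_of_ne_zero (NeZero.ne N)) h)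
    omega
  · rw [hj] at hz
    obtain ⟨T, hT, hTroot, -⟩ := exists_conjugates φ hN hP hpP hi σ hz
    have hbound := card_le_natDegree_minpoly hxint σ T hTroot
    rw [hT] at hbound
    obtain ⟨σ'', hσ'', -⟩ := exists_extension hxint σ hz
    refine ⟨?_, ?_⟩
    · rw [hgen, finrank_adjoin_insert hxint]
      exact Nat.mul_le_mul_left _ hbound
    · have key : ∀ (U : Set (Amb k)) (h : U = insert x (chainSet (k := k) N P p i)) (hu : x ∈ U),
          ∃ (σ : adjoin (baseField k N) U →ₐ[(baseField k N)] Amb k) (c : kˣ),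
            σ ⟨x, subset_adjoin _ _ hu⟩ = Xj (N / p ^ (i + 1)) c := by
        rintro U rfl hu
        exact ⟨σ'', _, hσ''⟩
      exact key _ hgen (Or.inr ⟨i + 1, le_rfl, rfl⟩)

include φ in
theorem psiProd_le_finrank (hN : (N : k) ≠ 0) :
    psiProd N ≤ Module.finrank (baseField k N)
      (adjoin (baseField k N) (genSet (k := k) N N.primeFactors)) := by
  have hchain : ∀ (P : Finset ℕ), (∀ q ∈ P, q.Prime) → ∀ p, p.Prime → p ∉ P →
      ∀ i, 1 ≤ i → i ≤ N.factorization p →
      Module.finrank (baseField k N) (adjoin (baseField k N) (genSet (k := k) N P)) * ((p + 1) * p ^ (i - 1))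
        ≤ Module.finrank (baseField k N) (adjoin (baseField k N) (chainSet (k := k) N P p i)) ∧
      ∃ (σ : adjoin (baseField k N) (chainSet (k := k) N P p i) →ₐ[baseField k N] Amb k) (c : kˣ),
        σ ⟨_, subset_adjoin _ _ (Or.inr ⟨i, le_rfl, rfl⟩)⟩ = Xj (N / p ^ i) c := by
    intro P hP p hp hpP i hi1
    haveI : Fact p.Prime := ⟨hp⟩
    induction i, hi1 using Nat.le_induction with
    | base =>
      intro hi
      obtain ⟨h1, h2⟩ := chain_one φ hN hP hpP hi
      exact ⟨by simpa using h1, h2⟩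
    | succ i hi1 ih =>
      intro hi
      obtain ⟨h1, σ, c, hσ⟩ := ih (Nat.le_of_succ_le hi)
      obtain ⟨h2, h3⟩ := chain_step φ hN hP hpP hi1 hi σ c hσ
      refine ⟨le_trans ?_ h2, h3⟩
      refine le_trans (le_of_eq ?_) (Nat.mul_le_mul_right p h1)
      obtain ⟨i', rfl⟩ : ∃ i', i = i' + 1 := ⟨i - 1, by omega⟩
      simp only [Nat.add_sub_cancel, pow_succ]
      ring
  have key : ∀ P : Finset ℕ, P ⊆ N.primeFactors →
      ∏ p ∈ P, (p + 1) * p ^ (N.factorization p - 1) ≤
        Module.finrank (baseField k N) (adjoin (baseField k N) (genSet (k := k) N P)) := by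
    intro P
    induction P using Finset.induction_on with
    | empty =>
      intro _
      haveI := finiteDimensional_genSet (k := k) φ (N := N) ∅
      rw [Finset.prod_empty]
      exact Module.finrank_pos
    | insert p P hp ih =>
      intro hsub
      have hpf := hsub (Finset.mem_insert_self p P)
      have hP : P ⊆ N.primeFactors := (Finset.subset_insert p P).trans hsub
      have he : 1 ≤ N.factorization p :=
        (Nat.prime_of_mem_primeFactors hpf).factorization_pos_of_dvd (NeZero.ne N)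
          (Nat.dvd_of_mem_primeFactors hpf)
      have h := (hchain P (fun q hq => Nat.prime_of_mem_primeFactors (hP hq)) p
        (Nat.prime_of_mem_primeFactors hpf) hp _ he le_rfl).1
      rw [genSet_insert, Finset.prod_insert hp]
      refine le_trans ?_ h
      rw [mul_comm (Module.finrank _ _)]
      exact Nat.mul_le_mul_left _ (ih hP)
  exact key _ Finset.Subset.rfl

end FLTAgent.Igusa
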